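import Mathlib

/-!
# Lattices and characteristic polynomials (P-ES, ES-G adic core)

Let `R` be a PID with fraction field `K`, `V` a finite-dimensional `K`-vector space and `M` an
`R`-lattice in `V`, stable under a `K`-linear endomorphism `f`.  Then the characteristic
polynomial of `f` on `M` maps to the characteristic polynomial of `f` on `V`.
-/

set_option autoImplicit false
set_option linter.unusedSectionVars false

namespace Fermat.Agent.H52

open Polynomial Module

section Lattice

variable {R : Type*} [CommRing R] [IsDomain R] [IsPrincipalIdealRing R]
variable {K : Type*} [Field K] [Algebra R K] [IsFractionRing R K]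
variable {V : Type*} [AddCommGroup V] [Module K V] [Module R V] [IsScalarTower R K V]

/-- The restriction of a `K`-linear endomorphism to a stable `R`-lattice. -/
noncomputable def esLatticeRestrict (M : Submodule R V) (f : Module.End K V)
    (hf : ∀ x ∈ M, f x ∈ M) : Module.End R M :=
  (f.restrictScalars R).restrict hf

@[simp] lemma esLatticeRestrict_coe (M : Submodule R V) (f : Module.End K V)
    (hf : ∀ x ∈ M, f x ∈ M) (x : M) : ((esLatticeRestrict M f hf x : M) : V) = f x := rfl

lemma esLattice_finrank_eq (M : Submodule R V) [Submodule.IsLattice K M] :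
    Module.finrank R M = Module.finrank K V := by
  unfold Module.finrank
  rw [Submodule.IsLattice.rank' K M]

lemma esLattice_toMatrix {κ : Type*} [Fintype κ] [DecidableEq κ]
    (M : Submodule R V) [Submodule.IsLattice K M] (b : Basis κ R M)
    (f : Module.End K V) (hf : ∀ x ∈ M, f x ∈ M) :
    LinearMap.toMatrix (b.extendOfIsLattice K) (b.extendOfIsLattice K) f =
      (LinearMap.toMatrix b b (esLatticeRestrict M f hf)).map (algebraMap R K) := by
  ext i j
  rw [LinearMap.toMatrix_apply, Matrix.map_apply, LinearMap.toMatrix_apply,
    Basis.extendOfIsLattice_apply]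
  have h1 : f ((b j : M) : V) = ((esLatticeRestrict M f hf (b j) : M) : V) := rfl
  rw [h1]
  set y : M := esLatticeRestrict M f hf (b j) with hy
  have h2 : (y : V) = ∑ l, algebraMap R K (b.repr y l) • (b.extendOfIsLattice K) l := by
    conv_lhs => rw [← b.sum_repr y]
    rw [Submodule.coe_sum]
    refine Finset.sum_congr rfl fun l _ => ?_
    rw [Submodule.coe_smul_of_tower, Basis.extendOfIsLattice_apply, algebraMap_smul]
  rw [h2, map_sum, Finsupp.coe_finsetSum, Finset.sum_apply]
  simp only [map_smul, Basis.repr_self, Finsupp.smul_apply, smul_eq_mul]
  rw [Finset.sum_eq_single i]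
  · simp
  · intro l _ hl
    simp [Finsupp.single_eq_of_ne hl.symm]
  · intro hi
    exact absurd (Finset.mem_univ i) hi

/-- The characteristic polynomial on a stable lattice maps to the characteristic polynomial
on the ambient vector space. -/
theorem esLattice_charpoly [Module.Finite K V] [Module.IsTorsionFree R K]
    (M : Submodule R V) [Submodule.IsLattice K M]
    (f : Module.End K V) (hf : ∀ x ∈ M, f x ∈ M) :
    (esLatticeRestrict M f hf).charpoly.map (algebraMap R K) = f.charpoly := by
  classical
  let b := Module.Free.chooseBasis R M
  have : Fintype (Module.Free.ChooseBasisIndex R M) := Module.Free.ChooseBasisIndex.fintype R M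
  rw [← LinearMap.charpoly_toMatrix (esLatticeRestrict M f hf) b,
    ← LinearMap.charpoly_toMatrix f (b.extendOfIsLattice K), esLattice_toMatrix M b f hf,
    Matrix.charpoly_map]

end Lattice

end Fermat.Agent.H52
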