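import Mathlib

/-!
# Quadratic relations and two-dimensional representations (P-ES, ES-G core)

Pure algebra.  Let `G` be a group acting on a `K`-vector space `U` through `ρ`, and suppose that
every `g` satisfies `ρ g ^ 2 - a g • ρ g + d g = 0`, with `d` multiplicative.  If `U` is irreducible
and the image of the group algebra contains a non-trivial idempotent, then `U` has dimension two
and the characteristic polynomial of `ρ g` is `X ^ 2 - a g X + d g`.
-/

set_option autoImplicit false

namespace Fermat.Agent.H52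

open Polynomial

section Quad

variable {G : Type*} [Group G] {K : Type*} [Field K] {U : Type*} [AddCommGroup U] [Module K U]

/-- The quadratic relation satisfied by a representation. -/
structure ESQuadRel (ρ : G →* Module.End K U) (a : G → K) (d : G →* K) : Prop where
  rel : ∀ g, ρ g * ρ g - a g • ρ g + d g • (1 : Module.End K U) = 0

/-- The `K`-span of the pairs `(ρ g, a g)`. -/
def esGraph (ρ : G →* Module.End K U) (a : G → K) : Submodule K (Module.End K U × K) :=
  Submodule.span K (Set.range fun g => (ρ g, a g))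

/-- The "conjugate" of a pair. -/
def esTilde (p : Module.End K U × K) : Module.End K U := p.2 • (1 : Module.End K U) - p.1

lemma esTilde_add (p q : Module.End K U × K) : esTilde (p + q) = esTilde p + esTilde q := by
  simp only [esTilde, Prod.fst_add, Prod.snd_add, add_smul]; abel

lemma esTilde_smul (c : K) (p : Module.End K U × K) : esTilde (c • p) = c • esTilde p := by
  simp only [esTilde, Prod.smul_fst, Prod.smul_snd, smul_eq_mul, mul_smul, smul_sub]

lemma esTilde_zero : esTilde (0 : Module.End K U × K) = 0 := by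
  simp [esTilde]

variable {ρ : G →* Module.End K U} {a : G → K} {d : G →* K}

lemma ESQuadRel.d_ne_zero (_h : ESQuadRel ρ a d) (g : G) : d g ≠ 0 := by
  intro h0
  have : d (g * g⁻¹) = 0 := by rw [map_mul, h0, zero_mul]
  rw [mul_inv_cancel, map_one] at this
  exact one_ne_zero this

lemma ESQuadRel.mul_tilde (h : ESQuadRel ρ a d) (g : G) :
    ρ g * esTilde (ρ g, a g) = d g • (1 : Module.End K U) := by
  have := h.rel g
  simp only [esTilde]
  rw [mul_sub, mul_smul_comm, mul_one]
  calc a g • ρ g - ρ g * ρ g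
      = (a g • ρ g - ρ g * ρ g) + (ρ g * ρ g - a g • ρ g + d g • (1 : Module.End K U)) := by
        rw [this, add_zero]
    _ = d g • (1 : Module.End K U) := by abel

lemma ESQuadRel.tilde_eq (h : ESQuadRel ρ a d) (g : G) :
    esTilde (ρ g, a g) = d g • ρ g⁻¹ := by
  have h1 := h.mul_tilde g
  have h2 : ρ g⁻¹ * (ρ g * esTilde (ρ g, a g)) = ρ g⁻¹ * (d g • (1 : Module.End K U)) := by
    rw [h1]
  rw [← mul_assoc, ← map_mul, inv_mul_cancel, map_one, one_mul, mul_smul_comm, mul_one] at h2
  exact h2

lemma ESQuadRel.tilde_mul (h : ESQuadRel ρ a d) (g k : G) :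
    esTilde (ρ (g * k), a (g * k)) = esTilde (ρ k, a k) * esTilde (ρ g, a g) := by
  rw [h.tilde_eq, h.tilde_eq, h.tilde_eq, mul_inv_rev, map_mul, map_mul, smul_mul_smul_comm,
    mul_comm (d k)]

lemma ESQuadRel.a_one (h : ESQuadRel ρ a d) [Nontrivial U] : a 1 = 2 := by
  have h1 := h.tilde_eq 1
  simp only [esTilde, map_one, inv_one, one_smul] at h1
  have h2 : (a 1 - 2) • (1 : Module.End K U) = 0 := by
    rw [sub_smul, two_smul]
    calc a 1 • (1 : Module.End K U) - (1 + 1) = (a 1 • (1 : Module.End K U) - 1) - 1 := by abel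
      _ = 0 := by rw [h1, sub_self]
  rcases smul_eq_zero.mp h2 with h3 | h3
  · exact sub_eq_zero.mp h3
  · exact absurd h3 one_ne_zero

lemma esGraph_gen_mem (ρ : G →* Module.End K U) (a : G → K) (g : G) :
    (ρ g, a g) ∈ esGraph ρ a :=
  Submodule.subset_span ⟨g, rfl⟩

/-- Polarised form: `x ỹ + y x̃` is a scalar. -/
lemma ESQuadRel.pair_scalar (h : ESQuadRel ρ a d) {p q : Module.End K U × K}
    (hp : p ∈ esGraph ρ a) (hq : q ∈ esGraph ρ a) :
    ∃ n : K, p.1 * esTilde q + q.1 * esTilde p = n • (1 : Module.End K U) := by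
  -- first: generators against generators
  have gen : ∀ g k : G, ∃ n : K, ρ g * esTilde (ρ k, a k) + ρ k * esTilde (ρ g, a g) =
      n • (1 : Module.End K U) := by
    intro g k
    refine ⟨d k * a (g * k⁻¹), ?_⟩
    have h1 := h.tilde_eq (g * k⁻¹)
    simp only [esTilde] at h1
    rw [mul_inv_rev, inv_inv] at h1
    rw [h.tilde_eq, h.tilde_eq, mul_smul_comm, mul_smul_comm, ← map_mul, ← map_mul, mul_smul]
    have h2 : a (g * k⁻¹) • (1 : Module.End K U) = ρ (g * k⁻¹) + d (g * k⁻¹) • ρ (k * g⁻¹) := by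
      rw [← h1]; abel
    rw [h2, smul_add, smul_smul]
    have h3 : d k * d (g * k⁻¹) = d g := by
      rw [mul_comm, ← map_mul, inv_mul_cancel_right]
    rw [h3]
  -- second: arbitrary `p` against generators
  have step : ∀ k : G, ∀ p ∈ esGraph ρ a, ∃ n : K,
      p.1 * esTilde (ρ k, a k) + ρ k * esTilde p = n • (1 : Module.End K U) := by
    intro k p hp
    induction hp using Submodule.span_induction with
    | mem x hx =>
      obtain ⟨g, rfl⟩ := hx
      exact gen g k
    | zero =>
      exact ⟨0, by simp [esTilde_zero]⟩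
    | add x y _ _ hx hy =>
      obtain ⟨n, hn⟩ := hx
      obtain ⟨m, hm⟩ := hy
      refine ⟨n + m, ?_⟩
      rw [add_smul, ← hn, ← hm, esTilde_add, Prod.fst_add, add_mul, mul_add]
      abel
    | smul c x _ hx =>
      obtain ⟨n, hn⟩ := hx
      refine ⟨c * n, ?_⟩
      rw [mul_smul, ← hn, esTilde_smul, Prod.smul_fst, smul_mul_assoc, mul_smul_comm, smul_add]
  induction hq using Submodule.span_induction with
  | mem x hx =>
    obtain ⟨k, rfl⟩ := hx
    exact step k p hp
  | zero =>
    exact ⟨0, by simp [esTilde_zero]⟩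
  | add x y _ _ hx hy =>
    obtain ⟨n, hn⟩ := hx
    obtain ⟨m, hm⟩ := hy
    refine ⟨n + m, ?_⟩
    rw [add_smul, ← hn, ← hm, esTilde_add, Prod.fst_add, add_mul, mul_add]
    abel
  | smul c x _ hx =>
    obtain ⟨n, hn⟩ := hx
    refine ⟨c * n, ?_⟩
    rw [mul_smul, ← hn, esTilde_smul, Prod.smul_fst, smul_mul_assoc, mul_smul_comm, smul_add]

/-- Every element of the span satisfies a quadratic relation: `x x̃` is a scalar. -/
lemma ESQuadRel.self_scalar (h : ESQuadRel ρ a d) {p : Module.End K U × K}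
    (hp : p ∈ esGraph ρ a) :
    ∃ n : K, p.1 * esTilde p = n • (1 : Module.End K U) := by
  induction hp using Submodule.span_induction with
  | mem x hx =>
    obtain ⟨g, rfl⟩ := hx
    exact ⟨d g, h.mul_tilde g⟩
  | zero =>
    exact ⟨0, by simp⟩
  | add x y hx' hy' hx hy =>
    obtain ⟨n, hn⟩ := hx
    obtain ⟨m, hm⟩ := hy
    obtain ⟨r, hr⟩ := h.pair_scalar hx' hy'
    refine ⟨n + m + r, ?_⟩
    rw [add_smul, add_smul, ← hn, ← hm, ← hr, esTilde_add, Prod.fst_add, add_mul, mul_add, mul_add]
    abel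
  | smul c x _ hx =>
    obtain ⟨n, hn⟩ := hx
    refine ⟨c * c * n, ?_⟩
    rw [mul_smul, mul_smul, ← hn, esTilde_smul, Prod.smul_fst, smul_mul_assoc, mul_smul_comm]

/-- The span is stable under right multiplication by group elements, compatibly with `~`. -/
lemma ESQuadRel.mul_right_mem (h : ESQuadRel ρ a d) {p : Module.End K U × K}
    (hp : p ∈ esGraph ρ a) (k : G) :
    ∃ s : K, (p.1 * ρ k, s) ∈ esGraph ρ a ∧
      esTilde (p.1 * ρ k, s) = esTilde (ρ k, a k) * esTilde p := by
  induction hp using Submodule.span_induction with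
  | mem x hx =>
    obtain ⟨g, rfl⟩ := hx
    refine ⟨a (g * k), ?_, ?_⟩
    · rw [← map_mul]; exact esGraph_gen_mem ρ a (g * k)
    · rw [← map_mul]; exact h.tilde_mul g k
  | zero =>
    refine ⟨0, ?_, ?_⟩
    · simp only [Prod.fst_zero, zero_mul]
      exact (esGraph ρ a).zero_mem
    · simp [esTilde]
  | add x y _ _ hx hy =>
    obtain ⟨s, hs, hs'⟩ := hx
    obtain ⟨t, ht, ht'⟩ := hy
    refine ⟨s + t, ?_, ?_⟩
    · have := (esGraph ρ a).add_mem hs ht
      simpa only [Prod.mk_add_mk, Prod.fst_add, add_mul] using this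
    · have e : ((x + y).1 * ρ k, s + t) = (x.1 * ρ k, s) + (y.1 * ρ k, t) := by
        simp only [Prod.mk_add_mk, Prod.fst_add, add_mul]
      rw [e, esTilde_add, hs', ht', esTilde_add, mul_add]
  | smul c x _ hx =>
    obtain ⟨s, hs, hs'⟩ := hx
    refine ⟨c * s, ?_, ?_⟩
    · have := (esGraph ρ a).smul_mem c hs
      simpa only [Prod.smul_mk, Prod.smul_fst, smul_mul_assoc, smul_eq_mul] using this
    · have e : ((c • x).1 * ρ k, c * s) = c • (x.1 * ρ k, s) := by
        simp only [Prod.smul_mk, Prod.smul_fst, smul_mul_assoc, smul_eq_mul]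
      rw [e, esTilde_smul, hs', esTilde_smul, mul_smul_comm]

/-- The span is stable under products. -/
lemma ESQuadRel.mul_mem (h : ESQuadRel ρ a d) {p q : Module.End K U × K}
    (hp : p ∈ esGraph ρ a) (hq : q ∈ esGraph ρ a) :
    ∃ s : K, (p.1 * q.1, s) ∈ esGraph ρ a := by
  induction hq using Submodule.span_induction with
  | mem x hx =>
    obtain ⟨k, rfl⟩ := hx
    obtain ⟨s, hs, -⟩ := h.mul_right_mem hp k
    exact ⟨s, hs⟩
  | zero =>
    refine ⟨0, ?_⟩
    simp only [Prod.fst_zero, mul_zero]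
    exact (esGraph ρ a).zero_mem
  | add x y _ _ hx hy =>
    obtain ⟨s, hs⟩ := hx
    obtain ⟨t, ht⟩ := hy
    refine ⟨s + t, ?_⟩
    have := (esGraph ρ a).add_mem hs ht
    simpa only [Prod.mk_add_mk, Prod.fst_add, mul_add] using this
  | smul c x _ hx =>
    obtain ⟨s, hs⟩ := hx
    refine ⟨c * s, ?_⟩
    have := (esGraph ρ a).smul_mem c hs
    simpa only [Prod.smul_mk, Prod.smul_fst, mul_smul_comm, smul_eq_mul] using this

lemma ESQuadRel.one_mem (h : ESQuadRel ρ a d) [Nontrivial U] :
    ((1 : Module.End K U), (2 : K)) ∈ esGraph ρ a := by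
  have := esGraph_gen_mem ρ a (1 : G)
  rwa [map_one, h.a_one] at this

/-- If some group element does not act as a scalar, the "trace" is well defined. -/
lemma ESQuadRel.snd_eq_zero (h : ESQuadRel ρ a d)
    (hns : ∃ k : G, ∀ c : K, ρ k ≠ c • (1 : Module.End K U))
    {p : Module.End K U × K} (hp : p ∈ esGraph ρ a) (hp1 : p.1 = 0) : p.2 = 0 := by
  by_contra hs
  obtain ⟨k, hk⟩ := hns
  obtain ⟨s', -, hs'⟩ := h.mul_right_mem hp k
  simp only [esTilde, hp1, zero_mul, sub_zero] at hs'
  -- `s' • 1 = (a k • 1 - ρ k) * (p.2 • 1)`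
  rw [mul_smul_comm, mul_one, smul_sub, smul_smul] at hs'
  apply hk (a k - s' / p.2)
  have h4 : p.2 • ρ k = (p.2 * a k - s') • (1 : Module.End K U) := by
    rw [sub_smul, hs']; abel
  have h5 : ρ k = p.2⁻¹ • (p.2 • ρ k) := by rw [smul_smul, inv_mul_cancel₀ hs, one_smul]
  rw [h5, h4, smul_smul]
  congr 1
  field_simp

lemma ESQuadRel.snd_unique (h : ESQuadRel ρ a d)
    (hns : ∃ k : G, ∀ c : K, ρ k ≠ c • (1 : Module.End K U))
    {x : Module.End K U} {s t : K} (hs : (x, s) ∈ esGraph ρ a) (ht : (x, t) ∈ esGraph ρ a) :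
    s = t := by
  have := h.snd_eq_zero hns ((esGraph ρ a).sub_mem hs ht) (by simp)
  simpa [sub_eq_zero] using this

lemma esGraph_fst_scalar (ρ : G →* Module.End K U) (a : G → K)
    (hsc : ∀ k : G, ∃ c : K, ρ k = c • (1 : Module.End K U))
    {p : Module.End K U × K} (hp : p ∈ esGraph ρ a) :
    ∃ c : K, p.1 = c • (1 : Module.End K U) := by
  induction hp using Submodule.span_induction with
  | mem x hx =>
    obtain ⟨g, rfl⟩ := hx
    exact hsc g
  | zero => exact ⟨0, by simp⟩
  | add x y _ _ hx hy =>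
    obtain ⟨n, hn⟩ := hx
    obtain ⟨m, hm⟩ := hy
    exact ⟨n + m, by rw [Prod.fst_add, hn, hm, add_smul]⟩
  | smul c x _ hx =>
    obtain ⟨n, hn⟩ := hx
    exact ⟨c * n, by rw [Prod.smul_fst, hn, smul_smul]⟩

/-- If the span contains a non-scalar element, some group element is not scalar. -/
lemma esGraph_exists_nonscalar (ρ : G →* Module.End K U) (a : G → K)
    {p : Module.End K U × K} (hp : p ∈ esGraph ρ a)
    (hns : ∀ c : K, p.1 ≠ c • (1 : Module.End K U)) :
    ∃ k : G, ∀ c : K, ρ k ≠ c • (1 : Module.End K U) := by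
  by_contra hcon
  have hsc : ∀ k : G, ∃ c : K, ρ k = c • (1 : Module.End K U) := fun k => by
    by_contra hk
    exact hcon ⟨k, fun c hc => hk ⟨c, hc⟩⟩
  obtain ⟨c, hc⟩ := esGraph_fst_scalar ρ a hsc hp
  exact hns c hc

/-- The corner lemma: for an idempotent `E ≠ 1` of "trace" one, `E B E = K E`. -/
lemma ESQuadRel.corner (h : ESQuadRel ρ a d)
    {E : Module.End K U} (hE : (E, (1 : K)) ∈ esGraph ρ a) (hEE : E * E = E) (hE1 : E ≠ 1)
    {p : Module.End K U × K} (hp : p ∈ esGraph ρ a) :
    ∃ c : K, E * p.1 * E = c • E := by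
  obtain ⟨s₁, hs₁⟩ := h.mul_mem hE hp
  obtain ⟨s, hs⟩ := h.mul_mem hs₁ hE
  simp only at hs
  set y : Module.End K U := E * p.1 * E with hy
  have hyE : y * E = y := by rw [hy, mul_assoc, hEE]
  have hEy : E * y = y := by rw [hy, ← mul_assoc, ← mul_assoc, hEE]
  have hF : (1 : Module.End K U) - E ≠ 0 := fun h0 => hE1 (sub_eq_zero.mp h0).symm
  have kill : ∀ (z : Module.End K U) (n : K), E * z = z → z = n • (1 : Module.End K U) →
      n = 0 := by
    intro z n hz hzn
    have h1 : (1 - E) * z = 0 := by rw [sub_mul, one_mul, hz, sub_self]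
    rw [hzn, mul_smul_comm, mul_one] at h1
    rcases smul_eq_zero.mp h1 with h2 | h2
    · exact h2
    · exact absurd h2 hF
  -- first relation
  obtain ⟨n, hn⟩ := h.self_scalar hs
  have hn0 : n = 0 := kill _ n (by rw [← mul_assoc, hEy]) hn
  rw [hn0, zero_smul] at hn
  simp only [esTilde, mul_sub, mul_smul_comm, mul_one] at hn
  -- `s • y = y * y`
  have hyy : y * y = s • y := (sub_eq_zero.mp hn).symm
  -- second relation
  have hs' : (y + E, s + 1) ∈ esGraph ρ a := by
    have := (esGraph ρ a).add_mem hs hE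
    simpa only [Prod.mk_add_mk] using this
  obtain ⟨m, hm⟩ := h.self_scalar hs'
  have hm0 : m = 0 := kill _ m (by rw [← mul_assoc, mul_add, hEy, hEE]) hm
  rw [hm0, zero_smul] at hm
  simp only [esTilde, mul_sub, mul_smul_comm, mul_one] at hm
  have hsq : (y + E) * (y + E) = s • y + (y + y) + E := by
    rw [add_mul, mul_add, mul_add, hyy, hyE, hEy, hEE]; abel
  rw [hsq, add_smul, one_smul, smul_add] at hm
  refine ⟨s, ?_⟩
  have : s • E - y = 0 := by
    calc s • E - y = s • y + s • E + (y + E) - (s • y + (y + y) + E) := by abel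
      _ = 0 := hm
  exact (sub_eq_zero.mp this).symm

/-- An idempotent different from `0` and `1` is not a scalar. -/
lemma es_idem_not_scalar {E : Module.End K U} (hEE : E * E = E) (hE0 : E ≠ 0) (hE1 : E ≠ 1)
    (c : K) : E ≠ c • (1 : Module.End K U) := by
  intro hc
  have hU : Nontrivial (Module.End K U) := ⟨⟨E, 0, hE0⟩⟩
  have h1 : (c * c - c) • (1 : Module.End K U) = 0 := by
    rw [sub_smul, ← smul_smul]
    have : c • c • (1 : Module.End K U) = E * E := by
      rw [hc, smul_mul_assoc, one_mul]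
    rw [this, hEE, hc, sub_self]
  rcases smul_eq_zero.mp h1 with h2 | h2
  · have h3 : c * (c - 1) = 0 := by rw [mul_sub, mul_one]; exact h2
    rcases mul_eq_zero.mp h3 with h4 | h4
    · exact hE0 (by rw [hc, h4, zero_smul])
    · exact hE1 (by rw [hc, sub_eq_zero.mp h4, one_smul])
  · exact one_ne_zero h2

/-- An idempotent in the span which is not `0` or `1` has "trace" one. -/
lemma ESQuadRel.idem_snd (h : ESQuadRel ρ a d)
    {E : Module.End K U} {s : K} (hE : (E, s) ∈ esGraph ρ a) (hEE : E * E = E) (hE0 : E ≠ 0)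
    (hE1 : E ≠ 1) : s = 1 := by
  obtain ⟨n, hn⟩ := h.self_scalar hE
  simp only [esTilde, mul_sub, mul_smul_comm, mul_one, hEE] at hn
  by_contra hs
  have hs' : s - 1 ≠ 0 := fun h0 => hs (sub_eq_zero.mp h0)
  apply es_idem_not_scalar hEE hE0 hE1 ((s - 1)⁻¹ * n)
  have h1 : (s - 1) • E = n • (1 : Module.End K U) := by
    rw [sub_smul, one_smul]; exact hn
  calc E = (s - 1)⁻¹ • ((s - 1) • E) := by rw [smul_smul, inv_mul_cancel₀ hs', one_smul]
    _ = ((s - 1)⁻¹ * n) • (1 : Module.End K U) := by rw [h1, smul_smul]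

/-- Main dimension statement: an irreducible module satisfying the quadratic relations, such
that the span of the image contains a non-trivial idempotent, has dimension two. -/
theorem ESQuadRel.finrank_eq_two (h : ESQuadRel ρ a d)
    (hirr : ∀ W : Submodule K U, (∀ g, ∀ x ∈ W, ρ g x ∈ W) → W = ⊥ ∨ W = ⊤)
    {E : Module.End K U} {s : K} (hE : (E, s) ∈ esGraph ρ a) (hEE : E * E = E) (hE0 : E ≠ 0)
    (hE1 : E ≠ 1) : Module.finrank K U = 2 := by
  have hU : Nontrivial U := by
    by_contra hU
    rw [not_nontrivial_iff_subsingleton] at hU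
    exact hE0 (LinearMap.ext fun x => Subsingleton.elim _ _)
  have hs1 : s = 1 := h.idem_snd hE hEE hE0 hE1
  subst hs1
  -- the complementary idempotent
  set F : Module.End K U := 1 - E with hFdef
  have hF : (F, (1 : K)) ∈ esGraph ρ a := by
    have := (esGraph ρ a).sub_mem h.one_mem hE
    have e : ((1 : Module.End K U), (2 : K)) - (E, (1 : K)) = (F, (1 : K)) := by
      rw [Prod.mk_sub_mk]; norm_num [hFdef]
    rwa [e] at this
  have hFF : F * F = F := by
    rw [hFdef, sub_mul, mul_sub, mul_sub, one_mul, mul_one, hEE]; abel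
  have hF0 : F ≠ 0 := fun h0 => hE1 (sub_eq_zero.mp h0).symm
  have hF1 : F ≠ 1 := fun h1 => hE0 (by
    have : E = 1 - F := by rw [hFdef]; abel
    rw [this, h1, sub_self])
  -- orbit argument
  have orbit : ∀ (P : Module.End K U), (P, (1 : K)) ∈ esGraph ρ a → P * P = P → P ≠ 1 →
      ∀ u : U, P u = u → u ≠ 0 → ∀ v : U, ∃ c : K, P v = c • u := by
    intro P hP hPP hP1 u hu hu0 v
    -- the orbit submodule
    let ev : (Module.End K U × K) →ₗ[K] U :=
      (LinearMap.applyₗ u : Module.End K U →ₗ[K] U).comp (LinearMap.fst K _ _)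
    have hev : ∀ p : Module.End K U × K, ev p = p.1 u := fun p => rfl
    have hstab : ∀ g, ∀ x ∈ (esGraph ρ a).map ev, ρ g x ∈ (esGraph ρ a).map ev := by
      intro g x hx
      obtain ⟨p, hp, rfl⟩ := hx
      obtain ⟨t, ht⟩ := h.mul_mem (esGraph_gen_mem ρ a g) hp
      exact ⟨_, ht, by rw [hev, hev]; rfl⟩
    have hmem : u ∈ (esGraph ρ a).map ev := ⟨_, h.one_mem, by rw [hev]; rfl⟩
    have htop : (esGraph ρ a).map ev = ⊤ := by
      rcases hirr _ hstab with hb | ht
      · rw [hb, Submodule.mem_bot] at hmem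
        exact absurd hmem hu0
      · exact ht
    have hv : v ∈ (esGraph ρ a).map ev := by rw [htop]; exact Submodule.mem_top
    obtain ⟨p, hp, rfl⟩ := hv
    obtain ⟨c, hc⟩ := h.corner hP hPP hP1 hp
    refine ⟨c, ?_⟩
    rw [hev]
    have : P (p.1 u) = (P * p.1 * P) u := by
      simp only [Module.End.mul_apply, hu]
    rw [this, hc, LinearMap.smul_apply, hu]
  -- nonzero vectors in the two images
  obtain ⟨u₀, hu₀⟩ : ∃ u₀, E u₀ ≠ 0 := by
    by_contra hcon
    exact hE0 (LinearMap.ext fun x => by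
      by_contra hx
      exact hcon ⟨x, hx⟩)
  obtain ⟨w₀, hw₀⟩ : ∃ w₀, F w₀ ≠ 0 := by
    by_contra hcon
    exact hF0 (LinearMap.ext fun x => by
      by_contra hx
      exact hcon ⟨x, hx⟩)
  have hEu : E (E u₀) = E u₀ := by rw [← Module.End.mul_apply, hEE]
  have hFw : F (F w₀) = F w₀ := by rw [← Module.End.mul_apply, hFF]
  have h1 := orbit E hE hEE hE1 (E u₀) hEu hu₀
  have h2 := orbit F hF hFF hF1 (F w₀) hFw hw₀
  have hspan : (⊤ : Submodule K U) ≤ Submodule.span K {E u₀, F w₀} := by
    intro v _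
    obtain ⟨c, hc⟩ := h1 v
    obtain ⟨c', hc'⟩ := h2 v
    have hv : v = c • E u₀ + c' • F w₀ := by
      rw [← hc, ← hc', hFdef, LinearMap.sub_apply, Module.End.one_apply]; abel
    rw [hv]
    exact Submodule.add_mem _
      (Submodule.smul_mem _ _ (Submodule.subset_span (Set.mem_insert _ _)))
      (Submodule.smul_mem _ _ (Submodule.subset_span (Set.mem_insert_of_mem _ rfl)))
  have hfin : Module.Finite K U := by
    rw [Module.finite_def]
    refine Submodule.fg_def.mpr ⟨{E u₀, F w₀}, by simp, le_antisymm le_top hspan⟩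
  have hle : Module.finrank K U ≤ 2 := by
    classical
    have h3 : Module.finrank K U ≤ ({E u₀, F w₀} : Finset U).card := by
      have := finrank_span_finset_le_card (R := K) ({E u₀, F w₀} : Finset U)
      have htop : Submodule.span K (({E u₀, F w₀} : Finset U) : Set U) = ⊤ := by
        refine le_antisymm le_top ?_
        simpa using hspan
      rw [Set.finrank, htop, finrank_top] at this
      exact this
    exact h3.trans (Finset.card_le_two)
  -- lower bound: in dimension ≤ 1 every endomorphism is a scalar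
  have hpos : 0 < Module.finrank K U := Module.finrank_pos
  by_contra hne
  have h1' : Module.finrank K U = 1 := by omega
  obtain ⟨v, hv0, hv⟩ := finrank_eq_one_iff'.mp h1'
  obtain ⟨c, hc⟩ := hv (E v)
  apply es_idem_not_scalar hEE hE0 hE1 c
  refine LinearMap.ext fun w => ?_
  obtain ⟨c', rfl⟩ := hv w
  rw [map_smul, ← hc, LinearMap.smul_apply, Module.End.one_apply, smul_comm]

/-- In dimension two, the characteristic polynomial is the expected one. -/
theorem ESQuadRel.charpoly_eq (h : ESQuadRel ρ a d) [Module.Finite K U]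
    (hfin : Module.finrank K U = 2)
    (hns : ∃ k : G, ∀ c : K, ρ k ≠ c • (1 : Module.End K U)) (g : G) :
    (ρ g).charpoly = X ^ 2 - C (a g) * X + C (d g) := by
  have hU : Nontrivial U := Module.nontrivial_of_finrank_eq_succ hfin
  let b : Module.Basis (Fin 2) K U := Module.finBasisOfFinrankEq K U hfin
  have hcp := LinearMap.charpoly_toMatrix (ρ g) b
  set M : Matrix (Fin 2) (Fin 2) K := LinearMap.toMatrix b b (ρ g) with hM
  rw [← hcp, Matrix.charpoly_fin_two]
  -- Cayley-Hamilton
  have hCH : M * M - M.trace • M + M.det • (1 : Matrix (Fin 2) (Fin 2) K) = 0 := by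
    have := Matrix.aeval_self_charpoly M
    rw [Matrix.charpoly_fin_two] at this
    simp only [map_add, map_sub, map_mul, map_pow, aeval_X, aeval_C] at this
    rw [pow_two, Algebra.algebraMap_eq_smul_one, Algebra.algebraMap_eq_smul_one,
      smul_mul_assoc, one_mul] at this
    exact this
  -- the relation, in matrix form
  have hrel : M * M - a g • M + d g • (1 : Matrix (Fin 2) (Fin 2) K) = 0 := by
    have := congrArg (LinearMap.toMatrix b b) (h.rel g)
    rw [map_add, map_sub, map_smul, map_smul, LinearMap.toMatrix_mul, LinearMap.toMatrix_one,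
      map_zero] at this
    exact this
  -- compare
  have hdiff : (M.trace - a g) • M = (M.det - d g) • (1 : Matrix (Fin 2) (Fin 2) K) := by
    have : (M.trace - a g) • M - (M.det - d g) • (1 : Matrix (Fin 2) (Fin 2) K) = 0 := by
      calc (M.trace - a g) • M - (M.det - d g) • (1 : Matrix (Fin 2) (Fin 2) K)
          = (M * M - a g • M + d g • (1 : Matrix (Fin 2) (Fin 2) K)) -
            (M * M - M.trace • M + M.det • (1 : Matrix (Fin 2) (Fin 2) K)) := by
            rw [sub_smul, sub_smul]; abel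
        _ = 0 := by rw [hCH, hrel, sub_zero]
    exact sub_eq_zero.mp this
  have htr : M.trace = a g := by
    by_contra hne
    have hne' : M.trace - a g ≠ 0 := fun h0 => hne (sub_eq_zero.mp h0)
    -- then `M` is a scalar matrix
    set c : K := (M.trace - a g)⁻¹ * (M.det - d g) with hc
    have hMc : M = c • (1 : Matrix (Fin 2) (Fin 2) K) := by
      calc M = (M.trace - a g)⁻¹ • ((M.trace - a g) • M) := by
            rw [smul_smul, inv_mul_cancel₀ hne', one_smul]
        _ = c • (1 : Matrix (Fin 2) (Fin 2) K) := by rw [hdiff, smul_smul]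
    have hρc : ρ g = c • (1 : Module.End K U) := by
      apply (LinearMap.toMatrix b b).injective
      rw [map_smul, LinearMap.toMatrix_one]
      exact hMc
    -- so `a g = 2 c`
    have h1 : (ρ g, a g) ∈ esGraph ρ a := esGraph_gen_mem ρ a g
    have h2 : (ρ g, 2 * c) ∈ esGraph ρ a := by
      have := (esGraph ρ a).smul_mem c h.one_mem
      rw [Prod.smul_mk, smul_eq_mul, ← hρc, mul_comm] at this
      exact this
    have h3 : a g = 2 * c := h.snd_unique hns h1 h2
    apply hne
    rw [h3, hMc, Matrix.trace_fin_two]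
    simp only [Matrix.smul_apply, Matrix.one_apply_eq, smul_eq_mul, mul_one]
    ring
  have hdet : M.det = d g := by
    rw [htr, sub_self, zero_smul] at hdiff
    have h0 := congrFun (congrFun hdiff 0) 0
    simp only [Matrix.zero_apply, Matrix.smul_apply, Matrix.one_apply_eq, smul_eq_mul,
      mul_one] at h0
    exact (sub_eq_zero.mp h0.symm)
  rw [htr, hdet]

/-- **Odd case.** If `2 ≠ 0` in `K`, and there is an involution `c` with `d c = -1` (complex
conjugation), then an irreducible module with the quadratic relations either consists of scalars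
or has dimension two. -/
theorem ESQuadRel.finrank_eq_two_of_odd (h : ESQuadRel ρ a d) [Nontrivial U]
    (hirr : ∀ W : Submodule K U, (∀ g, ∀ x ∈ W, ρ g x ∈ W) → W = ⊥ ∨ W = ⊤)
    (h2 : (2 : K) ≠ 0) (c : G) (hc : c * c = 1) (hdc : d c = -1)
    (hns : ∃ k : G, ∀ r : K, ρ k ≠ r • (1 : Module.End K U)) :
    Module.finrank K U = 2 := by
  have hcinv : c⁻¹ = c := inv_eq_of_mul_eq_one_right hc
  have hρc : ρ c * ρ c = 1 := by rw [← map_mul, hc, map_one]
  -- `a c = 0`
  have hac : a c = 0 := by
    have h1 := h.tilde_eq c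
    simp only [esTilde, hcinv, hdc, neg_smul, one_smul] at h1
    have h3 : a c • (1 : Module.End K U) = 0 := by
      calc a c • (1 : Module.End K U) = (a c • (1 : Module.End K U) - ρ c) + ρ c := by abel
        _ = 0 := by rw [h1]; abel
    rcases smul_eq_zero.mp h3 with h4 | h4
    · exact h4
    · exact absurd h4 one_ne_zero
  -- `ρ c` is not `± 1`
  have hne : ∀ r : K, ρ c ≠ r • (1 : Module.End K U) := by
    intro r hr
    have h1 : (ρ c, a c) ∈ esGraph ρ a := esGraph_gen_mem ρ a c
    have h2' : (ρ c, 2 * r) ∈ esGraph ρ a := by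
      have := (esGraph ρ a).smul_mem r h.one_mem
      rw [Prod.smul_mk, smul_eq_mul, ← hr, mul_comm] at this
      exact this
    have h3 : a c = 2 * r := h.snd_unique hns h1 h2'
    rw [hac] at h3
    have hr0 : r = 0 := by
      rcases mul_eq_zero.mp h3.symm with h4 | h4
      · exact absurd h4 h2
      · exact h4
    rw [hr0, zero_smul] at hr
    rw [hr, zero_mul] at hρc
    exact zero_ne_one hρc
  -- the idempotent
  set E : Module.End K U := (2 : K)⁻¹ • (1 + ρ c) with hE
  have hEmem : (E, (2 : K)⁻¹ * (2 + a c)) ∈ esGraph ρ a := by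
    have := (esGraph ρ a).smul_mem (2 : K)⁻¹
      ((esGraph ρ a).add_mem h.one_mem (esGraph_gen_mem ρ a c))
    simpa only [Prod.mk_add_mk, Prod.smul_mk, smul_eq_mul] using this
  have hEE : E * E = E := by
    rw [hE, smul_mul_smul_comm, add_mul, mul_add, mul_add, one_mul, mul_one, one_mul, hρc]
    have : (1 : Module.End K U) + ρ c + (ρ c + 1) = (2 : K) • (1 + ρ c) := by
      rw [two_smul]; abel
    rw [this, smul_smul, mul_assoc, inv_mul_cancel₀ h2, mul_one]
  have hE0 : E ≠ 0 := by
    intro h0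
    apply hne (-1)
    have h1 : (2 : K) • E = 0 := by rw [h0, smul_zero]
    rw [hE, smul_smul, mul_inv_cancel₀ h2, one_smul] at h1
    rw [neg_smul, one_smul]
    exact eq_neg_of_add_eq_zero_right h1
  have hE1 : E ≠ 1 := by
    intro h1
    apply hne 1
    have h3 : (2 : K) • E = (2 : K) • (1 : Module.End K U) := by rw [h1]
    rw [hE, smul_smul, mul_inv_cancel₀ h2, one_smul, two_smul] at h3
    rw [one_smul]
    exact add_left_cancel h3
  exact h.finrank_eq_two hirr hEmem hEE hE0 hE1

end Quad

end Fermat.Agent.H52
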