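import Mathlib
import Fermat.Agent.H52.ESQuad
import Fermat.Agent.H52.ESLattice
import Fermat.Agent.H64.QuadRel

/-!
# From quadratic relations on a lattice to a two-dimensional adic representation
(P-ES, ES-G adic core)
-/

set_option autoImplicit false
set_option linter.unusedSectionVars false
set_option maxSynthPendingDepth 3

namespace Fermat.Agent.H52

open Polynomial Module TensorProduct

section Adic

variable {O : Type} [CommRing O] [IsDomain O]
variable {G : Type*} [Group G]
variable {Λ : Type} [AddCommGroup Λ] [Module O Λ]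

/-- The rational vector space of a lattice. -/
abbrev ESW (O : Type) [CommRing O] [IsDomain O] (Λ : Type) [AddCommGroup Λ] [Module O Λ] : Type :=
  FractionRing O ⊗[O] Λ

/-- The base-changed representation. -/
noncomputable def esRhoW (ρ : G →* Module.End O Λ) :
    G →* Module.End (FractionRing O) (ESW O Λ) where
  toFun g := (ρ g).baseChange (FractionRing O)
  map_one' := by rw [map_one, LinearMap.baseChange_one]
  map_mul' g h := by rw [map_mul, LinearMap.baseChange_mul]

/-- The canonical map of the lattice to its rational vector space. -/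
noncomputable def esIota (O : Type) [CommRing O] [IsDomain O] (Λ : Type) [AddCommGroup Λ]
    [Module O Λ] : Λ →ₗ[O] ESW O Λ :=
  TensorProduct.mk O (FractionRing O) Λ 1

lemma esIota_apply (x : Λ) : esIota O Λ x = (1 : FractionRing O) ⊗ₜ[O] x := rfl

lemma esRhoW_iota (ρ : G →* Module.End O Λ) (g : G) (x : Λ) :
    esRhoW ρ g (esIota O Λ x) = esIota O Λ (ρ g x) := by
  simp only [esRhoW, esIota_apply, MonoidHom.coe_mk, OneHom.coe_mk, LinearMap.baseChange_tmul]

lemma es_denominators (w : ESW O Λ) :
    ∃ r : O, r ≠ 0 ∧ ∃ x : Λ, r • w = esIota O Λ x := by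
  induction w using TensorProduct.induction_on with
  | zero => exact ⟨1, one_ne_zero, 0, by simp⟩
  | tmul k x =>
    obtain ⟨o, r, hr, rfl⟩ := IsFractionRing.div_surjective (A := O) k
    have hr0 : r ≠ 0 := nonZeroDivisors.ne_zero hr
    refine ⟨r, hr0, o • x, ?_⟩
    rw [esIota_apply, TensorProduct.tmul_smul, TensorProduct.smul_tmul', TensorProduct.smul_tmul',
      Algebra.smul_def, Algebra.smul_def, mul_one]
    congr 1
    have : algebraMap O (FractionRing O) r ≠ 0 := by
      simpa using hr0
    field_simp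
  | add x y hx hy =>
    obtain ⟨r, hr, x', hx'⟩ := hx
    obtain ⟨s, hs, y', hy'⟩ := hy
    refine ⟨r * s, mul_ne_zero hr hs, s • x' + r • y', ?_⟩
    rw [smul_add, map_add, map_smul, map_smul, ← hx', ← hy', smul_smul, smul_smul, mul_comm r s]

lemma esRhoW_rel (ρ : G →* Module.End O Λ) (a e : G → O)
    (h : ∀ g, ρ g * ρ g - a g • ρ g + e g • (1 : Module.End O Λ) = 0) (g : G) :
    esRhoW ρ g * esRhoW ρ g - algebraMap O (FractionRing O) (a g) • esRhoW ρ g +
      algebraMap O (FractionRing O) (e g) • (1 : Module.End (FractionRing O) (ESW O Λ)) = 0 := by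
  have h1 := congrArg (LinearMap.baseChange (FractionRing O)) (h g)
  simp only [LinearMap.baseChange_add, LinearMap.baseChange_sub, LinearMap.baseChange_smul,
    LinearMap.baseChange_mul, LinearMap.baseChange_one, LinearMap.baseChange_zero] at h1
  rw [algebraMap_smul, algebraMap_smul]
  exact h1

/-- The lattice of integral points of a rational subspace. -/
noncomputable def esLatticeIn (U : Submodule (FractionRing O) (ESW O Λ)) : Submodule O U :=
  Submodule.comap ((U.subtype).restrictScalars O) (LinearMap.range (esIota O Λ))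

lemma mem_esLatticeIn {U : Submodule (FractionRing O) (ESW O Λ)} {u : U} :
    u ∈ esLatticeIn U ↔ ∃ x : Λ, esIota O Λ x = (u : ESW O Λ) := by
  simp only [esLatticeIn, Submodule.mem_comap, LinearMap.mem_range]
  rfl

lemma esLatticeIn_span (U : Submodule (FractionRing O) (ESW O Λ)) :
    Submodule.span (FractionRing O) (esLatticeIn U : Set U) = ⊤ := by
  rw [eq_top_iff]
  intro u _
  obtain ⟨r, hr, x, hx⟩ := es_denominators (u : ESW O Λ)
  have hmem : r • u ∈ esLatticeIn U := mem_esLatticeIn.mpr ⟨x, by rw [← hx]; rfl⟩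
  have hr' : algebraMap O (FractionRing O) r ≠ 0 := by simpa using hr
  have : u = (algebraMap O (FractionRing O) r)⁻¹ • (r • u) := by
    rw [← algebraMap_smul (FractionRing O) r u, smul_smul, inv_mul_cancel₀ hr', one_smul]
  rw [this]
  exact Submodule.smul_mem _ _ (Submodule.subset_span hmem)

lemma esLatticeIn_fg [IsNoetherianRing O] [Module.Finite O Λ]
    (U : Submodule (FractionRing O) (ESW O Λ)) : (esLatticeIn U).FG := by
  rw [← Module.Finite.iff_fg]
  have : IsNoetherian O Λ := isNoetherian_of_isNoetherianRing_of_finite O Λ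
  have : IsNoetherian O (LinearMap.range (esIota O Λ)) := isNoetherian_range (esIota O Λ)
  let f : esLatticeIn U →ₗ[O] LinearMap.range (esIota O Λ) :=
    { toFun := fun u => ⟨((u : U) : ESW O Λ), by
        obtain ⟨x, hx⟩ := mem_esLatticeIn.mp u.2
        exact ⟨x, hx⟩⟩
      map_add' := fun _ _ => rfl
      map_smul' := fun _ _ => rfl }
  have hf : Function.Injective f := by
    intro u v huv
    have : ((u : U) : ESW O Λ) = ((v : U) : ESW O Λ) :=
      congrArg (fun z : LinearMap.range (esIota O Λ) => (z : ESW O Λ)) huv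
    exact Subtype.ext (Subtype.ext this)
  exact Module.Finite.of_injective f hf

instance esLatticeIn_isLattice [IsNoetherianRing O] [Module.Finite O Λ]
    (U : Submodule (FractionRing O) (ESW O Λ)) :
    Submodule.IsLattice (FractionRing O) (esLatticeIn U) where
  fg := esLatticeIn_fg U
  span_eq_top := esLatticeIn_span U

lemma esLatticeIn_stable (ρ : G →* Module.End O Λ)
    (U : Submodule (FractionRing O) (ESW O Λ))
    (hU : ∀ g, ∀ x ∈ U, esRhoW ρ g x ∈ U) (g : G) :
    ∀ u ∈ esLatticeIn U, Fermat.Agent.H64.restrictRep (esRhoW ρ) U hU g u ∈ esLatticeIn U := by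
  intro u hu
  obtain ⟨x, hx⟩ := mem_esLatticeIn.mp hu
  refine mem_esLatticeIn.mpr ⟨ρ g x, ?_⟩
  rw [Fermat.Agent.H64.restrictRep_apply_coe, ← hx, esRhoW_iota]

/-- Saturation: congruences on `Λ` pass to the lattice of integral points of a stable
rational subspace. -/
lemma esLatticeIn_congr [IsPrincipalIdealRing O] (ρ : G →* Module.End O Λ)
    (U : Submodule (FractionRing O) (ESW O Λ))
    (hU : ∀ g, ∀ x ∈ U, esRhoW ρ g x ∈ U) (I : Ideal O) (g : G)
    (hg : ∀ v : Λ, ρ g v - v ∈ I • (⊤ : Submodule O Λ)) (u : esLatticeIn U) :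
    esLatticeRestrict (R := O) (K := FractionRing O) (V := U) (esLatticeIn U) (Fermat.Agent.H64.restrictRep (esRhoW ρ) U hU g)
      (esLatticeIn_stable ρ U hU g) u - u ∈ I • (⊤ : Submodule O (esLatticeIn U)) := by
  obtain ⟨x, hx⟩ := mem_esLatticeIn.mp u.2
  obtain ⟨t, rfl⟩ : ∃ t : O, I = Ideal.span {t} :=
    ⟨Submodule.IsPrincipal.generator I, (Ideal.span_singleton_generator I).symm⟩
  have h1 := hg x
  rw [Submodule.ideal_span_singleton_smul, Submodule.mem_smul_pointwise_iff_exists] at h1
  obtain ⟨y, -, hy⟩ := h1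
  -- the difference, as an element of `W`
  have hW : esRhoW ρ g ((u : U) : ESW O Λ) - ((u : U) : ESW O Λ) = t • esIota O Λ y := by
    rw [← hx, esRhoW_iota, ← map_sub, ← hy, map_smul]
  by_cases ht : t = 0
  · have h0 : esLatticeRestrict (R := O) (K := FractionRing O) (V := U) (esLatticeIn U)
        (Fermat.Agent.H64.restrictRep (esRhoW ρ) U hU g) (esLatticeIn_stable ρ U hU g) u - u
        = 0 := by
      apply Subtype.ext
      apply Subtype.ext
      simp only [Submodule.coe_sub, esLatticeRestrict_coe,
        Fermat.Agent.H64.restrictRep_apply_coe, Submodule.coe_zero]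
      rw [hW, ht, zero_smul]
    rw [h0]
    exact Submodule.zero_mem _
  · have ht' : algebraMap O (FractionRing O) t ≠ 0 := by simpa using ht
    -- `ι y` lies in `U`
    have hyU : esIota O Λ y ∈ U := by
      have h2 : esRhoW ρ g ((u : U) : ESW O Λ) - ((u : U) : ESW O Λ) ∈ U :=
        U.sub_mem (hU g _ (u : U).2) (u : U).2
      rw [hW, ← algebraMap_smul (FractionRing O) t] at h2
      have := U.smul_mem (algebraMap O (FractionRing O) t)⁻¹ h2
      rwa [smul_smul, inv_mul_cancel₀ ht', one_smul] at this
    let m' : esLatticeIn U := ⟨⟨esIota O Λ y, hyU⟩, mem_esLatticeIn.mpr ⟨y, rfl⟩⟩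
    have h3 : esLatticeRestrict (R := O) (K := FractionRing O) (V := U) (esLatticeIn U)
        (Fermat.Agent.H64.restrictRep (esRhoW ρ) U hU g) (esLatticeIn_stable ρ U hU g) u - u
        = t • m' := by
      apply Subtype.ext
      apply Subtype.ext
      simp only [Submodule.coe_sub, esLatticeRestrict_coe,
        Fermat.Agent.H64.restrictRep_apply_coe]
      rw [hW]
      rfl
    rw [h3]
    exact Submodule.smul_mem_smul (Ideal.mem_span_singleton_self t) Submodule.mem_top

/-- The character with values in the fraction field. -/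
noncomputable def esDK (ε : G →* Oˣ) : G →* FractionRing O :=
  ((algebraMap O (FractionRing O) : O →* FractionRing O).comp (Units.coeHom O)).comp ε

lemma esDK_apply (ε : G →* Oˣ) (g : G) :
    esDK ε g = algebraMap O (FractionRing O) ((ε g : Oˣ) : O) := rfl

/-- The action on the lattice of integral points of a stable rational subspace. -/
noncomputable def esRhoLattice [IsPrincipalIdealRing O] (ρ : G →* Module.End O Λ)
    (U : Submodule (FractionRing O) (ESW O Λ))
    (hU : ∀ g, ∀ x ∈ U, esRhoW ρ g x ∈ U) : G →* Module.End O (esLatticeIn U) where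
  toFun g := esLatticeRestrict (R := O) (K := FractionRing O) (V := U) (esLatticeIn U)
    (Fermat.Agent.H64.restrictRep (esRhoW ρ) U hU g) (esLatticeIn_stable ρ U hU g)
  map_one' := by
    apply LinearMap.ext
    intro u
    apply Subtype.ext
    apply Subtype.ext
    simp
  map_mul' g k := by
    apply LinearMap.ext
    intro u
    apply Subtype.ext
    apply Subtype.ext
    simp

lemma esRhoLattice_coe [IsPrincipalIdealRing O] (ρ : G →* Module.End O Λ)
    (U : Submodule (FractionRing O) (ESW O Λ))
    (hU : ∀ g, ∀ x ∈ U, esRhoW ρ g x ∈ U) (g : G) (u : esLatticeIn U) :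
    (((esRhoLattice ρ U hU g u : esLatticeIn U) : U) : ESW O Λ) =
      esRhoW ρ g ((u : U) : ESW O Λ) := rfl


lemma es_diag_rep {O : Type} [CommRing O] [Nontrivial O] {G : Type*} [Group G]
    (α β : G →* O) (a e : G → O) (hadd : ∀ g, α g + β g = a g) (hmul : ∀ g, α g * β g = e g) :
    ∃ ρ₂ : G →* Module.End O (Fin 2 → O),
      (∀ g, LinearMap.charpoly (ρ₂ g) = X ^ 2 - C (a g) * X + C (e g)) ∧
      (∀ (I : Ideal O) (g : G), α g - 1 ∈ I → β g - 1 ∈ I →
        ∀ v : Fin 2 → O, ρ₂ g v - v ∈ I • (⊤ : Submodule O (Fin 2 → O))) := by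
  classical
  let D : G →* (Fin 2 → O) :=
    { toFun := fun g => ![α g, β g]
      map_one' := by ext i; fin_cases i <;> simp
      map_mul' := fun g k => by ext i; fin_cases i <;> simp }
  let ρ₂ : G →* Module.End O (Fin 2 → O) :=
    ((Matrix.toLinAlgEquiv' : Matrix (Fin 2) (Fin 2) O ≃ₐ[O] _).toAlgHom.toRingHom.toMonoidHom.comp
      (Matrix.diagonalRingHom (Fin 2) O).toMonoidHom).comp D
  have hρ : ∀ g, ρ₂ g = Matrix.toLin' (Matrix.diagonal ![α g, β g]) := fun g => rfl
  refine ⟨ρ₂, fun g => ?_, fun I g hα hβ v => ?_⟩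
  · rw [hρ, Matrix.charpoly_toLin', Matrix.charpoly_fin_two, Matrix.trace_fin_two,
      Matrix.det_fin_two]
    simp [hadd, hmul]
  · have hv : ρ₂ g v - v = (α g - 1) • (Pi.single 0 (v 0) : Fin 2 → O) +
        (β g - 1) • (Pi.single 1 (v 1) : Fin 2 → O) := by
      rw [hρ]
      ext i
      fin_cases i <;> simp [Matrix.toLin'_apply, sub_mul]
    rw [hv]
    exact Submodule.add_mem _ (Submodule.smul_mem_smul hα Submodule.mem_top)
      (Submodule.smul_mem_smul hβ Submodule.mem_top)


lemma es_rank_one_apply {O : Type} [CommRing O] 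
    {M : Type*} [AddCommGroup M] [Module O M] (b : Basis (Fin 1) O M) (f : Module.End O M)
    (x : M) : f x = (b.repr (f (b 0)) 0) • x := by
  have h1 : ∀ y : M, y = (b.repr y 0) • b 0 := by
    intro y
    conv_lhs => rw [← b.sum_repr y]
    rw [Fin.sum_univ_one]
  conv_lhs => rw [h1 x, map_smul, h1 (f (b 0))]
  conv_rhs => rw [h1 x]
  rw [smul_smul, smul_smul, mul_comm]

lemma es_rank_one_char {O : Type} [CommRing O] [Nontrivial O] {G : Type*} [Group G]
    {M : Type*} [AddCommGroup M] [Module O M] (b : Basis (Fin 1) O M)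
    (ρ₀ : G →* Module.End O M) :
    ∃ α : G →* O, ∀ g (x : M), ρ₀ g x = α g • x := by
  refine ⟨{ toFun := fun g => b.repr (ρ₀ g (b 0)) 0
            map_one' := by simp
            map_mul' := fun g k => ?_ }, fun g x => es_rank_one_apply b (ρ₀ g) x⟩
  have h1 := es_rank_one_apply b (ρ₀ k) (b 0)
  have h2 : ρ₀ (g * k) (b 0) = (b.repr (ρ₀ k (b 0)) 0) • ρ₀ g (b 0) := by
    rw [map_mul, Module.End.mul_apply]
    conv_lhs => rw [h1]
    rw [map_smul]
  show b.repr (ρ₀ (g * k) (b 0)) 0 = b.repr (ρ₀ g (b 0)) 0 * b.repr (ρ₀ k (b 0)) 0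
  rw [h2, map_smul, Finsupp.smul_apply, smul_eq_mul, mul_comm]

/-- **Main theorem (adic version).**  Let `O` be a principal ideal domain in which `2 ≠ 0`, `Λ` a
nonzero finite free `O`-module with an action of a group `G` such that every `g` satisfies
`g² - a(g) g + ε(g) = 0`, where `ε` is a character, and suppose there is an involution `c` with
`ε c = -1`.  Then there is a free `O`-module of rank two with an action of `G` such that the
characteristic polynomial of every `g` is `X² - a(g) X + ε(g)`; congruences (modulo any ideal)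
satisfied by `g` on `Λ` and by `ε g` are inherited. -/
theorem exists_adic_rep_of_quadRel [IsPrincipalIdealRing O]
    [Module.Free O Λ] [Module.Finite O Λ] [Nontrivial Λ]
    (ρ : G →* Module.End O Λ) (a : G → O) (ε : G →* Oˣ)
    (h : ∀ g, ρ g * ρ g - a g • ρ g + ((ε g : Oˣ) : O) • (1 : Module.End O Λ) = 0)
    (h2 : (2 : O) ≠ 0) (c : G) (hc : c * c = 1) (hεc : ε c = -1) :
    ∃ (V : Type) (_ : AddCommGroup V) (_ : Module O V) (_ : Module.Free O V)
      (_ : Module.Finite O V) (ρ₂ : G →* Module.End O V),
      Module.finrank O V = 2 ∧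
      (∀ g, LinearMap.charpoly (ρ₂ g) = X ^ 2 - C (a g) * X + C ((ε g : Oˣ) : O)) ∧
      (∀ (I : Ideal O) (g : G), (∀ v : Λ, ρ g v - v ∈ I • (⊤ : Submodule O Λ)) →
        ((ε g : Oˣ) : O) - 1 ∈ I → ∀ v : V, ρ₂ g v - v ∈ I • (⊤ : Submodule O V)) := by
  classical
  have hinj : Function.Injective (algebraMap O (FractionRing O)) :=
    IsFractionRing.injective O (FractionRing O)
  have hWnt : Nontrivial (ESW O Λ) := by
    apply Module.nontrivial_of_finrank_pos (R := FractionRing O)
    rw [Module.finrank_baseChange]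
    exact Module.finrank_pos
  obtain ⟨U, hU0, hUs, hUmin⟩ := Fermat.Agent.H64.exists_minimal_stable (esRhoW ρ)
  have hUnt : Nontrivial U := (Submodule.nontrivial_iff_ne_bot).mpr hU0
  set ρU := Fermat.Agent.H64.restrictRep (esRhoW ρ) U hUs with hρU
  -- the relation on `U`
  have hrelU : ESQuadRel ρU (fun g => algebraMap O (FractionRing O) (a g)) (esDK ε) := by
    refine ⟨fun g => ?_⟩
    apply LinearMap.ext
    intro u
    apply Subtype.ext
    have := congrArg (fun f : Module.End (FractionRing O) (ESW O Λ) => f (u : ESW O Λ))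
      (esRhoW_rel ρ a (fun g => ((ε g : Oˣ) : O)) h g)
    simpa [hρU, esDK_apply] using this
  -- irreducibility of `U`
  have hirr : ∀ W' : Submodule (FractionRing O) U,
      (∀ g : G, ∀ x ∈ W', ρU g x ∈ W') → W' = ⊥ ∨ W' = ⊤ := by
    intro W' hW'
    have hst : ∀ g, ∀ x ∈ W'.map U.subtype, esRhoW ρ g x ∈ W'.map U.subtype := by
      rintro g _ ⟨x, hx, rfl⟩
      exact ⟨ρU g x, hW' g x hx, rfl⟩
    have hle : W'.map U.subtype ≤ U := Submodule.map_subtype_le U W'
    rcases hUmin _ hle hst with h0 | h1
    · left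
      apply Submodule.map_injective_of_injective U.injective_subtype
      rw [h0, Submodule.map_bot]
    · right
      apply Submodule.map_injective_of_injective U.injective_subtype
      rw [h1, Submodule.map_subtype_top]
  -- the lattice
  have hrank : Module.finrank O (esLatticeIn U) = Module.finrank (FractionRing O) U :=
    esLattice_finrank_eq (esLatticeIn U)
  have hcp : ∀ g, (esRhoLattice ρ U hUs g).charpoly.map (algebraMap O (FractionRing O)) =
      (ρU g).charpoly := fun g =>
    esLattice_charpoly (esLatticeIn U) (ρU g) (esLatticeIn_stable ρ U hUs g)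
  have hcong : ∀ (I : Ideal O) (g : G), (∀ v : Λ, ρ g v - v ∈ I • (⊤ : Submodule O Λ)) →
      ∀ u : esLatticeIn U, esRhoLattice ρ U hUs g u - u ∈
        I • (⊤ : Submodule O (esLatticeIn U)) := fun I g hg u =>
    esLatticeIn_congr ρ U hUs I g hg u
  have h2K : (2 : FractionRing O) ≠ 0 := by
    have : algebraMap O (FractionRing O) 2 ≠ 0 := by
      rw [Ne, map_eq_zero_iff _ hinj]; exact h2
    rwa [map_ofNat] at this
  have hdc : esDK ε c = -1 := by
    rw [esDK_apply, hεc]; simp
  by_cases hns : ∃ k : G, ∀ r : FractionRing O, ρU k ≠ r • (1 : Module.End (FractionRing O) U)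
  · -- dimension two
    have hdim : Module.finrank (FractionRing O) U = 2 :=
      hrelU.finrank_eq_two_of_odd hirr h2K c hc hdc hns
    refine ⟨esLatticeIn U, inferInstance, inferInstance, inferInstance, inferInstance,
      esRhoLattice ρ U hUs, by rw [hrank, hdim], fun g => ?_, fun I g hg _ u => hcong I g hg u⟩
    apply Polynomial.map_injective (algebraMap O (FractionRing O)) hinj
    rw [hcp, hrelU.charpoly_eq hdim hns g, esDK_apply]
    simp
  · -- scalar case
    have hsc : ∀ k : G, ∃ r : FractionRing O,
        ρU k = r • (1 : Module.End (FractionRing O) U) := fun k => by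
      by_contra hk
      exact hns ⟨k, fun r hr => hk ⟨r, hr⟩⟩
    have hdim : Module.finrank (FractionRing O) U = 1 := by
      obtain ⟨u, hu⟩ := exists_ne (0 : U)
      have hst : ∀ g, ∀ x ∈ Submodule.span (FractionRing O) {u},
          ρU g x ∈ Submodule.span (FractionRing O) {u} := by
        intro g x hx
        obtain ⟨r, hr⟩ := hsc g
        rw [hr, LinearMap.smul_apply, Module.End.one_apply]
        exact Submodule.smul_mem _ _ hx
      rcases hirr _ hst with h0 | h1
      · exfalso
        apply hu
        have := Submodule.mem_span_singleton_self (R := FractionRing O) u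
        rw [h0] at this
        simpa using this
      · rw [← finrank_top (FractionRing O) U, ← h1, finrank_span_singleton hu]
    have hrank1 : Module.finrank O (esLatticeIn U) = 1 := by rw [hrank, hdim]
    let b : Basis (Fin 1) O (esLatticeIn U) := Module.finBasisOfFinrankEq O _ hrank1
    obtain ⟨α, hα⟩ := es_rank_one_char b (esRhoLattice ρ U hUs)
    -- the relation satisfied by `α`
    have hαrel : ∀ g, α g * α g - a g * α g + ((ε g : Oˣ) : O) = 0 := by
      intro g
      set w : ESW O Λ := (((b 0 : esLatticeIn U) : U) : ESW O Λ) with hw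
      have hw0 : w ≠ 0 := by
        intro h0
        apply b.ne_zero 0
        apply Subtype.ext
        apply Subtype.ext
        exact h0
      have hgw : esRhoW ρ g w = α g • w := by
        have := congrArg (fun z : esLatticeIn U => ((z : U) : ESW O Λ)) (hα g (b 0))
        exact this
      have h1 := congrArg (fun f : Module.End (FractionRing O) (ESW O Λ) => f w)
        (esRhoW_rel ρ a (fun g => ((ε g : Oˣ) : O)) h g)
      simp only [LinearMap.add_apply, LinearMap.sub_apply, Module.End.mul_apply,
        LinearMap.smul_apply, Module.End.one_apply, LinearMap.zero_apply] at h1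
      rw [hgw, LinearMap.map_smul_of_tower, hgw, algebraMap_smul, algebraMap_smul, smul_smul,
        smul_smul, ← sub_smul, ← add_smul, ← algebraMap_smul (FractionRing O)] at h1
      rcases smul_eq_zero.mp h1 with h3 | h3
      · exact hinj (by rw [h3, map_zero])
      · exact absurd h3 hw0
    have hαinv : ∀ g, α g * α g⁻¹ = 1 := fun g => by rw [← map_mul, mul_inv_cancel, map_one]
    let β : G →* O :=
      { toFun := fun g => ((ε g : Oˣ) : O) * α g⁻¹
        map_one' := by simp
        map_mul' := fun g k => by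
          simp only [map_mul, mul_inv_rev, Units.val_mul]
          ring }
    have hβ : ∀ g, β g = ((ε g : Oˣ) : O) * α g⁻¹ := fun g => rfl
    have hadd : ∀ g, α g + β g = a g := by
      intro g
      rw [hβ]
      linear_combination (α g⁻¹) * hαrel g - (α g - a g) * hαinv g
    have hmul : ∀ g, α g * β g = ((ε g : Oˣ) : O) := by
      intro g
      rw [hβ]
      linear_combination ((ε g : Oˣ) : O) * hαinv g
    obtain ⟨ρ₂, hcp2, hcong2⟩ := es_diag_rep α β a (fun g => ((ε g : Oˣ) : O)) hadd hmul
    have hα1 : ∀ (I : Ideal O) (g : G), (∀ v : Λ, ρ g v - v ∈ I • (⊤ : Submodule O Λ)) →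
        α g - 1 ∈ I := by
      intro I g hg
      have h1 := hcong I g hg (b 0)
      rw [hα g (b 0)] at h1
      let φ : esLatticeIn U →ₗ[O] O := (Finsupp.lapply 0).comp b.repr.toLinearMap
      have hφ : ∀ y ∈ I • (⊤ : Submodule O (esLatticeIn U)), φ y ∈ I := by
        intro y hy
        refine Submodule.smul_induction_on hy ?_ ?_
        · intro r hr m _
          rw [map_smul, smul_eq_mul]
          exact I.mul_mem_right _ hr
        · intro x y hx hy
          rw [map_add]
          exact I.add_mem hx hy
      have h2 := hφ _ h1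
      have h3 : φ (α g • b 0 - b 0) = α g - 1 := by
        simp [φ]
      rwa [h3] at h2
    refine ⟨Fin 2 → O, inferInstance, inferInstance, inferInstance, inferInstance, ρ₂, by simp,
      hcp2, fun I g hg hε v => hcong2 I g (hα1 I g hg) ?_ v⟩
    have h4 : β g - 1 = (((ε g : Oˣ) : O) - 1) * α g⁻¹ - α g⁻¹ * (α g - 1) := by
      rw [hβ]
      linear_combination hαinv g
    rw [h4]
    exact I.sub_mem (I.mul_mem_right _ hε) (I.mul_mem_left _ (hα1 I g hg))

end Adic

end Fermat.Agent.H52
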