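import Mathlib
import Fermat.Prelude.Def_GaloisRep_Adic
import Fermat.Agent.H64.FrobPowDenseFinal
import Fermat.Agent.H81.Cyclo.Conj

/-!
# From the Frobenius relation to the relation for all Galois elements (P-ES, S30 assembly)

Let `O` be a complete noetherian local domain with `p` in its maximal ideal and `Λ` a nonzero
finite free `O`-module with an adically continuous action of `G_ℚ`, such that every Frobenius
lift `σ` at a prime `ℓ ∉ S` satisfies `σ² - a_ℓ σ + ℓ = 0`.  Then, by the Frobenius density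
theorem, every `g ∈ G_ℚ` satisfies `g² - t(g) g + ε(g) = 0`, `ε` the cyclotomic character.
-/

set_option autoImplicit false
set_option linter.unusedSectionVars false

namespace Fermat.Agent.H52

open Polynomial Module

section Congr

variable {O : Type*} [CommRing O] {Λ : Type*} [AddCommGroup Λ] [Module O Λ]

/-- An endomorphism is congruent to zero modulo `I`. -/
def ESCongr (I : Ideal O) (f : Module.End O Λ) : Prop :=
  ∀ v : Λ, f v ∈ I • (⊤ : Submodule O Λ)

lemma ESCongr.add {I : Ideal O} {f g : Module.End O Λ} (hf : ESCongr I f) (hg : ESCongr I g) :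
    ESCongr I (f + g) := fun v => Submodule.add_mem _ (hf v) (hg v)

lemma ESCongr.sub {I : Ideal O} {f g : Module.End O Λ} (hf : ESCongr I f) (hg : ESCongr I g) :
    ESCongr I (f - g) := fun v => Submodule.sub_mem _ (hf v) (hg v)

lemma ESCongr.smul {I : Ideal O} {f : Module.End O Λ} (hf : ESCongr I f) (c : O) :
    ESCongr I (c • f) := fun v => Submodule.smul_mem _ c (hf v)

lemma ESCongr.mul_right {I : Ideal O} {f : Module.End O Λ} (hf : ESCongr I f)
    (g : Module.End O Λ) : ESCongr I (f * g) := fun v => hf (g v)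

lemma es_map_smul_top (I : Ideal O) (g : Module.End O Λ) {x : Λ}
    (hx : x ∈ I • (⊤ : Submodule O Λ)) : g x ∈ I • (⊤ : Submodule O Λ) := by
  refine Submodule.smul_induction_on hx ?_ ?_
  · intro r hr m _
    rw [map_smul]
    exact Submodule.smul_mem_smul hr Submodule.mem_top
  · intro x y hx hy
    rw [map_add]
    exact Submodule.add_mem _ hx hy

lemma ESCongr.mul_left {I : Ideal O} {f : Module.End O Λ} (hf : ESCongr I f)
    (g : Module.End O Λ) : ESCongr I (g * f) := fun v => es_map_smul_top I g (hf v)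

lemma ESCongr.of_mem {I : Ideal O} {c : O} (hc : c ∈ I) :
    ESCongr I (c • (1 : Module.End O Λ)) := fun _ =>
  Submodule.smul_mem_smul hc Submodule.mem_top

lemma ESCongr.mono {I J : Ideal O} (hIJ : I ≤ J) {f : Module.End O Λ} (hf : ESCongr I f) :
    ESCongr J f := fun v => Submodule.smul_mono_left hIJ (hf v)

/-- On a nonzero free module, a scalar which is congruent to zero lies in the ideal. -/
lemma es_mem_of_congr_smul_one [Module.Free O Λ] [Nontrivial Λ] {I : Ideal O} {c : O}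
    (hc : ESCongr I (c • (1 : Module.End O Λ))) : c ∈ I := by
  classical
  let b := Module.Free.chooseBasis O Λ
  obtain ⟨i⟩ : Nonempty (Module.Free.ChooseBasisIndex O Λ) := by
    by_contra hne
    rw [not_nonempty_iff] at hne
    obtain ⟨x, y, hxy⟩ := exists_pair_ne Λ
    apply hxy
    apply b.repr.injective
    ext j
    exact hne.elim j
  let φ : Λ →ₗ[O] O := (Finsupp.lapply i).comp b.repr.toLinearMap
  have hφ : ∀ y ∈ I • (⊤ : Submodule O Λ), φ y ∈ I := by
    intro y hy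
    refine Submodule.smul_induction_on hy ?_ ?_
    · intro r hr m _
      rw [map_smul, smul_eq_mul]
      exact I.mul_mem_right _ hr
    · intro x y hx hy
      rw [map_add]
      exact I.add_mem hx hy
  have h1 := hφ _ (hc (b i))
  have h2 : φ ((c • (1 : Module.End O Λ)) (b i)) = c := by
    simp [φ]
  rwa [h2] at h1

/-- Powers of a quadratic relation. -/
theorem es_pow_rel (M : Module.End O Λ) (a δ : O)
    (h : M * M - a • M + δ • (1 : Module.End O Λ) = 0) (m : ℕ) :
    ∃ v : O, M ^ m * M ^ m - v • M ^ m + δ ^ m • (1 : Module.End O Λ) = 0 := by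
  set M' : Module.End O Λ := a • (1 : Module.End O Λ) - M with hM'
  have hMM' : M * M' = δ • (1 : Module.End O Λ) := by
    rw [hM', mul_sub, mul_smul_comm, mul_one]
    linear_combination (norm := module) -h
  have hM'M : M' * M = δ • (1 : Module.End O Λ) := by
    rw [hM', sub_mul, smul_mul_assoc, one_mul]
    linear_combination (norm := module) -h
  have hsum : M + M' = a • (1 : Module.End O Λ) := by rw [hM']; abel
  have key : ∀ m : ℕ, (∃ v : O, M ^ m + M' ^ m = v • (1 : Module.End O Λ)) ∧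
      (∃ v : O, M ^ (m + 1) + M' ^ (m + 1) = v • (1 : Module.End O Λ)) := by
    intro m
    induction m with
    | zero =>
      refine ⟨⟨2, ?_⟩, ⟨a, ?_⟩⟩
      · rw [pow_zero, pow_zero, two_smul]
      · rw [zero_add, pow_one, pow_one, hsum]
    | succ m ih =>
      obtain ⟨⟨v, hv⟩, ⟨v', hv'⟩⟩ := ih
      refine ⟨⟨v', hv'⟩, ⟨v' * a - δ * v, ?_⟩⟩
      have e1 : M ^ (m + 1) * M' = δ • M ^ m := by
        rw [pow_succ, mul_assoc, hMM', mul_smul_comm, mul_one]
      have e2 : M' ^ (m + 1) * M = δ • M' ^ m := by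
        rw [pow_succ, mul_assoc, hM'M, mul_smul_comm, mul_one]
      have e3 : (M ^ (m + 1) + M' ^ (m + 1)) * (M + M')
          = (v' * a) • (1 : Module.End O Λ) := by
        rw [hv', hsum, smul_mul_assoc, one_mul, smul_smul]
      rw [add_mul, mul_add, mul_add] at e3
      rw [pow_succ M (m + 1), pow_succ M' (m + 1)]
      linear_combination (norm := module) e3 - e1 - e2 - δ • hv
  obtain ⟨v, hv⟩ := (key m).1
  refine ⟨v, ?_⟩
  have hcomm : Commute M M' := by
    unfold Commute SemiconjBy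
    rw [hMM', hM'M]
  have hprod : M ^ m * M' ^ m = (δ ^ m) • (1 : Module.End O Λ) := by
    rw [← hcomm.mul_pow, hMM', _root_.smul_pow, one_pow]
  have hM'm : M' ^ m = v • (1 : Module.End O Λ) - M ^ m := by
    rw [← hv]; abel
  rw [hM'm, mul_sub, mul_smul_comm, mul_one] at hprod
  linear_combination (norm := module) -hprod

end Congr

section Limit

open Fermat.Agent.H81.Cyclo

variable (p : ℕ) [Fact p.Prime] {O : Type} [CommRing O] [IsDomain O] [IsLocalRing O]
  [IsNoetherianRing O] [IsAdicComplete (IsLocalRing.maximalIdeal O) O]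
variable {Λ : Type} [AddCommGroup Λ] [Module O Λ] [Module.Free O Λ] [Module.Finite O Λ]
  [Nontrivial Λ]

/-- The relation modulo `𝔪 ^ n`. -/
lemma es_rel_mod (hdense : Fermat.Agent.H64.FrobPowDense)
    (hp : (p : O) ∈ IsLocalRing.maximalIdeal O)
    (ρ : (AlgebraicClosure ℚ ≃ₐ[ℚ] AlgebraicClosure ℚ) →* Module.End O Λ)
    (hcont : GaloisActionIsAdicContinuous O ρ) (S : Finset ℕ) (hpS : p ∈ S) (a : ℕ → O)
    (hrel : ∀ ℓ : ℕ, ℓ.Prime → ℓ ∉ S → ∀ A : ValuationSubring (AlgebraicClosure ℚ),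
      A.LiesOverPrime ℓ → ∀ σ : AlgebraicClosure ℚ ≃ₐ[ℚ] AlgebraicClosure ℚ,
        A.IsFrobeniusAt σ ℓ →
          ρ σ * ρ σ - a ℓ • ρ σ + (ℓ : O) • (1 : Module.End O Λ) = 0)
    (g : AlgebraicClosure ℚ ≃ₐ[ℚ] AlgebraicClosure ℚ) (n : ℕ) :
    ∃ t : O, ESCongr (IsLocalRing.maximalIdeal O ^ n)
      (ρ g * ρ g - t • ρ g + ((localCyclo p O hp g : Oˣ) : O) • (1 : Module.End O Λ)) := by
  obtain ⟨L₁, hL₁, h₁⟩ := hcont n
  obtain ⟨L₂, hL₂, h₂⟩ := localCyclo_continuous p O hp n
  have := hL₁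
  have := hL₂
  obtain ⟨ℓ, A, φ, k, hℓ, hℓS, hA, hφ, hk⟩ :=
    hdense (L₁ ⊔ L₂) (IntermediateField.finiteDimensional_sup L₁ L₂) g S
  have hℓp : ℓ ≠ p := fun h => hℓS (h ▸ hpS)
  set τ : AlgebraicClosure ℚ ≃ₐ[ℚ] AlgebraicClosure ℚ := g⁻¹ * φ ^ k with hτ
  have hτfix : ∀ x ∈ L₁ ⊔ L₂, τ x = x := by
    intro x hx
    rw [hτ, AlgEquiv.mul_apply, hk x hx]
    exact AlgEquiv.symm_apply_apply g x
  have hφk : φ ^ k = g * τ := by rw [hτ, mul_inv_cancel_left]
  have hρτ : ESCongr (IsLocalRing.maximalIdeal O ^ n) (ρ τ - 1) := fun v => by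
    have := h₁ τ (fun x hx => hτfix x ((le_sup_left : L₁ ≤ L₁ ⊔ L₂) hx)) v
    simpa using this
  have hετ : ((localCyclo p O hp τ : Oˣ) : O) - 1 ∈ IsLocalRing.maximalIdeal O ^ n :=
    h₂ τ (fun x hx => hτfix x ((le_sup_right : L₂ ≤ L₁ ⊔ L₂) hx))
  have hεφ : ((localCyclo p O hp φ : Oˣ) : O) = (ℓ : O) :=
    localCyclo_frobenius p O hp hℓ hℓp hA hφ
  obtain ⟨v, hv⟩ := es_pow_rel (ρ φ) (a ℓ) (ℓ : O) (hrel ℓ hℓ hℓS A hA φ hφ) k
  refine ⟨v, ?_⟩
  set Y : Module.End O Λ := ρ φ ^ k with hY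
  have hYg : Y = ρ g * ρ τ := by rw [hY, ← map_pow, hφk, map_mul]
  have hYcong : ESCongr (IsLocalRing.maximalIdeal O ^ n) (Y - ρ g) := by
    have e : Y - ρ g = ρ g * (ρ τ - 1) := by rw [hYg, mul_sub, mul_one]
    rw [e]
    exact hρτ.mul_left _
  have hεcong : (ℓ : O) ^ k - ((localCyclo p O hp g : Oˣ) : O) ∈
      IsLocalRing.maximalIdeal O ^ n := by
    have e : (ℓ : O) ^ k - ((localCyclo p O hp g : Oˣ) : O) =
        ((localCyclo p O hp g : Oˣ) : O) * (((localCyclo p O hp τ : Oˣ) : O) - 1) := by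
      rw [← hεφ, ← Units.val_pow_eq_pow_val, ← map_pow, hφk, map_mul, Units.val_mul]
      ring
    rw [e]
    exact Ideal.mul_mem_left _ _ hετ
  have key : ρ g * ρ g - v • ρ g + ((localCyclo p O hp g : Oˣ) : O) • (1 : Module.End O Λ)
      = (Y * Y - v • Y + (ℓ : O) ^ k • (1 : Module.End O Λ))
        - ((Y - ρ g) * Y + ρ g * (Y - ρ g)) + v • (Y - ρ g)
        - ((ℓ : O) ^ k - ((localCyclo p O hp g : Oˣ) : O)) • (1 : Module.End O Λ) := by
    rw [sub_mul, mul_sub, sub_smul, smul_sub]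
    abel
  rw [key, hv]
  refine ESCongr.sub (ESCongr.add (ESCongr.sub ?_ ?_) ?_) ?_
  · intro w
    simp
  · exact ESCongr.add (hYcong.mul_right _) (hYcong.mul_left _)
  · exact hYcong.smul v
  · exact ESCongr.of_mem hεcong

/-- **The relation for all Galois elements.** -/
theorem es_relation_all (hdense : Fermat.Agent.H64.FrobPowDense)
    (hp : (p : O) ∈ IsLocalRing.maximalIdeal O)
    (ρ : (AlgebraicClosure ℚ ≃ₐ[ℚ] AlgebraicClosure ℚ) →* Module.End O Λ)
    (hcont : GaloisActionIsAdicContinuous O ρ) (S : Finset ℕ) (hpS : p ∈ S) (a : ℕ → O)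
    (hrel : ∀ ℓ : ℕ, ℓ.Prime → ℓ ∉ S → ∀ A : ValuationSubring (AlgebraicClosure ℚ),
      A.LiesOverPrime ℓ → ∀ σ : AlgebraicClosure ℚ ≃ₐ[ℚ] AlgebraicClosure ℚ,
        A.IsFrobeniusAt σ ℓ →
          ρ σ * ρ σ - a ℓ • ρ σ + (ℓ : O) • (1 : Module.End O Λ) = 0)
    (g : AlgebraicClosure ℚ ≃ₐ[ℚ] AlgebraicClosure ℚ) :
    ∃ t : O, ρ g * ρ g - t • ρ g +
      ((localCyclo p O hp g : Oˣ) : O) • (1 : Module.End O Λ) = 0 := by
  choose t ht using fun n => es_rel_mod p hdense hp ρ hcont S hpS a hrel g n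
  have hinv : ρ g * ρ g⁻¹ = 1 := by rw [← map_mul, mul_inv_cancel, map_one]
  -- Cauchy
  have hcauchy : ∀ {m n : ℕ}, m ≤ n → t m - t n ∈ IsLocalRing.maximalIdeal O ^ m := by
    intro m n hmn
    have h1 := ht m
    have h2 := (ht n).mono (Ideal.pow_le_pow_right hmn)
    have h3 := (h2.sub h1).mul_right (ρ g⁻¹)
    have e : (ρ g * ρ g - t n • ρ g + ((localCyclo p O hp g : Oˣ) : O) • (1 : Module.End O Λ)
        - (ρ g * ρ g - t m • ρ g + ((localCyclo p O hp g : Oˣ) : O) • (1 : Module.End O Λ)))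
        * ρ g⁻¹ = (t m - t n) • (1 : Module.End O Λ) := by
      have : (ρ g * ρ g - t n • ρ g + ((localCyclo p O hp g : Oˣ) : O) • (1 : Module.End O Λ)
        - (ρ g * ρ g - t m • ρ g + ((localCyclo p O hp g : Oˣ) : O) • (1 : Module.End O Λ)))
        = (t m - t n) • ρ g := by
        rw [sub_smul]; abel
      rw [this, smul_mul_assoc, hinv]
    rw [e] at h3
    exact es_mem_of_congr_smul_one h3
  -- the limit
  have hprec : IsPrecomplete (IsLocalRing.maximalIdeal O) O := inferInstance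
  obtain ⟨L, hL⟩ := hprec.prec' t (fun {m n} hmn => by
    rw [SModEq.sub_mem, smul_eq_mul, Ideal.mul_top]
    exact hcauchy hmn)
  have hL' : ∀ n, t n - L ∈ IsLocalRing.maximalIdeal O ^ n := fun n => by
    have := hL n
    rwa [SModEq.sub_mem, smul_eq_mul, Ideal.mul_top] at this
  refine ⟨L, ?_⟩
  have hall : ∀ n, ESCongr (IsLocalRing.maximalIdeal O ^ n)
      (ρ g * ρ g - L • ρ g + ((localCyclo p O hp g : Oˣ) : O) • (1 : Module.End O Λ)) := by
    intro n
    have e : ρ g * ρ g - L • ρ g + ((localCyclo p O hp g : Oˣ) : O) • (1 : Module.End O Λ)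
        = (ρ g * ρ g - t n • ρ g + ((localCyclo p O hp g : Oˣ) : O) • (1 : Module.End O Λ))
          + (t n - L) • ρ g := by
      rw [sub_smul]; abel
    rw [e]
    refine (ht n).add ?_
    have := (ESCongr.of_mem (Λ := Λ) (hL' n)).mul_right (ρ g)
    rwa [smul_mul_assoc, one_mul] at this
  apply LinearMap.ext
  intro w
  have hbot := Ideal.iInf_pow_smul_eq_bot_of_isLocalRing (M := Λ)
    (IsLocalRing.maximalIdeal O) (Ideal.IsMaximal.ne_top inferInstance)
  have hmem : (ρ g * ρ g - L • ρ g +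
      ((localCyclo p O hp g : Oˣ) : O) • (1 : Module.End O Λ)) w ∈
      (⨅ i : ℕ, IsLocalRing.maximalIdeal O ^ i • (⊤ : Submodule O Λ)) := by
    rw [Submodule.mem_iInf]
    exact fun n => hall n w
  rw [hbot] at hmem
  simpa using hmem

end Limit

end Fermat.Agent.H52
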