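import Mathlib
import Fermat.Prelude.Def_CuspForm_HeckeGaloisRepDatum
import Fermat.Agent.H52.ESAdic
import Fermat.Agent.H52.ESLimit

/-!
# S30 from a Frobenius-quadratic lattice (P-ES, ES-G assembly for S30)

* `exists_galoisRepAdic_of_lattice` (unconditional): a nonzero finite free module over a complete
  discrete valuation ring `O` (characteristic `0`, residue characteristic `p`) with an adically
  continuous action of `G_ℚ` on which every Frobenius lift at `ℓ ∉ S` satisfies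
  `σ² - a_ℓ σ + ℓ = 0` produces a `GaloisRepAdic O` with Frobenius characteristic polynomials
  `X² - a_ℓ X + ℓ`, unramified wherever the lattice is (away from `p`).
* `EichlerShimuraLatticeStatement`: the geometric input for S30.
* `s30_of_lattice`: the statement of S30 from `EichlerShimuraLatticeStatement`.
-/

set_option autoImplicit false
set_option linter.unusedSectionVars false

namespace Fermat.Agent.H52

open Polynomial Module Fermat.Agent.H81.Cyclo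

/-- **From a Frobenius-quadratic lattice to a two-dimensional adic representation**
(unconditional). -/
theorem exists_galoisRepAdic_of_lattice (p : ℕ) [Fact p.Prime]
    {O : Type} [CommRing O] [IsDomain O] [IsDiscreteValuationRing O]
    [IsAdicComplete (IsLocalRing.maximalIdeal O) O] [CharZero O]
    (hp : (p : O) ∈ IsLocalRing.maximalIdeal O) (S : Finset ℕ) (hpS : p ∈ S) (a : ℕ → O)
    {Λ : Type} [AddCommGroup Λ] [Module O Λ] [Module.Free O Λ] [Module.Finite O Λ]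
    [Nontrivial Λ]
    (ρ : (AlgebraicClosure ℚ ≃ₐ[ℚ] AlgebraicClosure ℚ) →* Module.End O Λ)
    (hcont : GaloisActionIsAdicContinuous O ρ)
    (hrel : ∀ ℓ : ℕ, ℓ.Prime → ℓ ∉ S → ∀ A : ValuationSubring (AlgebraicClosure ℚ),
      A.LiesOverPrime ℓ → ∀ σ : AlgebraicClosure ℚ ≃ₐ[ℚ] AlgebraicClosure ℚ,
        A.IsFrobeniusAt σ ℓ →
          ρ σ * ρ σ - a ℓ • ρ σ + (ℓ : O) • (1 : Module.End O Λ) = 0) :
    ∃ ρ' : GaloisRepAdic O,
      (∀ ℓ : ℕ, ℓ.Prime → ℓ ∉ S → ∀ A : ValuationSubring (AlgebraicClosure ℚ),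
        A.LiesOverPrime ℓ → ∀ σ : AlgebraicClosure ℚ ≃ₐ[ℚ] AlgebraicClosure ℚ,
          A.IsFrobeniusAt σ ℓ →
            LinearMap.charpoly (ρ'.ρ σ) = X ^ 2 - C (a ℓ) * X + C (ℓ : O)) ∧
      (∀ q : ℕ, q.Prime → q ≠ p →
        (∀ P : ValuationSubring (AlgebraicClosure ℚ), P.LiesOverPrime q →
          ∀ σ ∈ P.inertiaSubgroupIn ℚ, ρ σ = 1) → ρ'.IsUnramifiedAt q) := by
  have hdense := Fermat.Agent.H64.frobPowDense
  choose t ht using es_relation_all p hdense hp ρ hcont S hpS a hrel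
  have h2 : (2 : O) ≠ 0 := two_ne_zero
  obtain ⟨V, iA, iM, iFr, iFi, ρ₂, hrank, hcp, hcong⟩ :=
    exists_adic_rep_of_quadRel ρ t (localCyclo p O hp) ht h2 complexConjugation
      complexConjugation_mul_self (localCyclo_complexConjugation p O hp)
  have hcont' : GaloisActionIsAdicContinuous O ρ₂ := by
    intro n
    obtain ⟨L₁, hL₁, h₁⟩ := hcont n
    obtain ⟨L₂, hL₂, h₂⟩ := localCyclo_continuous p O hp n
    have := hL₁
    have := hL₂
    refine ⟨L₁ ⊔ L₂, IntermediateField.finiteDimensional_sup L₁ L₂, fun σ hσ v => ?_⟩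
    exact hcong _ σ (h₁ σ fun x hx => hσ x ((le_sup_left : L₁ ≤ L₁ ⊔ L₂) hx))
      (h₂ σ fun x hx => hσ x ((le_sup_right : L₂ ≤ L₁ ⊔ L₂) hx)) v
  refine ⟨{ V := V, finrank_eq := hrank, ρ := ρ₂, isAdicContinuous := hcont' }, ?_, ?_⟩
  · intro ℓ hℓ hℓS A hA σ hσ
    have hℓp : ℓ ≠ p := fun h => hℓS (h ▸ hpS)
    have hεσ : ((localCyclo p O hp σ : Oˣ) : O) = (ℓ : O) :=
      localCyclo_frobenius p O hp hℓ hℓp hA hσ
    have htσ : t σ = a ℓ := by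
      have h1 := ht σ
      have h3 := hrel ℓ hℓ hℓS A hA σ hσ
      rw [hεσ] at h1
      have hinv : ρ σ * ρ σ⁻¹ = 1 := by rw [← map_mul, mul_inv_cancel, map_one]
      have h4 : (a ℓ - t σ) • ρ σ = 0 := by
        have : (a ℓ - t σ) • ρ σ =
            (ρ σ * ρ σ - t σ • ρ σ + (ℓ : O) • (1 : Module.End O Λ)) -
            (ρ σ * ρ σ - a ℓ • ρ σ + (ℓ : O) • (1 : Module.End O Λ)) := by
          rw [sub_smul]; abel
        rw [this, h1, h3, sub_zero]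
      have h5 : (a ℓ - t σ) • (1 : Module.End O Λ) = 0 := by
        have := congrArg (fun f => f * ρ σ⁻¹) h4
        simp only [smul_mul_assoc, hinv, zero_mul] at this
        exact this
      have h6 : ESCongr (⊥ : Ideal O) ((a ℓ - t σ) • (1 : Module.End O Λ)) := by
        intro v
        rw [h5]
        simp
      have h7 := es_mem_of_congr_smul_one h6
      rw [Ideal.mem_bot, sub_eq_zero] at h7
      exact h7.symm
    show LinearMap.charpoly (ρ₂ σ) = _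
    rw [hcp σ, htσ, hεσ]
  · intro q hq hqp hunr P hP σ hσ
    show ρ₂ σ = 1
    have h1 : ∀ v : Λ, ρ σ v - v ∈ (⊥ : Ideal O) • (⊤ : Submodule O Λ) := by
      intro v
      rw [hunr P hP σ hσ]
      simp
    have h2' : ((localCyclo p O hp σ : Oˣ) : O) - 1 ∈ (⊥ : Ideal O) := by
      rw [localCyclo_inertia p O hp hq hqp hP hσ]
      simp
    apply LinearMap.ext
    intro v
    have := hcong ⊥ σ h1 h2' v
    rw [Submodule.bot_smul, Submodule.mem_bot, sub_eq_zero] at this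
    rw [this, Module.End.one_apply]

/-- **The geometric input of S30** (lattice form): for every character `χ` of the weight-two
Hecke algebra of level `N` away from `S` into a complete discrete valuation ring `𝒪'`, there is a
nonzero finite free `𝒪'`-module with an adically continuous action of `G_ℚ`, unramified at the
primes `q ∤ N`, `q ≠ p`, on which every Frobenius lift at a prime `ℓ ∉ S` satisfies the
Eichler–Shimura relation `σ² - χ(T_ℓ) σ + ℓ = 0`.  (Intended instance: the `χ`-eigenspace of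
`T_p J₀(N) ⊗ 𝒪'`; NO rank condition and NO multiplicity one is required.) -/
def EichlerShimuraLatticeStatement : Prop :=
  ∀ (p : ℕ) [Fact p.Prime] (N : ℕ) [NeZero N] (S : Finset ℕ)
    (_hpS : p ∈ S) (_hNS : ∀ q : ℕ, q.Prime → q ∣ N → q ∈ S)
    (𝒪' : Type) [CommRing 𝒪'] [IsDomain 𝒪'] [IsDiscreteValuationRing 𝒪']
    [IsAdicComplete (IsLocalRing.maximalIdeal 𝒪') 𝒪'] [Finite (IsLocalRing.ResidueField 𝒪')]
    [CharZero 𝒪'] (_hp𝒪' : (p : 𝒪') ∈ IsLocalRing.maximalIdeal 𝒪')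
    (χ : CuspForm.heckeAlgebra N 2 (↑S : Set ℕ) →+* 𝒪'),
    ∃ (Λ : Type) (_ : AddCommGroup Λ) (_ : Module 𝒪' Λ) (_ : Module.Free 𝒪' Λ)
      (_ : Module.Finite 𝒪' Λ) (_ : Nontrivial Λ)
      (ρ : (AlgebraicClosure ℚ ≃ₐ[ℚ] AlgebraicClosure ℚ) →* Module.End 𝒪' Λ),
      GaloisActionIsAdicContinuous 𝒪' ρ ∧
      (∀ (ℓ : ℕ) (hℓ : ℓ.Prime) (hℓN : ¬ ℓ ∣ N) (hℓS : ℓ ∉ (↑S : Set ℕ)),
        ∀ A : ValuationSubring (AlgebraicClosure ℚ), A.LiesOverPrime ℓ →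
          ∀ σ : AlgebraicClosure ℚ ≃ₐ[ℚ] AlgebraicClosure ℚ, A.IsFrobeniusAt σ ℓ →
            ρ σ * ρ σ - χ (CuspForm.heckeAlgebra.T hℓ hℓN hℓS) • ρ σ
              + (ℓ : 𝒪') • (1 : Module.End 𝒪' Λ) = 0) ∧
      (∀ q : ℕ, q.Prime → ¬ q ∣ N → q ≠ p →
        ∀ P : ValuationSubring (AlgebraicClosure ℚ), P.LiesOverPrime q →
          ∀ σ ∈ P.inertiaSubgroupIn ℚ, ρ σ = 1)

/-- **S30 from the lattice statement** (exactly the frozen statement of S30; the coefficient ring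
is not extended: `𝒪'' = 𝒪'`). -/
theorem s30_of_lattice (hL : EichlerShimuraLatticeStatement) :
    ∀ (p : ℕ) [Fact p.Prime] (N : ℕ) [NeZero N] (S : Finset ℕ)
      (_hpS : p ∈ S) (_hNS : ∀ q : ℕ, q.Prime → q ∣ N → q ∈ S)
      (𝒪' : Type) [CommRing 𝒪'] [IsDomain 𝒪'] [IsDiscreteValuationRing 𝒪']
      [IsAdicComplete (IsLocalRing.maximalIdeal 𝒪') 𝒪'] [Finite (IsLocalRing.ResidueField 𝒪')]
      [CharZero 𝒪'] (_hp𝒪' : (p : 𝒪') ∈ IsLocalRing.maximalIdeal 𝒪')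
      (χ : CuspForm.heckeAlgebra N 2 (↑S : Set ℕ) →+* 𝒪'),
      ∃ (𝒪'' : Type) (_ : CommRing 𝒪'') (_ : IsDomain 𝒪'') (_ : IsDiscreteValuationRing 𝒪'')
        (_ : IsAdicComplete (IsLocalRing.maximalIdeal 𝒪'') 𝒪'')
        (_ : Finite (IsLocalRing.ResidueField 𝒪'')) (_ : CharZero 𝒪'')
        (_ : Algebra 𝒪' 𝒪'') (_ : Module.Finite 𝒪' 𝒪'') (_ : IsLocalHom (algebraMap 𝒪' 𝒪'')),
      Function.Injective (algebraMap 𝒪' 𝒪'') ∧
      ∃ ρ : GaloisRepAdic 𝒪'',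
        (∀ (ℓ : ℕ) (hℓ : ℓ.Prime) (hℓN : ¬ ℓ ∣ N) (hℓS : ℓ ∉ (↑S : Set ℕ)),
          ∀ A : ValuationSubring (AlgebraicClosure ℚ), A.LiesOverPrime ℓ →
            ∀ σ : AlgebraicClosure ℚ ≃ₐ[ℚ] AlgebraicClosure ℚ, A.IsFrobeniusAt σ ℓ →
              LinearMap.charpoly (ρ.ρ σ) =
                X ^ 2 - C (algebraMap 𝒪' 𝒪'' (χ (CuspForm.heckeAlgebra.T hℓ hℓN hℓS))) * X
                  + C ((ℓ : 𝒪''))) ∧
        (∀ q : ℕ, q.Prime → ¬ q ∣ N → q ≠ p → ρ.IsUnramifiedAt q) := by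
  intro p _ N _ S hpS hNS 𝒪' _ _ _ _ _ _ hp𝒪' χ
  obtain ⟨Λ, iA, iM, iFr, iFi, iNt, ρ, hcont, hrel, hunr⟩ := hL p N S hpS hNS 𝒪' hp𝒪' χ
  classical
  -- the Frobenius traces as a function on `ℕ`
  let a : ℕ → 𝒪' := fun ℓ =>
    if h : ℓ.Prime ∧ ¬ ℓ ∣ N ∧ ℓ ∉ (↑S : Set ℕ) then
      χ (CuspForm.heckeAlgebra.T h.1 h.2.1 h.2.2) else 0
  have ha : ∀ (ℓ : ℕ) (hℓ : ℓ.Prime) (hℓN : ¬ ℓ ∣ N) (hℓS : ℓ ∉ (↑S : Set ℕ)),
      a ℓ = χ (CuspForm.heckeAlgebra.T hℓ hℓN hℓS) := by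
    intro ℓ hℓ hℓN hℓS
    show (if h : ℓ.Prime ∧ ¬ ℓ ∣ N ∧ ℓ ∉ (↑S : Set ℕ) then
      χ (CuspForm.heckeAlgebra.T h.1 h.2.1 h.2.2) else 0) = _
    rw [dif_pos ⟨hℓ, hℓN, hℓS⟩]
  have hrel' : ∀ ℓ : ℕ, ℓ.Prime → ℓ ∉ S → ∀ A : ValuationSubring (AlgebraicClosure ℚ),
      A.LiesOverPrime ℓ → ∀ σ : AlgebraicClosure ℚ ≃ₐ[ℚ] AlgebraicClosure ℚ,
        A.IsFrobeniusAt σ ℓ →
          ρ σ * ρ σ - a ℓ • ρ σ + (ℓ : 𝒪') • (1 : Module.End 𝒪' Λ) = 0 := by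
    intro ℓ hℓ hℓS A hA σ hσ
    have hℓN : ¬ ℓ ∣ N := fun h => hℓS (hNS ℓ hℓ h)
    have hℓS' : ℓ ∉ (↑S : Set ℕ) := fun h => hℓS (Finset.mem_coe.mp h)
    rw [ha ℓ hℓ hℓN hℓS']
    exact hrel ℓ hℓ hℓN hℓS' A hA σ hσ
  obtain ⟨ρ', hcp, hun⟩ :=
    exists_galoisRepAdic_of_lattice p hp𝒪' S hpS a ρ hcont hrel'
  refine ⟨𝒪', inferInstance, inferInstance, inferInstance, inferInstance, inferInstance,
    inferInstance, Algebra.id 𝒪', ?_, ?_, ?_, ρ', ?_, ?_⟩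
  · exact Module.Finite.self 𝒪'
  · exact ⟨fun x hx => hx⟩
  · exact fun x y h => h
  · intro ℓ hℓ hℓN hℓS A hA σ hσ
    have hℓS' : ℓ ∉ S := fun h => hℓS (Finset.mem_coe.mpr h)
    rw [hcp ℓ hℓ hℓS' A hA σ hσ, ha ℓ hℓ hℓN hℓS]
    rfl
  · intro q hq hqN hqp
    exact hun q hq hqp (hunr q hq hqN hqp)

end Fermat.Agent.H52
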