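import Mathlib

/-!
# Compactness: a compatible system of eigenvectors from eigenvectors at each level
(P-ES, S30; Mathlib only)

`es_exists_compatible` : if for every `k` there is `w` with `ϖ ^ (k+1) • w = 0`, `ϖ ^ k • w ≠ 0`
and `P w` (a property stable under multiplication by `ϖ`), and the `ϖ ^ (k+1)`-torsion is
finite for every `k`, then there is a nonzero sequence `x` with `x 0 = 0`, `ϖ • x (n+1) = x n`
and `P (x n)` for all `n` (König's lemma for inverse systems of finite sets).
-/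

set_option autoImplicit false

namespace Fermat.Agent.H52

open CategoryTheory Opposite

section Compact

variable {O : Type} [CommRing O] {W : Type} [AddCommGroup W] [Module O W]

/-- The level sets of the inverse system. -/
abbrev ESLevel (ϖ : O) (P : W → Prop) (k : ℕ) : Type :=
  {w : W // ϖ ^ (k + 1) • w = 0 ∧ ϖ ^ k • w ≠ 0 ∧ P w}

/-- The transition maps of the inverse system. -/
def esLevelMap (ϖ : O) (P : W → Prop) (hP : ∀ w, P w → P (ϖ • w)) {j j' : ℕ} (h : j' ≤ j)
    (w : ESLevel ϖ P j) : ESLevel ϖ P j' :=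
  ⟨ϖ ^ (j - j') • w.1, by
    rw [smul_smul, ← pow_add, show j' + 1 + (j - j') = j + 1 by omega]
    exact w.2.1, by
    rw [smul_smul, ← pow_add, show j' + (j - j') = j by omega]
    exact w.2.2.1, by
    have : ∀ n : ℕ, P (ϖ ^ n • w.1) := by
      intro n
      induction n with
      | zero => simpa using w.2.2.2
      | succ n ih => rw [pow_succ', mul_smul]; exact hP _ ih
    exact this _⟩

@[simp] lemma esLevelMap_coe (ϖ : O) (P : W → Prop) (hP : ∀ w, P w → P (ϖ • w)) {j j' : ℕ}
    (h : j' ≤ j) (w : ESLevel ϖ P j) :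
    ((esLevelMap ϖ P hP h w : ESLevel ϖ P j') : W) = ϖ ^ (j - j') • w.1 := rfl

/-- The inverse system as a functor. -/
def esLevelFunctor (ϖ : O) (P : W → Prop) (hP : ∀ w, P w → P (ϖ • w)) : ℕᵒᵖ ⥤ Type where
  obj k := ESLevel ϖ P k.unop
  map {j j'} f := TypeCat.ofHom (esLevelMap ϖ P hP (leOfHom f.unop))
  map_id j := by
    apply ConcreteCategory.hom_ext
    intro w
    apply Subtype.ext
    show ϖ ^ (j.unop - j.unop) • w.1 = w.1
    simp
  map_comp {j j' j''} f g := by
    apply ConcreteCategory.hom_ext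
    intro w
    apply Subtype.ext
    have h1 : j'.unop ≤ j.unop := leOfHom f.unop
    have h2 : j''.unop ≤ j'.unop := leOfHom g.unop
    show ϖ ^ (j.unop - j''.unop) • w.1 = ϖ ^ (j'.unop - j''.unop) • (ϖ ^ (j.unop - j'.unop) • w.1)
    rw [smul_smul, ← pow_add]
    congr 2
    omega

lemma esLevelFunctor_map_coe (ϖ : O) (P : W → Prop) (hP : ∀ w, P w → P (ϖ • w))
    {j j' : ℕᵒᵖ} (f : j ⟶ j') (w : (esLevelFunctor ϖ P hP).obj j) :
    ((show ESLevel ϖ P j'.unop from (esLevelFunctor ϖ P hP).map f w) : W)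
      = ϖ ^ (j.unop - j'.unop) • ((show ESLevel ϖ P j.unop from w) : W) := rfl

theorem es_exists_compatible (ϖ : O) (P : W → Prop) (hP0 : P 0)
    (hP : ∀ w, P w → P (ϖ • w))
    (hfinite : ∀ k : ℕ, Finite {w : W // ϖ ^ (k + 1) • w = 0})
    (hocc : ∀ k : ℕ, ∃ w : W, ϖ ^ (k + 1) • w = 0 ∧ ϖ ^ k • w ≠ 0 ∧ P w) :
    ∃ x : ℕ → W, x 0 = 0 ∧ (∀ n, ϖ • x (n + 1) = x n) ∧ x ≠ 0 ∧ ∀ n, P (x n) := by
  have hfin : ∀ j : ℕᵒᵖ, Finite ((esLevelFunctor ϖ P hP).obj j) := by
    intro j
    have := hfinite j.unop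
    exact Finite.of_injective
      (fun w : ESLevel ϖ P j.unop => (⟨w.1, w.2.1⟩ : {w : W // ϖ ^ (j.unop + 1) • w = 0}))
      (fun a b h => Subtype.ext (by simpa using congrArg Subtype.val h))
  have hne : ∀ j : ℕᵒᵖ, Nonempty ((esLevelFunctor ϖ P hP).obj j) := by
    intro j
    obtain ⟨w, hw⟩ := hocc j.unop
    exact ⟨⟨w, hw⟩⟩
  obtain ⟨u, hu⟩ := nonempty_sections_of_finite_inverse_system (esLevelFunctor ϖ P hP)
  have hstep : ∀ n : ℕ, ϖ • (u (op (n + 1))).1 = (u (op n)).1 := by
    intro n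
    have h := hu (homOfLE (Nat.le_succ n)).op
    have h' := congrArg Subtype.val h
    rw [esLevelFunctor_map_coe] at h'
    simp only [unop_op] at h'
    rw [show n + 1 - n = 1 by omega, pow_one] at h'
    exact h'
  refine ⟨fun n => Nat.casesOn n 0 (fun m => (u (op m)).1), rfl, ?_, ?_, ?_⟩
  · intro n
    cases n with
    | zero =>
      show ϖ • (u (op 0)).1 = 0
      have := (u (op 0)).2.1
      simpa using this
    | succ m => exact hstep m
  · intro h
    have h1 := congrFun h 1
    have h2 : (u (op 0)).1 = 0 := h1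
    have := (u (op 0)).2.2.1
    rw [h2] at this
    simp at this
  · intro n
    cases n with
    | zero => exact hP0
    | succ m => exact (u (op m)).2.2.2

end Compact

end Fermat.Agent.H52
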