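import Mathlib

/-!
# Tate modules over a complete discrete valuation ring (P-ES, S30; Mathlib only)

For a module `D` over a commutative ring `O` and `ϖ : O`, the *Tate module*
`esTate O D ϖ = {x : ℕ → D | x 0 = 0, ϖ • x (n + 1) = x n}` and its eigen-submodules
`esTateEigen ϖ f a` for families of endomorphisms `f i` of `D` and scalars `a i`.

Main results (for `O` a complete discrete valuation ring, `ϖ ≠ 0` in the maximal ideal, and
`D[ϖ]` finitely generated):

* `esTate_fg` : the Tate module is finitely generated (topological Nakayama, by hand);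
* `esTateEigen_free`, `esTateEigen_finite` : eigen-submodules are finite free;
* `exists_tate_lattice` : the packaged output used for S30.
-/

set_option autoImplicit false

namespace Fermat.Agent.H52

open Module

section Basic

variable (O : Type*) [CommRing O] (D : Type*) [AddCommGroup D] [Module O D] (ϖ : O)

/-- The Tate module of `D` with respect to `ϖ`. -/
def esTate : Submodule O (ℕ → D) where
  carrier := {x | x 0 = 0 ∧ ∀ n, ϖ • x (n + 1) = x n}
  add_mem' := by
    rintro x y ⟨hx0, hx⟩ ⟨hy0, hy⟩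
    refine ⟨by simp [hx0, hy0], fun n => ?_⟩
    simp [smul_add, hx n, hy n]
  zero_mem' := ⟨rfl, fun n => by simp⟩
  smul_mem' := by
    rintro a x ⟨hx0, hx⟩
    refine ⟨by simp [hx0], fun n => ?_⟩
    simp [smul_comm ϖ a, hx n]

variable {O D ϖ}

lemma mem_esTate {x : ℕ → D} :
    x ∈ esTate O D ϖ ↔ x 0 = 0 ∧ ∀ n, ϖ • x (n + 1) = x n := Iff.rfl

lemma esTate_pow_smul {x : ℕ → D} (hx : x ∈ esTate O D ϖ) (n k : ℕ) :
    ϖ ^ k • x (n + k) = x n := by
  induction k with
  | zero => simp
  | succ k ih => rw [pow_succ, mul_smul, ← add_assoc, hx.2, ih]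

lemma esTate_pow_smul_self {x : ℕ → D} (hx : x ∈ esTate O D ϖ) (n : ℕ) :
    ϖ ^ n • x n = 0 := by
  have := esTate_pow_smul hx 0 n
  rw [zero_add] at this
  rw [this, hx.1]

lemma esTate_smul_apply_eq_zero {x : ℕ → D} (hx : x ∈ esTate O D ϖ) {c : O} {n : ℕ}
    (hc : c ∈ Ideal.span {ϖ ^ n}) : c • x n = 0 := by
  obtain ⟨b, rfl⟩ := Ideal.mem_span_singleton'.mp hc
  rw [mul_smul, esTate_pow_smul_self hx, smul_zero]

lemma esTate_shift_mem {x : ℕ → D} (hx : x ∈ esTate O D ϖ) {k : ℕ} (hk : x k = 0) :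
    (fun n => x (n + k)) ∈ esTate O D ϖ := by
  refine ⟨by simpa using hk, fun n => ?_⟩
  show ϖ • x (n + 1 + k) = x (n + k)
  rw [show n + 1 + k = n + k + 1 by omega]
  exact hx.2 _

lemma esTate_pow_smul_shift {x : ℕ → D} (hx : x ∈ esTate O D ϖ) (k : ℕ) :
    ϖ ^ k • (fun n => x (n + k)) = x := by
  funext n
  exact esTate_pow_smul hx n k

/-- `ϖ`-power torsion elements of the Tate module vanish. -/
lemma esTate_eq_zero_of_pow_smul {x : ℕ → D} (hx : x ∈ esTate O D ϖ) {k : ℕ}
    (h : ϖ ^ k • x = 0) : x = 0 := by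
  funext n
  have h1 := esTate_pow_smul hx n k
  have h2 : (ϖ ^ k • x) (n + k) = 0 := by rw [h]; rfl
  rw [← h1]
  exact h2

/-- Elements dividing a power of `ϖ` act injectively on the Tate module. -/
lemma esTate_eq_zero_of_smul {x : ℕ → D} (hx : x ∈ esTate O D ϖ) {c : O} {k : ℕ}
    (hc : c ∣ ϖ ^ k) (h : c • x = 0) : x = 0 := by
  obtain ⟨b, hb⟩ := hc
  refine esTate_eq_zero_of_pow_smul hx (k := k) ?_
  rw [hb, mul_comm, mul_smul, h, smul_zero]

/-- Coordinatewise application of an endomorphism preserves the Tate module. -/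
lemma esTate_map_mem (f : Module.End O D) {x : ℕ → D} (hx : x ∈ esTate O D ϖ) :
    (fun n => f (x n)) ∈ esTate O D ϖ := by
  refine ⟨by simp [hx.1], fun n => ?_⟩
  show ϖ • f (x (n + 1)) = f (x n)
  rw [← map_smul, hx.2]

end Basic

section Eigen

variable {O : Type*} [CommRing O] {D : Type*} [AddCommGroup D] [Module O D]

/-- The simultaneous eigen-submodule of the Tate module for the endomorphisms `f i` (acting
coordinatewise) with eigenvalues `a i`. -/
def esTateEigen (ϖ : O) {ι : Type*} (f : ι → Module.End O D) (a : ι → O) :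
    Submodule O (ℕ → D) where
  carrier := {x | x ∈ esTate O D ϖ ∧ ∀ i n, f i (x n) = a i • x n}
  add_mem' := by
    rintro x y ⟨hx, hx'⟩ ⟨hy, hy'⟩
    refine ⟨add_mem hx hy, fun i n => ?_⟩
    simp [hx' i n, hy' i n, smul_add]
  zero_mem' := ⟨zero_mem _, fun i n => by simp⟩
  smul_mem' := by
    rintro c x ⟨hx, hx'⟩
    refine ⟨Submodule.smul_mem _ c hx, fun i n => ?_⟩
    simp [hx' i n, smul_comm c (a i)]

variable {ϖ : O} {ι : Type*} {f : ι → Module.End O D} {a : ι → O}

lemma mem_esTateEigen {x : ℕ → D} :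
    x ∈ esTateEigen ϖ f a ↔ x ∈ esTate O D ϖ ∧ ∀ i n, f i (x n) = a i • x n := Iff.rfl

lemma esTateEigen_le : esTateEigen ϖ f a ≤ esTate O D ϖ := fun _ hx => hx.1

/-- Saturation of the eigen-submodule in the Tate module. -/
lemma esTateEigen_saturated {w : ℕ → D} (hw : w ∈ esTate O D ϖ) {k : ℕ}
    (h : ϖ ^ k • w ∈ esTateEigen ϖ f a) : w ∈ esTateEigen ϖ f a := by
  refine ⟨hw, fun i n => ?_⟩
  have hu : (fun m => f i (w m) - a i • w m) ∈ esTate O D ϖ := by
    have h1 := esTate_map_mem (f i) hw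
    have h2 := Submodule.smul_mem _ (a i) hw
    exact Submodule.sub_mem _ h1 h2
  have hz : ϖ ^ k • (fun m => f i (w m) - a i • w m) = 0 := by
    funext m
    have := h.2 i m
    simp only [Pi.smul_apply, map_smul] at this
    show ϖ ^ k • (f i (w m) - a i • w m) = 0
    rw [smul_sub, this, smul_comm, sub_self]
  have := congrFun (esTate_eq_zero_of_pow_smul hu hz) n
  exact sub_eq_zero.mp this

/-- Stability of the eigen-submodule under endomorphisms commuting with the `f i`. -/
lemma esTateEigen_map_mem (r : Module.End O D) (hr : ∀ i, r * f i = f i * r) {x : ℕ → D}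
    (hx : x ∈ esTateEigen ϖ f a) : (fun n => r (x n)) ∈ esTateEigen ϖ f a := by
  refine ⟨esTate_map_mem r hx.1, fun i n => ?_⟩
  show f i (r (x n)) = a i • r (x n)
  have h1 : f i (r (x n)) = r (f i (x n)) := by
    have := congrArg (fun g : Module.End O D => g (x n)) (hr i)
    simpa using this.symm
  rw [h1, hx.2 i n, map_smul]

end Eigen

section Finiteness

variable {O : Type*} [CommRing O] {D : Type*} [AddCommGroup D] [Module O D] {ϖ : O}

/-- One step of the approximation: modulo `ϖ`, every element of the Tate module is a combination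
of finitely many fixed ones. -/
lemma esTate_exists_step [IsNoetherianRing O]
    (hfin : (Submodule.torsionBy O D ϖ).FG) :
    ∃ (r : ℕ) (x : Fin r → (ℕ → D)), (∀ i, x i ∈ esTate O D ϖ) ∧
      ∀ y ∈ esTate O D ϖ, ∃ c : Fin r → O, ∃ y' ∈ esTate O D ϖ,
        y = ∑ i, c i • x i + ϖ • y' := by
  -- evaluation at `1`
  let E : (ℕ → D) →ₗ[O] D := LinearMap.proj 1
  have hE : ∀ y, E y = y 1 := fun y => rfl
  have hle : (esTate O D ϖ).map E ≤ Submodule.torsionBy O D ϖ := by
    rintro _ ⟨y, hy, rfl⟩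
    rw [Submodule.mem_torsionBy_iff, hE]
    have := hy.2 0
    rw [zero_add] at this
    rw [this, hy.1]
  have hnoeth : IsNoetherian O (Submodule.torsionBy O D ϖ) :=
    isNoetherian_of_fg_of_noetherian _ hfin
  have hfg : ((esTate O D ϖ).map E).FG := isNoetherian_submodule.mp hnoeth _ hle
  obtain ⟨r, s, hs⟩ := Submodule.fg_iff_exists_fin_generating_family.mp hfg
  have hsmem : ∀ i, s i ∈ (esTate O D ϖ).map E := fun i => by
    rw [← hs]; exact Submodule.subset_span (Set.mem_range_self i)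
  choose x hx hxs using hsmem
  refine ⟨r, x, hx, fun y hy => ?_⟩
  have hy1 : E y ∈ Submodule.span O (Set.range s) := by
    rw [hs]; exact Submodule.mem_map_of_mem hy
  obtain ⟨c, hc⟩ := (Submodule.mem_span_range_iff_exists_fun O).mp hy1
  have hz : y - ∑ i, c i • x i ∈ esTate O D ϖ :=
    Submodule.sub_mem _ hy (Submodule.sum_mem _ fun i _ => Submodule.smul_mem _ _ (hx i))
  have hz1 : (y - ∑ i, c i • x i) 1 = 0 := by
    have : E (y - ∑ i, c i • x i) = 0 := by
      rw [map_sub, map_sum]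
      simp only [map_smul, hxs, hc, sub_self]
    exact this
  refine ⟨c, fun n => (y - ∑ i, c i • x i) (n + 1), esTate_shift_mem hz hz1, ?_⟩
  have := esTate_pow_smul_shift hz 1
  rw [pow_one] at this
  rw [this]
  abel

/-- **Topological Nakayama for the Tate module**: if `D[ϖ]` is finitely generated, `O` is a
noetherian local ring, complete for its maximal ideal `𝔪 ∋ ϖ`, and `𝔪 ^ e ≤ (ϖ)`, then the Tate
module is finitely generated. -/
theorem esTate_fg [IsLocalRing O] [IsNoetherianRing O]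
    [IsPrecomplete (IsLocalRing.maximalIdeal O) O]
    (hϖ : ϖ ∈ IsLocalRing.maximalIdeal O) (e : ℕ)
    (he : IsLocalRing.maximalIdeal O ^ e ≤ Ideal.span {ϖ})
    (hfin : (Submodule.torsionBy O D ϖ).FG) : (esTate O D ϖ).FG := by
  obtain ⟨r, x, hx, hstep⟩ := esTate_exists_step (ϖ := ϖ) hfin
  -- it suffices to show that the `x i` span
  suffices h : esTate O D ϖ ≤ Submodule.span O (Set.range x) by
    have heq : esTate O D ϖ = Submodule.span O (Set.range x) :=
      le_antisymm h (Submodule.span_le.mpr (by rintro _ ⟨i, rfl⟩; exact hx i))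
    rw [heq]
    exact Submodule.fg_span (Set.finite_range x)
  intro y₀ hy₀
  -- choose the approximation step
  have hstep' : ∀ y : esTate O D ϖ, ∃ c : Fin r → O, ∃ y' : esTate O D ϖ,
      (y : ℕ → D) = ∑ i, c i • x i + ϖ • (y' : ℕ → D) := by
    rintro ⟨y, hy⟩
    obtain ⟨c, y', hy', h⟩ := hstep y hy
    exact ⟨c, ⟨y', hy'⟩, h⟩
  choose C Y hCY using hstep'
  let seq : ℕ → esTate O D ϖ := fun k => Y^[k] ⟨y₀, hy₀⟩
  have hseq_succ : ∀ k, seq (k + 1) = Y (seq k) := fun k =>
    Function.iterate_succ_apply' Y k _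
  let s : ℕ → Fin r → O := fun m i => ∑ k ∈ Finset.range m, ϖ ^ k * C (seq k) i
  have hs_succ : ∀ m i, s (m + 1) i = s m i + ϖ ^ m * C (seq m) i := fun m i =>
    Finset.sum_range_succ _ _
  have hmain : ∀ m, y₀ = ∑ i, s m i • x i + ϖ ^ m • (seq m : ℕ → D) := by
    intro m
    induction m with
    | zero =>
      simp only [s, Finset.range_zero, Finset.sum_empty, zero_smul, Finset.sum_const_zero,
        zero_add, pow_zero, one_smul]
      rfl
    | succ m ih =>
      have h1 := hCY (seq m)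
      rw [← hseq_succ] at h1
      calc y₀ = ∑ i, s m i • x i + ϖ ^ m • (seq m : ℕ → D) := ih
        _ = ∑ i, s m i • x i + ϖ ^ m • (∑ i, C (seq m) i • x i
              + ϖ • (seq (m + 1) : ℕ → D)) := by rw [← h1]
        _ = ∑ i, s (m + 1) i • x i + ϖ ^ (m + 1) • (seq (m + 1) : ℕ → D) := by
          rw [smul_add, Finset.smul_sum, ← add_assoc, ← Finset.sum_add_distrib, smul_smul,
            ← pow_succ]
          congr 1
          refine Finset.sum_congr rfl fun i _ => ?_
          rw [hs_succ, add_smul, smul_smul]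
  -- the partial sums are Cauchy
  have hpow_mem : ∀ k m, m ≤ k → ϖ ^ k ∈ IsLocalRing.maximalIdeal O ^ m := fun k m hmk =>
    Ideal.pow_le_pow_right hmk (Ideal.pow_mem_pow hϖ k)
  have hcauchy : ∀ i m n, m ≤ n → s n i - s m i ∈ IsLocalRing.maximalIdeal O ^ m := by
    intro i m n hmn
    induction n, hmn using Nat.le_induction with
    | base => simp
    | succ n hmn ih =>
      have e1 : s (n + 1) i - s m i = (s n i - s m i) + ϖ ^ n * C (seq n) i := by
        rw [hs_succ]; ring
      rw [e1]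
      exact Ideal.add_mem _ ih (Ideal.mul_mem_right _ _ (hpow_mem n m hmn))
  -- the limits of the coefficients
  have hprec : IsPrecomplete (IsLocalRing.maximalIdeal O) O := inferInstance
  have hlim : ∀ i, ∃ L : O, ∀ n, s n i - L ∈ IsLocalRing.maximalIdeal O ^ n := by
    intro i
    obtain ⟨L, hL⟩ := hprec.prec' (fun n => s n i) (fun {m n} hmn => by
      refine SModEq.symm ?_
      rw [SModEq.sub_mem, smul_eq_mul, Ideal.mul_top]
      exact hcauchy i m n hmn)
    refine ⟨L, fun n => ?_⟩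
    have := hL n
    rwa [SModEq.sub_mem, smul_eq_mul, Ideal.mul_top] at this
  choose L hL using hlim
  -- conclusion
  have hfinal : y₀ = ∑ i, L i • x i := by
    funext n
    have hle : IsLocalRing.maximalIdeal O ^ (e * n) ≤ Ideal.span {ϖ ^ n} := by
      rw [pow_mul, ← Ideal.span_singleton_pow]
      exact Ideal.pow_right_mono he n
    have h1 := congrFun (hmain (e * n)) n
    have h2 : (ϖ ^ (e * n) • (seq (e * n) : ℕ → D)) n = 0 := by
      show ϖ ^ (e * n) • (seq (e * n) : ℕ → D) n = 0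
      exact esTate_smul_apply_eq_zero (seq (e * n)).2
        (hle (Ideal.pow_mem_pow hϖ _))
    have h3 : ∀ i, (s (e * n) i • x i) n = (L i • x i) n := by
      intro i
      show s (e * n) i • x i n = L i • x i n
      have := esTate_smul_apply_eq_zero (hx i) (hle (hL i (e * n)))
      rw [sub_smul, sub_eq_zero] at this
      exact this
    rw [h1, Pi.add_apply, h2, add_zero, Finset.sum_apply, Finset.sum_apply]
    exact Finset.sum_congr rfl fun i _ => h3 i
  rw [hfinal]
  exact Submodule.sum_mem _ fun i _ =>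
    Submodule.smul_mem _ _ (Submodule.subset_span (Set.mem_range_self i))

end Finiteness

section DVR

variable {O : Type*} [CommRing O] [IsDomain O] [IsDiscreteValuationRing O]

/-- In a discrete valuation ring a power of the maximal ideal is contained in any nonzero
principal ideal. -/
lemma es_dvr_pow_le {ϖ : O} (hϖ0 : ϖ ≠ 0) :
    ∃ e : ℕ, IsLocalRing.maximalIdeal O ^ e ≤ Ideal.span {ϖ} := by
  obtain ⟨π, hπ⟩ := IsDiscreteValuationRing.exists_irreducible O
  obtain ⟨e, u, hu⟩ := IsDiscreteValuationRing.eq_unit_mul_pow_irreducible hϖ0 hπ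
  refine ⟨e, ?_⟩
  rw [hπ.maximalIdeal_eq, Ideal.span_singleton_pow, Ideal.span_singleton_le_span_singleton]
  refine ⟨(↑u⁻¹ : O), ?_⟩
  rw [hu]
  calc π ^ e = (↑u * ↑u⁻¹ : O) * π ^ e := by rw [Units.mul_inv, one_mul]
    _ = ↑u * π ^ e * ↑u⁻¹ := by ring

/-- In a discrete valuation ring every nonzero element divides a power of any nonzero
non-unit. -/
lemma es_dvr_dvd_pow {ϖ : O} (hϖ : ϖ ∈ IsLocalRing.maximalIdeal O) (hϖ0 : ϖ ≠ 0) {c : O}
    (hc : c ≠ 0) : ∃ k : ℕ, c ∣ ϖ ^ k := by
  obtain ⟨π, hπ⟩ := IsDiscreteValuationRing.exists_irreducible O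
  obtain ⟨e, u, hu⟩ := IsDiscreteValuationRing.eq_unit_mul_pow_irreducible hϖ0 hπ
  obtain ⟨j, w, hw⟩ := IsDiscreteValuationRing.eq_unit_mul_pow_irreducible hc hπ
  have he : e ≠ 0 := by
    rintro rfl
    rw [pow_zero, mul_one] at hu
    exact (IsLocalRing.mem_maximalIdeal _).mp hϖ (hu ▸ u.isUnit)
  obtain ⟨e', rfl⟩ := Nat.exists_eq_succ_of_ne_zero he
  refine ⟨j, ⟨↑w⁻¹ * ↑u ^ j * π ^ (e' * j), ?_⟩⟩
  rw [hu, hw]
  calc (↑u * π ^ (e' + 1)) ^ j = ↑u ^ j * (π ^ j * π ^ (e' * j)) := by
        rw [mul_pow, ← pow_mul, ← pow_add]; congr 2; ring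
    _ = (↑w * ↑w⁻¹ : O) * (↑u ^ j * (π ^ j * π ^ (e' * j))) := by rw [Units.mul_inv, one_mul]
    _ = ↑w * π ^ j * (↑w⁻¹ * ↑u ^ j * π ^ (e' * j)) := by ring

end DVR

section Lattice

variable {O : Type*} [CommRing O] [IsDomain O] [IsDiscreteValuationRing O]
  {D : Type*} [AddCommGroup D] [Module O D] {ϖ : O}
  {ι : Type*} {f : ι → Module.End O D} {a : ι → O}

/-- Submodules of the Tate module are torsion-free. -/
lemma esTate_isTorsionFree (hϖ : ϖ ∈ IsLocalRing.maximalIdeal O) (hϖ0 : ϖ ≠ 0)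
    (Λ : Submodule O (ℕ → D)) (hΛ : Λ ≤ esTate O D ϖ) : Module.IsTorsionFree O Λ where
  isSMulRegular c hc := by
    intro x y hxy
    have hc0 : c ≠ 0 := hc.ne_zero
    obtain ⟨k, hk⟩ := es_dvr_dvd_pow hϖ hϖ0 hc0
    have hmem : ((x - y : Λ) : ℕ → D) ∈ esTate O D ϖ := hΛ (x - y).2
    have hz : c • ((x - y : Λ) : ℕ → D) = 0 := by
      have h1 : c • (x - y) = 0 := by
        rw [smul_sub]; exact sub_eq_zero.mpr hxy
      have := congrArg (Subtype.val) h1
      simpa using this
    have := esTate_eq_zero_of_smul hmem hk hz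
    have h0 : x - y = 0 := Subtype.ext this
    exact sub_eq_zero.mp h0

/-- Submodules of the Tate module are finitely generated (complete discrete valuation ring,
`D[ϖ]` finitely generated). -/
lemma esTate_sub_fg [IsPrecomplete (IsLocalRing.maximalIdeal O) O]
    (hϖ : ϖ ∈ IsLocalRing.maximalIdeal O) (hϖ0 : ϖ ≠ 0)
    (hfin : (Submodule.torsionBy O D ϖ).FG)
    (Λ : Submodule O (ℕ → D)) (hΛ : Λ ≤ esTate O D ϖ) : Λ.FG := by
  obtain ⟨e, he⟩ := es_dvr_pow_le hϖ0
  have hfg := esTate_fg hϖ e he hfin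
  have hnoeth : IsNoetherian O (esTate O D ϖ) := isNoetherian_of_fg_of_noetherian _ hfg
  exact isNoetherian_submodule.mp hnoeth _ hΛ

end Lattice

section Rep

variable {O : Type*} [CommRing O] {D : Type*} [AddCommGroup D] [Module O D] {ϖ : O}
  {ι : Type*} {f : ι → Module.End O D} {a : ι → O}

/-- Coordinatewise action of an endomorphism of `D` on sequences. -/
def esCoord (r : Module.End O D) : (ℕ → D) →ₗ[O] (ℕ → D) where
  toFun x n := r (x n)
  map_add' x y := by funext n; simp
  map_smul' c x := by funext n; simp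

@[simp] lemma esCoord_apply (r : Module.End O D) (x : ℕ → D) (n : ℕ) :
    esCoord r x n = r (x n) := rfl

variable {G : Type*} [Monoid G]

/-- The action on the eigen-submodule of the Tate module induced by an action on `D` commuting
with the operators. -/
def esTateRep (ϖ : O) (f : ι → Module.End O D) (a : ι → O) (ρ : G →* Module.End O D)
    (hcomm : ∀ g i, ρ g * f i = f i * ρ g) :
    G →* Module.End O (esTateEigen ϖ f a) where
  toFun g := (esCoord (ρ g)).restrict fun _ hx => esTateEigen_map_mem (ρ g) (hcomm g) hx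
  map_one' := by
    apply LinearMap.ext
    intro x
    apply Subtype.ext
    funext n
    simp [LinearMap.restrict_apply]
  map_mul' g h := by
    apply LinearMap.ext
    intro x
    apply Subtype.ext
    funext n
    simp [LinearMap.restrict_apply]

@[simp] lemma esTateRep_apply_coe (ρ : G →* Module.End O D)
    (hcomm : ∀ g i, ρ g * f i = f i * ρ g) (g : G) (x : esTateEigen ϖ f a) (n : ℕ) :
    ((esTateRep ϖ f a ρ hcomm g x : esTateEigen ϖ f a) : ℕ → D) n = ρ g ((x : ℕ → D) n) :=
  rfl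

/-- If `g` fixes `D[ϖ ^ n]` pointwise, then `g - 1` maps the eigen-lattice into `ϖ ^ n` times
itself. -/
lemma esTateRep_sub_mem (ρ : G →* Module.End O D)
    (hcomm : ∀ g i, ρ g * f i = f i * ρ g) (g : G) (n : ℕ)
    (hg : ∀ d : D, ϖ ^ n • d = 0 → ρ g d = d) (x : esTateEigen ϖ f a) :
    esTateRep ϖ f a ρ hcomm g x - x ∈
      (Ideal.span {ϖ ^ n}) • (⊤ : Submodule O (esTateEigen ϖ f a)) := by
  set z : esTateEigen ϖ f a := esTateRep ϖ f a ρ hcomm g x - x with hz
  have hzT : (z : ℕ → D) ∈ esTate O D ϖ := z.2.1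
  have hzn : (z : ℕ → D) n = 0 := by
    show ρ g ((x : ℕ → D) n) - (x : ℕ → D) n = 0
    rw [hg _ (esTate_pow_smul_self x.2.1 n), sub_self]
  have hw : (fun m => (z : ℕ → D) (m + n)) ∈ esTateEigen ϖ f a := by
    refine esTateEigen_saturated (esTate_shift_mem hzT hzn) (k := n) ?_
    rw [esTate_pow_smul_shift hzT]
    exact z.2
  have hzw : z = ϖ ^ n • (⟨_, hw⟩ : esTateEigen ϖ f a) := by
    apply Subtype.ext
    exact (esTate_pow_smul_shift hzT n).symm
  rw [hzw]
  exact Submodule.smul_mem_smul (Ideal.mem_span_singleton_self _) Submodule.mem_top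

/-- The quadratic relation on `ϖ`-power torsion of `D` gives the quadratic relation on the
eigen-lattice, with the operator replaced by its eigenvalue. -/
lemma esTateRep_rel (ρ : G →* Module.End O D)
    (hcomm : ∀ g i, ρ g * f i = f i * ρ g) (g : G) (i : ι) (c : O)
    (hg : ∀ (d : D) (n : ℕ), ϖ ^ n • d = 0 → ρ g (ρ g d) - f i (ρ g d) + c • d = 0) :
    esTateRep ϖ f a ρ hcomm g * esTateRep ϖ f a ρ hcomm g
      - a i • esTateRep ϖ f a ρ hcomm g
      + c • (1 : Module.End O (esTateEigen ϖ f a)) = 0 := by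
  apply LinearMap.ext
  intro x
  apply Subtype.ext
  funext n
  have h1 := hg ((x : ℕ → D) n) n (esTate_pow_smul_self x.2.1 n)
  have h2 : f i (ρ g ((x : ℕ → D) n)) = a i • ρ g ((x : ℕ → D) n) :=
    (esTateEigen_map_mem (ρ g) (hcomm g) x.2).2 i n
  rw [h2] at h1
  show ρ g (ρ g ((x : ℕ → D) n)) - a i • ρ g ((x : ℕ → D) n) + c • (x : ℕ → D) n = 0
  exact h1

/-- If `g` fixes all `ϖ`-power torsion of `D`, it acts trivially on the eigen-lattice. -/
lemma esTateRep_eq_one (ρ : G →* Module.End O D)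
    (hcomm : ∀ g i, ρ g * f i = f i * ρ g) (g : G)
    (hg : ∀ (d : D) (n : ℕ), ϖ ^ n • d = 0 → ρ g d = d) :
    esTateRep ϖ f a ρ hcomm g = 1 := by
  apply LinearMap.ext
  intro x
  apply Subtype.ext
  funext n
  show ρ g ((x : ℕ → D) n) = (x : ℕ → D) n
  exact hg _ n (esTate_pow_smul_self x.2.1 n)

end Rep

section Package

/-- **The Tate lattice** (packaged for S30).  `O` a complete discrete valuation ring, `ϖ ≠ 0` in
its maximal ideal, `D` an `O`-module with `D[ϖ]` finitely generated, with an action `ρ` of a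
monoid `G` and operators `f i` commuting with `ρ`; `x₀` a nonzero compatible system of
simultaneous eigenvectors with eigenvalues `a i`.  Then there is a nonzero finite free `O`-module
`Λ` with an action `ρ'` of `G` such that: elements fixing `D[ϖ ^ n]` act trivially modulo
`𝔪 ^ n`; quadratic relations on the `ϖ`-power torsion of `D` involving `f i` hold on `Λ` with `a i`;
elements fixing the `ϖ`-power torsion act trivially. -/
theorem exists_tate_lattice {O : Type} [CommRing O] [IsDomain O] [IsDiscreteValuationRing O]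
    [IsAdicComplete (IsLocalRing.maximalIdeal O) O]
    {D : Type} [AddCommGroup D] [Module O D] (ϖ : O)
    (hϖ : ϖ ∈ IsLocalRing.maximalIdeal O) (hϖ0 : ϖ ≠ 0)
    (hfin : (Submodule.torsionBy O D ϖ).FG)
    {G : Type*} [Monoid G] (ρ : G →* Module.End O D)
    {ι : Type*} (f : ι → Module.End O D) (a : ι → O)
    (hcomm : ∀ g i, ρ g * f i = f i * ρ g)
    (x₀ : ℕ → D) (hx₀ : x₀ ∈ esTateEigen ϖ f a) (hne : x₀ ≠ 0) :
    ∃ (Λ : Type) (_ : AddCommGroup Λ) (_ : Module O Λ) (_ : Module.Free O Λ)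
      (_ : Module.Finite O Λ) (_ : Nontrivial Λ) (ρ' : G →* Module.End O Λ),
      (∀ (g : G) (n : ℕ), (∀ d : D, ϖ ^ n • d = 0 → ρ g d = d) →
        ∀ v : Λ, ρ' g v - v ∈ (IsLocalRing.maximalIdeal O ^ n) • (⊤ : Submodule O Λ)) ∧
      (∀ (g : G) (i : ι) (c : O),
        (∀ (d : D) (n : ℕ), ϖ ^ n • d = 0 → ρ g (ρ g d) - f i (ρ g d) + c • d = 0) →
          ρ' g * ρ' g - a i • ρ' g + c • (1 : Module.End O Λ) = 0) ∧
      (∀ g : G, (∀ (d : D) (n : ℕ), ϖ ^ n • d = 0 → ρ g d = d) → ρ' g = 1) := by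
  have hfg : (esTateEigen ϖ f a).FG := esTate_sub_fg hϖ hϖ0 hfin _ esTateEigen_le
  have iFin : Module.Finite O (esTateEigen ϖ f a) := Module.Finite.iff_fg.mpr hfg
  have iTF : Module.IsTorsionFree O (esTateEigen ϖ f a) :=
    esTate_isTorsionFree hϖ hϖ0 _ esTateEigen_le
  have iFree : Module.Free O (esTateEigen ϖ f a) := Module.free_of_finite_type_torsion_free'
  have iNt : Nontrivial (esTateEigen ϖ f a) :=
    ⟨⟨⟨x₀, hx₀⟩, 0, fun h => hne (congrArg Subtype.val h)⟩⟩
  refine ⟨esTateEigen ϖ f a, inferInstance, inferInstance, iFree, iFin, iNt,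
    esTateRep ϖ f a ρ hcomm, ?_, ?_, ?_⟩
  · intro g n hg v
    have h1 := esTateRep_sub_mem (a := a) ρ hcomm g n hg v
    have hle : Ideal.span {ϖ ^ n} ≤ IsLocalRing.maximalIdeal O ^ n := by
      rw [Ideal.span_singleton_le_iff_mem]
      exact Ideal.pow_mem_pow hϖ n
    exact Submodule.smul_mono_left hle h1
  · intro g i c hg
    exact esTateRep_rel ρ hcomm g i c hg
  · intro g hg
    exact esTateRep_eq_one ρ hcomm g hg

end Package

end Fermat.Agent.H52
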