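import Mathlib
import Fermat.Agent.H52.ESTate

/-!
# Torsion of `O ⊗_ℤ J` (P-ES, S30; Mathlib only)

For a flat `ℤ`-algebra `O` (e.g. a domain of characteristic zero) and an abelian group `J`:

* `es_tensor_mem_range` : the `q`-torsion of `O ⊗ J` is the image of `O ⊗ J[q]`;
* `es_tensor_vanish` : an additive map vanishing on `J[q]` vanishes, after base change to `O`,
  on `(O ⊗ J)[q]`;
* `es_tensor_torsion_fg` : if `J[q]` is finite then `(O ⊗ J)[q]` is a finitely generated
  `O`-module.
-/

set_option autoImplicit false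

namespace Fermat.Agent.H52

open TensorProduct

section Tensor

variable {O : Type*} [CommRing O] [Module.Flat ℤ O]
  {J J' : Type*} [AddCommGroup J] [AddCommGroup J']

/-- The `q`-torsion subgroup of `J` as a `ℤ`-submodule. -/
abbrev esTorsZ (J : Type*) [AddCommGroup J] (q : ℤ) : Submodule ℤ J :=
  LinearMap.ker (q • (LinearMap.id : J →ₗ[ℤ] J))

lemma mem_esTorsZ {q : ℤ} {x : J} : x ∈ esTorsZ J q ↔ q • x = 0 := by
  simp [esTorsZ, LinearMap.mem_ker]

/-- The `q`-torsion of `O ⊗ J` comes from `O ⊗ J[q]` (flatness). -/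
lemma es_tensor_mem_range (q : ℤ) (d : O ⊗[ℤ] J) (hd : (q : O) • d = 0) :
    d ∈ LinearMap.range ((esTorsZ J q).subtype.lTensor O) := by
  have hex : Function.Exact (esTorsZ J q).subtype (q • (LinearMap.id : J →ₗ[ℤ] J)) :=
    LinearMap.exact_subtype_ker_map _
  have hex' := Module.Flat.lTensor_exact O hex
  have h0 : (q • (LinearMap.id : J →ₗ[ℤ] J)).lTensor O d = 0 := by
    rw [LinearMap.lTensor_smul, LinearMap.lTensor_id, LinearMap.smul_apply, LinearMap.id_apply,
      ← Int.cast_smul_eq_zsmul O q d]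
    exact hd
  exact (hex' d).mp h0

/-- An additive map vanishing on `J[q]` vanishes on `(O ⊗ J)[q]` after base change. -/
lemma es_tensor_vanish (q : ℤ) (φ : J →ₗ[ℤ] J') (hφ : ∀ x : J, q • x = 0 → φ x = 0)
    (d : O ⊗[ℤ] J) (hd : (q : O) • d = 0) : φ.baseChange O d = 0 := by
  obtain ⟨e, rfl⟩ := es_tensor_mem_range q d hd
  have h1 : φ ∘ₗ (esTorsZ J q).subtype = 0 := by
    apply LinearMap.ext
    intro x
    exact hφ x (mem_esTorsZ.mp x.2)
  have h2 : φ.baseChange O ((esTorsZ J q).subtype.lTensor O e)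
      = (φ ∘ₗ (esTorsZ J q).subtype).lTensor O e := by
    rw [LinearMap.lTensor_comp]
    rfl
  rw [h2, h1, LinearMap.lTensor_zero, LinearMap.zero_apply]

/-- If `J[q]` is finite then `(O ⊗ J)[q]` is a finitely generated `O`-module. -/
lemma es_tensor_torsion_fg [IsNoetherianRing O] (q : ℤ)
    (hfin : Finite {x : J // q • x = 0}) :
    (Submodule.torsionBy O (O ⊗[ℤ] J) (q : O)).FG := by
  have hfin' : Finite (esTorsZ J q) := by
    refine Finite.of_injective (fun x : esTorsZ J q =>
      (⟨x.1, mem_esTorsZ.mp x.2⟩ : {x : J // q • x = 0})) ?_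
    intro x y h
    exact Subtype.ext (congrArg Subtype.val h)
  have hmf : Module.Finite ℤ (esTorsZ J q) := Module.Finite.of_finite
  have hmf' : Module.Finite O (O ⊗[ℤ] esTorsZ J q) := inferInstance
  have hrange : (LinearMap.range ((esTorsZ J q).subtype.baseChange O)).FG := by
    rw [LinearMap.range_eq_map]
    exact Submodule.FG.map _ hmf'.fg_top
  have hle : Submodule.torsionBy O (O ⊗[ℤ] J) (q : O) ≤
      LinearMap.range ((esTorsZ J q).subtype.baseChange O) := by
    intro d hd
    rw [Submodule.mem_torsionBy_iff] at hd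
    obtain ⟨e, he⟩ := es_tensor_mem_range q d hd
    exact ⟨e, he⟩
  have hnoeth : IsNoetherian O (LinearMap.range ((esTorsZ J q).subtype.baseChange O)) :=
    isNoetherian_of_fg_of_noetherian _ hrange
  exact isNoetherian_submodule.mp hnoeth _ hle

end Tensor

end Fermat.Agent.H52
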