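import Mathlib
import Fermat.Agent.H37.ESAdic.Abstract
import Fermat.Agent.H52.ESTateTensor
import Fermat.Agent.H52.ESTateCompact

/-!
# The abstract Tate machine (P-ES, row S30-PADIC, block (A); Mathlib only)

`tateMachine : Fermat.Agent.H37.TateMachineStatement` (unconditional).
-/

set_option autoImplicit false

namespace Fermat.Agent.H52

open TensorProduct

section FiniteQuotient

/-- Quotients of a discrete valuation ring with finite residue field by nonzero principal ideals
are finite. -/
lemma es_dvr_finite_quotient {O : Type*} [CommRing O] [IsDomain O] [IsDiscreteValuationRing O]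
    [Finite (IsLocalRing.ResidueField O)] {ϖ : O} (hϖ0 : ϖ ≠ 0) :
    Finite (O ⧸ Ideal.span {ϖ}) := by
  obtain ⟨e, he⟩ := es_dvr_pow_le hϖ0
  have h1 : Finite (O ⧸ IsLocalRing.maximalIdeal O) :=
    inferInstanceAs (Finite (IsLocalRing.ResidueField O))
  have h2 : Finite (O ⧸ IsLocalRing.maximalIdeal O ^ e) :=
    Ideal.finite_quotient_pow (IsNoetherian.noetherian (IsLocalRing.maximalIdeal O)) e
  exact Finite.of_surjective (Ideal.Quotient.factor he) (Ideal.Quotient.factor_surjective he)

variable {O : Type*} [CommRing O] [Module.Flat ℤ O] {J : Type*} [AddCommGroup J]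

/-- If `J[q]` and `O / q` are finite, then `(O ⊗ J)[q]` is finite. -/
lemma es_tensor_torsion_finite (q : ℤ) [Finite (O ⧸ Ideal.span {(q : O)})]
    (hfin : Finite {x : J // q • x = 0}) :
    Finite {d : O ⊗[ℤ] J // (q : O) • d = 0} := by
  have hfin' : Finite (esTorsZ J q) := by
    refine Finite.of_injective (fun x : esTorsZ J q =>
      (⟨x.1, mem_esTorsZ.mp x.2⟩ : {x : J // q • x = 0})) ?_
    intro x y h
    have h' : (x : J) = (y : J) := by
      simp only [Subtype.mk.injEq] at h
      exact h
    exact Subtype.ext h'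
  have hmf : Module.Finite ℤ (esTorsZ J q) := Module.Finite.of_finite
  have hmf' : Module.Finite O (O ⊗[ℤ] esTorsZ J q) := inferInstance
  have htors : Module.IsTorsionBy O (O ⊗[ℤ] esTorsZ J q) (q : O) := by
    intro m
    induction m using TensorProduct.induction_on with
    | zero => simp
    | tmul a x =>
      have hx : q • x = 0 := Subtype.ext (by simp)
      rw [Int.cast_smul_eq_zsmul, ← TensorProduct.tmul_smul, hx, TensorProduct.tmul_zero]
    | add m₁ m₂ h₁ h₂ => rw [smul_add, h₁, h₂, add_zero]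
  let _i := htors.module
  have hmf'' : Module.Finite (O ⧸ Ideal.span {(q : O)}) (O ⊗[ℤ] esTorsZ J q) :=
    Module.Finite.of_restrictScalars_finite O _ _
  have hM : Finite (O ⊗[ℤ] esTorsZ J q) := Module.finite_of_finite (O ⧸ Ideal.span {(q : O)})
  have hsub : {d : O ⊗[ℤ] J | (q : O) • d = 0} ⊆
      Set.range ((esTorsZ J q).subtype.lTensor O) := by
    intro d hd
    exact es_tensor_mem_range q d hd
  exact Set.finite_coe_iff.mpr ((Set.finite_range _).subset hsub)

end FiniteQuotient

section Act

variable {G : Type*} [Monoid G] {J : Type*} [AddCommGroup J] [DistribMulAction G J]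
  (O : Type*) [CommRing O]

/-- The action of `G` on `O ⊗_ℤ J` (Mathlib-only twin of `esTensorRep`). -/
noncomputable def esTensorAct : G →* Module.End O (O ⊗[ℤ] J) where
  toFun g := (DistribMulAction.toModuleEnd ℤ J g).baseChange O
  map_one' := by rw [map_one, LinearMap.baseChange_one]
  map_mul' g h := by rw [map_mul, LinearMap.baseChange_mul]

end Act

/-- **The abstract Tate machine.** -/
theorem tateMachine : Fermat.Agent.H37.TateMachineStatement := by
  intro p _ G _ J _ _ ι T hTcomm hfinJ O _ _ _ _ _ _ hpO a hocc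
  let ρJ : G →* Module.End ℤ J := DistribMulAction.toModuleEnd ℤ J
  let ρD : G →* Module.End O (O ⊗[ℤ] J) := esTensorAct O
  let f : ι → Module.End O (O ⊗[ℤ] J) := fun i => (T i).toIntLinearMap.baseChange O
  have hϖ0 : (p : O) ≠ 0 := Nat.cast_ne_zero.mpr (Fact.out : p.Prime).ne_zero
  have hflat : Module.Flat ℤ O := inferInstance
  have hcast : ∀ n : ℕ, (((p ^ n : ℕ) : ℤ) : O) = (p : O) ^ n := fun n => by push_cast; rfl
  have hfinJ' : ∀ n : ℕ, Finite {x : J // ((p ^ n : ℕ) : ℤ) • x = 0} := by
    intro n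
    have h0 := hfinJ n
    refine Finite.of_injective (fun x : {x : J // ((p ^ n : ℕ) : ℤ) • x = 0} =>
      (⟨x.1, by have := x.2; rw [natCast_zsmul] at this; exact this⟩ :
        {x : J // p ^ n • x = 0})) ?_
    intro x y h
    have h' : (x : J) = (y : J) := by
      simp only [Subtype.mk.injEq] at h
      exact h
    exact Subtype.ext h'
  have hfin : (Submodule.torsionBy O (O ⊗[ℤ] J) (p : O)).FG := by
    have h2 := es_tensor_torsion_fg (O := O) (J := J) ((p ^ 1 : ℕ) : ℤ) (hfinJ' 1)
    rw [hcast 1, pow_one] at h2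
    exact h2
  have hcomm : ∀ g i, ρD g * f i = f i * ρD g := by
    intro g i
    show (ρJ g).baseChange O * (T i).toIntLinearMap.baseChange O
      = (T i).toIntLinearMap.baseChange O * (ρJ g).baseChange O
    rw [← LinearMap.baseChange_mul, ← LinearMap.baseChange_mul]
    congr 1
    apply LinearMap.ext
    intro x
    exact (hTcomm i g x).symm
  -- finiteness of the torsion levels
  have hfinite : ∀ k : ℕ, Finite {w : O ⊗[ℤ] J // (p : O) ^ (k + 1) • w = 0} := by
    intro k
    have hq0 : (((p ^ (k + 1) : ℕ) : ℤ) : O) ≠ 0 := by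
      rw [hcast]; exact pow_ne_zero _ hϖ0
    have hfq := es_dvr_finite_quotient hq0
    have := es_tensor_torsion_finite (O := O) (J := J) ((p ^ (k + 1) : ℕ) : ℤ) (hfinJ' (k + 1))
    rw [hcast] at this
    exact this
  -- a compatible system of eigenvectors
  obtain ⟨x₀, hx0, hxs, hxne, hxeig⟩ :=
    es_exists_compatible (p : O) (fun w => ∀ i, f i w = a i • w)
      (fun i => by simp)
      (fun w hw i => by rw [map_smul, hw i, smul_comm])
      hfinite hocc
  have hx₀ : x₀ ∈ esTateEigen (p : O) f a := ⟨⟨hx0, hxs⟩, fun i n => hxeig n i⟩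
  obtain ⟨Λ, iA, iM, iFr, iFi, iNt, ρ', hcont, hrel, hone⟩ :=
    exists_tate_lattice (p : O) hpO hϖ0 hfin ρD f a hcomm x₀ hx₀ hxne
  -- key transfer
  have key : ∀ (φ : Module.End ℤ J) (n : ℕ),
      (∀ x : J, p ^ n • x = 0 → φ x = 0) →
        ∀ d : O ⊗[ℤ] J, (p : O) ^ n • d = 0 → φ.baseChange O d = 0 := by
    intro φ n hφ d hd
    refine es_tensor_vanish ((p ^ n : ℕ) : ℤ) φ (fun x hx => hφ x ?_) d ?_
    · rwa [natCast_zsmul] at hx
    · rw [hcast]
      exact hd
  have hfix : ∀ (g : G) (n : ℕ), (∀ x : J, p ^ n • x = 0 → g • x = x) →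
      ∀ d : O ⊗[ℤ] J, (p : O) ^ n • d = 0 → ρD g d = d := by
    intro g n hg d hd
    have h1 : ∀ x : J, p ^ n • x = 0 → (ρJ g - 1) x = 0 := by
      intro x hx
      show g • x - x = 0
      rw [sub_eq_zero]
      exact hg x hx
    have h2 := key (ρJ g - 1) n h1 d hd
    rw [LinearMap.baseChange_sub, LinearMap.baseChange_one, LinearMap.sub_apply,
      sub_eq_zero] at h2
    exact h2
  refine ⟨Λ, iA, iM, iFr, iFi, iNt, ρ', ?_, ?_, ?_⟩
  · intro k g hg v
    exact hcont g k (hfix g k hg) v
  · intro g hg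
    apply hone
    intro d n hd
    exact hfix g n (fun x hx => hg x ⟨n, hx⟩) d hd
  · intro g i c hg
    refine hrel g i (c : O) ?_
    intro d n hd
    have h1 : ∀ x : J, p ^ n • x = 0 →
        (ρJ g * ρJ g - (T i).toIntLinearMap * ρJ g + (c : ℤ) • (1 : Module.End ℤ J)) x = 0 := by
      intro x hx
      show g • g • x - T i (g • x) + (c : ℤ) • x = 0
      rw [natCast_zsmul]
      exact hg x ⟨n, hx⟩
    have h2 := key _ n h1 d hd
    rw [LinearMap.baseChange_add, LinearMap.baseChange_sub, LinearMap.baseChange_mul,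
      LinearMap.baseChange_mul, LinearMap.baseChange_smul, LinearMap.baseChange_one] at h2
    have h3 : ((c : ℤ) • (1 : Module.End O (O ⊗[ℤ] J))) d = (c : O) • d := by
      rw [LinearMap.smul_apply, Module.End.one_apply, natCast_zsmul, Nat.cast_smul_eq_nsmul]
    rw [LinearMap.add_apply, LinearMap.sub_apply, h3] at h2
    exact h2

end Fermat.Agent.H52
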