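import Mathlib

/-!
# A Kolchin-type fixed vector lemma (Mathlib only)

* `es_anticomm_of_sq_zero` : in a ring without `2`-torsion, if `a² = b² = 0` and
  `(a + b + ab)² = (a - b - ab)² = 0` then `ab + ba = 0`.
* `es_exists_common_kernel` : a set of pairwise anticommuting square-zero endomorphisms of a
  nonzero Noetherian module has a nonzero common kernel vector.
* `es_exists_fixed_of_unipotent` : if every element `g` of a subgroup `H` acts on a nonzero
  Noetherian module without `2`-torsion with `(g - 1)² = 0`, then `H` has a nonzero fixed vector.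
-/

set_option autoImplicit false

namespace Fermat.Agent.H52

/-- Anticommutation from four square-zero conditions. -/
lemma es_anticomm_of_sq_zero {E : Type*} [Ring E] (h2 : ∀ x : E, x + x = 0 → x = 0)
    (a b : E) (ha : a * a = 0) (hb : b * b = 0)
    (h1 : (a + b + a * b) * (a + b + a * b) = 0)
    (h1' : (a - b - a * b) * (a - b - a * b) = 0) :
    a * b + b * a = 0 := by
  have E1 : a * b + b * a + b * a * b + a * b * a + a * b * a * b = 0 := by
    have : a * b + b * a + b * a * b + a * b * a + a * b * a * b =
        (a + b + a * b) * (a + b + a * b) - a * a - b * b - (a * a) * b - a * (b * b) := by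
      noncomm_ring
    rw [this, h1, ha, hb]
    simp
  have E2 : -(a * b) - b * a + b * a * b - a * b * a + a * b * a * b = 0 := by
    have : -(a * b) - b * a + b * a * b - a * b * a + a * b * a * b =
        (a - b - a * b) * (a - b - a * b) - a * a - b * b + (a * a) * b - a * (b * b)
          + a * (b * b) * a * b - a * (b * b) * a * b - (a * a) * (b * b)
          + (a * a) * (b * b) := by
      noncomm_ring
    rw [this, h1', ha, hb]
    simp
  -- sum: `bab + abab = 0`
  have hs : b * a * b + a * b * a * b = 0 := by
    apply h2
    have : b * a * b + a * b * a * b + (b * a * b + a * b * a * b) =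
        (a * b + b * a + b * a * b + a * b * a + a * b * a * b) +
        (-(a * b) - b * a + b * a * b - a * b * a + a * b * a * b) := by
      noncomm_ring
    rw [this, E1, E2, add_zero]
  have hbab : b * a * b = 0 := by
    have h3 : (1 - a) * (b * a * b + a * b * a * b) = 0 := by rw [hs, mul_zero]
    have h4 : (1 - a) * (b * a * b + a * b * a * b) = b * a * b - (a * a) * b * a * b := by
      noncomm_ring
    rw [h4, ha] at h3
    simpa using h3
  -- difference: `ab + ba + aba = 0`
  have hd : a * b + b * a + a * b * a = 0 := by
    apply h2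
    have : a * b + b * a + a * b * a + (a * b + b * a + a * b * a) =
        (a * b + b * a + b * a * b + a * b * a + a * b * a * b) -
        (-(a * b) - b * a + b * a * b - a * b * a + a * b * a * b) := by
      noncomm_ring
    rw [this, E1, E2, sub_zero]
  have haba : a * b * a = 0 := by
    have h3 : a * (a * b + b * a + a * b * a) = 0 := by rw [hd, mul_zero]
    have h4 : a * (a * b + b * a + a * b * a) = (a * a) * b + a * b * a + (a * a) * b * a := by
      noncomm_ring
    rw [h4, ha] at h3
    simpa using h3
  rw [haba, add_zero] at hd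
  exact hd

/-- A set of pairwise anticommuting square-zero endomorphisms of a nonzero Noetherian module
has a nonzero common kernel vector. -/
theorem es_exists_common_kernel {R : Type*} [CommRing R] {Λ : Type*} [AddCommGroup Λ]
    [Module R Λ] [IsNoetherian R Λ] [Nontrivial Λ] (T : Set (Module.End R Λ))
    (hsq : ∀ a ∈ T, a * a = 0) (hanti : ∀ a ∈ T, ∀ b ∈ T, a * b + b * a = 0) :
    ∃ v : Λ, v ≠ 0 ∧ ∀ a ∈ T, a v = 0 := by
  -- the main claim, by well-founded induction on `ker A` for the relation `>`
  have key : ∀ K : Submodule R Λ, ∀ A : Module.End R Λ, A ≠ 0 →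
      (∀ a ∈ T, a * A = A * a ∨ a * A = -(A * a)) → LinearMap.ker A = K →
      ∃ v : Λ, v ≠ 0 ∧ ∀ a ∈ T, a v = 0 := by
    intro K
    induction K using WellFoundedGT.induction with
    | ind K ih =>
      intro A hA hQ hK
      by_cases hall : ∀ a ∈ T, a * A = 0
      · -- every vector in the image of `A` is killed by `T`
        obtain ⟨w, hw⟩ : ∃ w, A w ≠ 0 := by
          by_contra hcon
          simp only [not_exists, not_not] at hcon
          exact hA (LinearMap.ext hcon)
        refine ⟨A w, hw, fun a ha => ?_⟩
        have := congrArg (fun f : Module.End R Λ => f w) (hall a ha)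
        simpa using this
      · simp only [not_forall] at hall
        obtain ⟨a, ha, haA⟩ := hall
        have hQ' : ∀ c ∈ T, c * (a * A) = (a * A) * c ∨ c * (a * A) = -((a * A) * c) := by
          intro c hc
          have hca : c * a = -(a * c) := eq_neg_of_add_eq_zero_left (hanti c hc a ha)
          rcases hQ c hc with h | h
          · right
            rw [← mul_assoc, hca, neg_mul, mul_assoc a c A, h, mul_assoc]
          · left
            rw [← mul_assoc, hca, neg_mul, mul_assoc a c A, h, mul_neg, neg_neg, mul_assoc]
        obtain ⟨w, hw⟩ : ∃ w, (a * A) w ≠ 0 := by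
          by_contra hcon
          simp only [not_exists, not_not] at hcon
          exact haA (LinearMap.ext hcon)
        have hlt : K < LinearMap.ker (a * A) := by
          rw [← hK]
          refine lt_of_le_of_ne ?_ ?_
          · intro x hx
            rw [LinearMap.mem_ker] at hx ⊢
            rw [Module.End.mul_apply, hx, map_zero]
          · intro heq
            have hmem : a w ∈ LinearMap.ker (a * A) := by
              rw [LinearMap.mem_ker]
              have h0 : (a * A) * a = 0 := by
                rcases hQ a ha with h | h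
                · rw [mul_assoc, ← h, ← mul_assoc, hsq a ha, zero_mul]
                · have : A * a = -(a * A) := by rw [h, neg_neg]
                  rw [mul_assoc, this, mul_neg, ← mul_assoc, hsq a ha, zero_mul, neg_zero]
              have := congrArg (fun f : Module.End R Λ => f w) h0
              simpa using this
            rw [← heq, LinearMap.mem_ker] at hmem
            rcases hQ a ha with h | h
            · apply hw
              rw [h, Module.End.mul_apply, hmem]
            · apply hw
              rw [h, LinearMap.neg_apply, Module.End.mul_apply, hmem, neg_zero]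
        exact ih _ hlt (a * A) haA hQ' rfl
  exact key _ 1 one_ne_zero (fun a _ => Or.inl (by rw [mul_one, one_mul])) rfl

/-- **Kolchin-type lemma.**  If every element `g` of a subgroup `H` acts on a nonzero
Noetherian module without `2`-torsion with `(g - 1)² = 0`, then `H` fixes a nonzero vector. -/
theorem es_exists_fixed_of_unipotent {R : Type*} [CommRing R] {Λ : Type*} [AddCommGroup Λ]
    [Module R Λ] [IsNoetherian R Λ] [Nontrivial Λ] (h2 : ∀ v : Λ, v + v = 0 → v = 0)
    {G : Type*} [Group G] (ρ : G →* Module.End R Λ) (H : Subgroup G)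
    (hu : ∀ g ∈ H, (ρ g - 1) * (ρ g - 1) = 0) :
    ∃ v : Λ, v ≠ 0 ∧ ∀ g ∈ H, ρ g v = v := by
  have h2E : ∀ x : Module.End R Λ, x + x = 0 → x = 0 := by
    intro x hx
    apply LinearMap.ext
    intro v
    apply h2
    have := congrArg (fun f : Module.End R Λ => f v) hx
    simpa using this
  -- the inverse of a unipotent element
  have hinv : ∀ g ∈ H, ρ g⁻¹ = 1 - (ρ g - 1) := by
    intro g hg
    have h1 : ρ g⁻¹ * ρ g = 1 := by rw [← map_mul, inv_mul_cancel, map_one]
    have h3 : ρ g * (1 - (ρ g - 1)) = 1 := by
      have : ρ g * (1 - (ρ g - 1)) = 1 - (ρ g - 1) * (ρ g - 1) := by noncomm_ring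
      rw [this, hu g hg, sub_zero]
    calc ρ g⁻¹ = ρ g⁻¹ * (ρ g * (1 - (ρ g - 1))) := by rw [h3, mul_one]
      _ = (ρ g⁻¹ * ρ g) * (1 - (ρ g - 1)) := by rw [mul_assoc]
      _ = 1 - (ρ g - 1) := by rw [h1, one_mul]
  obtain ⟨v, hv, hkill⟩ := es_exists_common_kernel (R := R) (Λ := Λ)
    {a | ∃ g ∈ H, a = ρ g - 1}
    (by
      rintro a ⟨g, hg, rfl⟩
      exact hu g hg)
    (by
      rintro a ⟨g, hg, rfl⟩ b ⟨h, hh, rfl⟩
      apply es_anticomm_of_sq_zero h2E _ _ (hu g hg) (hu h hh)
      · have : ρ g - 1 + (ρ h - 1) + (ρ g - 1) * (ρ h - 1) = ρ (g * h) - 1 := by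
          rw [map_mul]; noncomm_ring
        rw [this]
        exact hu _ (H.mul_mem hg hh)
      · have : ρ g - 1 - (ρ h - 1) - (ρ g - 1) * (ρ h - 1) = ρ (g * h⁻¹) - 1 := by
          rw [map_mul, hinv h hh]; noncomm_ring
        rw [this]
        exact hu _ (H.mul_mem hg (H.inv_mem hh)))
  refine ⟨v, hv, fun g hg => ?_⟩
  have := hkill (ρ g - 1) ⟨g, hg, rfl⟩
  rw [LinearMap.sub_apply, Module.End.one_apply, sub_eq_zero] at this
  exact this

end Fermat.Agent.H52
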