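import Mathlib
import Fermat.Prelude.Def_CuspForm_HeckeGaloisRepDatum
import Fermat.Prelude.Def_CuspForm_Newforms
import Fermat.Prelude.Def_GaloisRep_LocalConditions
import Fermat.Agent.H52.ESAdic
import Fermat.Agent.H52.ESLimit

/-!
# S35 from a Frobenius-quadratic lattice with a local eigenvalue at `q ∥ M` (P-SS, S35 assembly)

* `exists_galoisRepAdic_of_lattice_full` (unconditional): as `exists_galoisRepAdic_of_lattice`,
  but exposing the trace function `t : G_ℚ → O`: the relation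
  `ρ(g)² - t(g) ρ(g) + cyclo(g) = 0` holds on the lattice for ALL `g`, and the two-dimensional
  representation has `charpoly (ρ' g) = X² - t(g) X + cyclo(g)` for ALL `g`.
* `es_trace_of_eigenvalue` : an eigenvalue `±1`, `±q` of `ρ(σ)` on the lattice, for a Frobenius
  lift `σ` at `q ≠ p`, forces `t(σ) = ±(q + 1)`.
* `NewformLatticeStatement`, `s35_of_lattice` : the geometric input of S35 and the assembly.
-/

set_option autoImplicit false
set_option linter.unusedSectionVars false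

namespace Fermat.Agent.H52

open Polynomial Module Fermat.Agent.H81.Cyclo

/-- **From a Frobenius-quadratic lattice to a two-dimensional adic representation, with the
trace function exposed** (unconditional). -/
theorem exists_galoisRepAdic_of_lattice_full (p : ℕ) [Fact p.Prime]
    {O : Type} [CommRing O] [IsDomain O] [IsDiscreteValuationRing O]
    [IsAdicComplete (IsLocalRing.maximalIdeal O) O] [CharZero O]
    (hp : (p : O) ∈ IsLocalRing.maximalIdeal O) (S : Finset ℕ) (hpS : p ∈ S) (a : ℕ → O)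
    {Λ : Type} [AddCommGroup Λ] [Module O Λ] [Module.Free O Λ] [Module.Finite O Λ]
    [Nontrivial Λ]
    (ρ : (AlgebraicClosure ℚ ≃ₐ[ℚ] AlgebraicClosure ℚ) →* Module.End O Λ)
    (hcont : GaloisActionIsAdicContinuous O ρ)
    (hrel : ∀ ℓ : ℕ, ℓ.Prime → ℓ ∉ S → ∀ A : ValuationSubring (AlgebraicClosure ℚ),
      A.LiesOverPrime ℓ → ∀ σ : AlgebraicClosure ℚ ≃ₐ[ℚ] AlgebraicClosure ℚ,
        A.IsFrobeniusAt σ ℓ →
          ρ σ * ρ σ - a ℓ • ρ σ + (ℓ : O) • (1 : Module.End O Λ) = 0) :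
    ∃ (ρ' : GaloisRepAdic O) (t : (AlgebraicClosure ℚ ≃ₐ[ℚ] AlgebraicClosure ℚ) → O),
      (∀ g, ρ g * ρ g - t g • ρ g
        + ((localCyclo p O hp g : Oˣ) : O) • (1 : Module.End O Λ) = 0) ∧
      (∀ g, LinearMap.charpoly (ρ'.ρ g) =
        X ^ 2 - C (t g) * X + C ((localCyclo p O hp g : Oˣ) : O)) ∧
      (∀ ℓ : ℕ, ℓ.Prime → ℓ ∉ S → ∀ A : ValuationSubring (AlgebraicClosure ℚ),
        A.LiesOverPrime ℓ → ∀ σ : AlgebraicClosure ℚ ≃ₐ[ℚ] AlgebraicClosure ℚ,
          A.IsFrobeniusAt σ ℓ → t σ = a ℓ) ∧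
      (∀ q : ℕ, q.Prime → q ≠ p →
        (∀ P : ValuationSubring (AlgebraicClosure ℚ), P.LiesOverPrime q →
          ∀ σ ∈ P.inertiaSubgroupIn ℚ, ρ σ = 1) → ρ'.IsUnramifiedAt q) := by
  have hdense := Fermat.Agent.H64.frobPowDense
  choose t ht using es_relation_all p hdense hp ρ hcont S hpS a hrel
  have h2 : (2 : O) ≠ 0 := two_ne_zero
  obtain ⟨V, iA, iM, iFr, iFi, ρ₂, hrank, hcp, hcong⟩ :=
    exists_adic_rep_of_quadRel ρ t (localCyclo p O hp) ht h2 complexConjugation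
      complexConjugation_mul_self (localCyclo_complexConjugation p O hp)
  have hcont' : GaloisActionIsAdicContinuous O ρ₂ := by
    intro n
    obtain ⟨L₁, hL₁, h₁⟩ := hcont n
    obtain ⟨L₂, hL₂, h₂⟩ := localCyclo_continuous p O hp n
    have := hL₁
    have := hL₂
    refine ⟨L₁ ⊔ L₂, IntermediateField.finiteDimensional_sup L₁ L₂, fun σ hσ v => ?_⟩
    exact hcong _ σ (h₁ σ fun x hx => hσ x ((le_sup_left : L₁ ≤ L₁ ⊔ L₂) hx))
      (h₂ σ fun x hx => hσ x ((le_sup_right : L₂ ≤ L₁ ⊔ L₂) hx)) v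
  refine ⟨{ V := V, finrank_eq := hrank, ρ := ρ₂, isAdicContinuous := hcont' }, t, ht,
    fun g => hcp g, ?_, ?_⟩
  · intro ℓ hℓ hℓS A hA σ hσ
    have hℓp : ℓ ≠ p := fun h => hℓS (h ▸ hpS)
    have hεσ : ((localCyclo p O hp σ : Oˣ) : O) = (ℓ : O) :=
      localCyclo_frobenius p O hp hℓ hℓp hA hσ
    have h1 := ht σ
    have h3 := hrel ℓ hℓ hℓS A hA σ hσ
    rw [hεσ] at h1
    have hinv : ρ σ * ρ σ⁻¹ = 1 := by rw [← map_mul, mul_inv_cancel, map_one]
    have h4 : (a ℓ - t σ) • ρ σ = 0 := by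
      have : (a ℓ - t σ) • ρ σ =
          (ρ σ * ρ σ - t σ • ρ σ + (ℓ : O) • (1 : Module.End O Λ)) -
          (ρ σ * ρ σ - a ℓ • ρ σ + (ℓ : O) • (1 : Module.End O Λ)) := by
        rw [sub_smul]; abel
      rw [this, h1, h3, sub_zero]
    have h5 : (a ℓ - t σ) • (1 : Module.End O Λ) = 0 := by
      have := congrArg (fun f => f * ρ σ⁻¹) h4
      simp only [smul_mul_assoc, hinv, zero_mul] at this
      exact this
    have h6 : ESCongr (⊥ : Ideal O) ((a ℓ - t σ) • (1 : Module.End O Λ)) := by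
      intro v
      rw [h5]
      simp
    have h7 := es_mem_of_congr_smul_one h6
    rw [Ideal.mem_bot, sub_eq_zero] at h7
    exact h7.symm
  · intro q hq hqp hunr P hP σ hσ
    show ρ₂ σ = 1
    have h1 : ∀ v : Λ, ρ σ v - v ∈ (⊥ : Ideal O) • (⊤ : Submodule O Λ) := by
      intro v
      rw [hunr P hP σ hσ]
      simp
    have h2' : ((localCyclo p O hp σ : Oˣ) : O) - 1 ∈ (⊥ : Ideal O) := by
      rw [localCyclo_inertia p O hp hq hqp hP hσ]
      simp
    apply LinearMap.ext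
    intro v
    have := hcong ⊥ σ h1 h2' v
    rw [Submodule.bot_smul, Submodule.mem_bot, sub_eq_zero] at this
    rw [this, Module.End.one_apply]

/-- An eigenvalue `1`, `-1`, `q`, `-q` of an endomorphism satisfying `f² - t f + q = 0` on a
nonzero torsion-free module forces `t = q + 1` or `t = -(q + 1)`. -/
lemma es_trace_of_eigenvalue {O : Type*} [CommRing O] [IsDomain O]
    {Λ : Type*} [AddCommGroup Λ] [Module O Λ] [Module.IsTorsionFree O Λ]
    (f : Module.End O Λ) (t c : O) (hc : c ≠ 0)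
    (hrel : f * f - t • f + c • (1 : Module.End O Λ) = 0)
    (v : Λ) (hv : v ≠ 0)
    (heig : f v = v ∨ f v = -v ∨ f v = c • v ∨ f v = -(c • v)) :
    t = c + 1 ∨ t = -(c + 1) := by
  have h0 : f (f v) - t • f v + c • v = 0 := by
    have := congrArg (fun g : Module.End O Λ => g v) hrel
    simpa using this
  have key : ∀ x : O, x • v = 0 → x = 0 := fun x hx =>
    (smul_eq_zero.mp hx).resolve_right hv
  rcases heig with h | h | h | h
  · left
    rw [h, h] at h0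
    have : (1 - t + c) • v = 0 := by
      rw [add_smul, sub_smul, one_smul]; exact h0
    have := key _ this
    linear_combination -this
  · right
    rw [h, map_neg, h] at h0
    have : (1 + t + c) • v = 0 := by
      rw [add_smul, add_smul, one_smul]
      rw [neg_neg, smul_neg, sub_neg_eq_add] at h0
      exact h0
    have := key _ this
    linear_combination this
  · left
    rw [h, map_smul, h] at h0
    have : (c * (c - t + 1)) • v = 0 := by
      have e : (c * (c - t + 1)) • v = c • c • v - t • c • v + c • v := by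
        rw [mul_add, mul_sub, add_smul, sub_smul, mul_smul, mul_one, mul_comm c t, mul_smul]
      rw [e]; exact h0
    have := key _ this
    have h2 : c - t + 1 = 0 := (mul_eq_zero.mp this).resolve_left hc
    linear_combination -h2
  · right
    rw [h, map_neg, map_smul, h] at h0
    have : (c * (c + t + 1)) • v = 0 := by
      have e : (c * (c + t + 1)) • v = -(c • -(c • v)) - t • -(c • v) + c • v := by
        rw [mul_add, mul_add, add_smul, add_smul, mul_smul, mul_one, mul_comm c t, mul_smul]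
        simp only [smul_neg, neg_neg, sub_neg_eq_add]
      rw [e]; exact h0
    have := key _ this
    have h2 : c + t + 1 = 0 := (mul_eq_zero.mp this).resolve_left hc
    linear_combination h2

/-- **The geometric input of S35** (lattice form): for a newform `g` of level `M` and the
character `χ = iota ∘ chig` of the Hecke algebra, a nonzero finite free `O'`-module with an
adically continuous action of `G_ℚ` such that
(i) every Frobenius lift at a prime `ℓ ∉ S` satisfies `σ² - χ(T_ℓ) σ + ℓ = 0`;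
(ii) at every prime `q ≠ lam` with `q ∥ M`, every Frobenius lift has a nonzero eigenvector with
eigenvalue `1`, `-1`, `q` or `-q`.
(Intended instance: the `χ`-eigenspace of `T_lam J₀(M) ⊗ O'`; the eigenvector is found on the
line `(τ - 1) V`, `τ ∈ I_q`, where `φ² = q²`.) -/
def NewformLatticeStatement : Prop :=
  ∀ {M : ℕ} [NeZero M] {g : CuspForm (CongruenceSubgroup.Gamma0 M) 2} (_hg : g.IsNewform)
    (lam : ℕ) [Fact lam.Prime] (S : Finset ℕ)
    (O' : Type) [CommRing O'] [IsDomain O'] [IsDiscreteValuationRing O']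
    [IsAdicComplete (IsLocalRing.maximalIdeal O') O'] [Finite (IsLocalRing.ResidueField O')]
    [CharZero O'] (_hlamO' : (lam : O') ∈ IsLocalRing.maximalIdeal O')
    (chig : CuspForm.heckeAlgebra M 2 (↑S : Set ℕ) →+* ℂ)
    (_hchig : ∀ (ℓ : ℕ) (hℓ : ℓ.Prime) (hℓM : ¬ ℓ ∣ M) (hℓS : ℓ ∉ (↑S : Set ℕ)),
      chig (CuspForm.heckeAlgebra.T hℓ hℓM hℓS) = ModularFormClass.qCoeff g ℓ)
    (iota : chig.range →+* O')
    (_hlamS : lam ∈ S) (_hMS : ∀ q : ℕ, q.Prime → q ∣ M → q ∈ S),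
    ∃ (Λ : Type) (_ : AddCommGroup Λ) (_ : Module O' Λ) (_ : Module.Free O' Λ)
      (_ : Module.Finite O' Λ) (_ : Nontrivial Λ)
      (ρ : (AlgebraicClosure ℚ ≃ₐ[ℚ] AlgebraicClosure ℚ) →* Module.End O' Λ),
      GaloisActionIsAdicContinuous O' ρ ∧
      (∀ (ℓ : ℕ) (hℓ : ℓ.Prime) (hℓM : ¬ ℓ ∣ M) (hℓS : ℓ ∉ (↑S : Set ℕ)),
        ∀ A : ValuationSubring (AlgebraicClosure ℚ), A.LiesOverPrime ℓ →
          ∀ σ : AlgebraicClosure ℚ ≃ₐ[ℚ] AlgebraicClosure ℚ, A.IsFrobeniusAt σ ℓ →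
            ρ σ * ρ σ - (iota.comp chig.rangeRestrict) (CuspForm.heckeAlgebra.T hℓ hℓM hℓS) • ρ σ
              + (ℓ : O') • (1 : Module.End O' Λ) = 0) ∧
      (∀ q : ℕ, q.Prime → q ≠ lam → q ∣ M → ¬ q ^ 2 ∣ M →
        ∀ A : ValuationSubring (AlgebraicClosure ℚ), A.LiesOverPrime q →
          ∀ σ : AlgebraicClosure ℚ ≃ₐ[ℚ] AlgebraicClosure ℚ, A.IsFrobeniusAt σ q →
            ∃ v : Λ, v ≠ 0 ∧
              (ρ σ v = v ∨ ρ σ v = -v ∨ ρ σ v = (q : O') • v ∨ ρ σ v = -((q : O') • v)))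

/-- **S35 from the newform lattice statement** (exactly the frozen statement of S35; the
coefficient ring is not extended: `O'' = O'`). -/
theorem s35_of_lattice (hL : NewformLatticeStatement)
    {M : ℕ} [NeZero M] {g : CuspForm (CongruenceSubgroup.Gamma0 M) 2} (hg : g.IsNewform)
    (lam : ℕ) [Fact lam.Prime]
    (S : Finset ℕ)
    (O' : Type) [CommRing O'] [IsDomain O'] [IsDiscreteValuationRing O']
    [IsAdicComplete (IsLocalRing.maximalIdeal O') O'] [Finite (IsLocalRing.ResidueField O')]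
    [CharZero O'] (hlamO' : (lam : O') ∈ IsLocalRing.maximalIdeal O')
    (chig : CuspForm.heckeAlgebra M 2 (↑S : Set ℕ) →+* ℂ)
    (hchig : ∀ (ℓ : ℕ) (hℓ : ℓ.Prime) (hℓM : ¬ ℓ ∣ M) (hℓS : ℓ ∉ (↑S : Set ℕ)),
      chig (CuspForm.heckeAlgebra.T hℓ hℓM hℓS) = ModularFormClass.qCoeff g ℓ)
    (iota : chig.range →+* O')
    (hlamS : lam ∈ S) (hMS : ∀ q : ℕ, q.Prime → q ∣ M → q ∈ S) :
    ∃ (O'' : Type) (_ : CommRing O'') (_ : IsDomain O'') (_ : IsDiscreteValuationRing O'')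
      (_ : IsAdicComplete (IsLocalRing.maximalIdeal O'') O'')
      (_ : Finite (IsLocalRing.ResidueField O''))
      (_ : CharZero O'') (_ : Algebra O' O'') (_ : Module.Finite O' O'')
      (_ : IsLocalHom (algebraMap O' O'')),
      Function.Injective (algebraMap O' O'') ∧
      ∃ ρ : GaloisRepAdic O'',
        (∀ (ℓ : ℕ) (hℓ : ℓ.Prime) (hℓM : ¬ ℓ ∣ M) (hℓS : ℓ ∉ (↑S : Set ℕ)),
          ∀ A : ValuationSubring (AlgebraicClosure ℚ), A.LiesOverPrime ℓ →
            ∀ σ : AlgebraicClosure ℚ ≃ₐ[ℚ] AlgebraicClosure ℚ, A.IsFrobeniusAt σ ℓ →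
              LinearMap.charpoly (ρ.ρ σ) =
                X ^ 2 - C (algebraMap O' O''
                  ((iota.comp chig.rangeRestrict) (CuspForm.heckeAlgebra.T hℓ hℓM hℓS))) * X
                  + C ((ℓ : O''))) ∧
        (∀ q : ℕ, q.Prime → q ≠ lam → q ∣ M → ¬ q ^ 2 ∣ M →
          ∀ A : ValuationSubring (AlgebraicClosure ℚ), A.LiesOverPrime q →
            ∀ σ : AlgebraicClosure ℚ ≃ₐ[ℚ] AlgebraicClosure ℚ, A.IsFrobeniusAt σ q →
              LinearMap.charpoly (ρ.ρ σ) = X ^ 2 - C ((q : O'') + 1) * X + C ((q : O'')) ∨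
              LinearMap.charpoly (ρ.ρ σ) = X ^ 2 + C ((q : O'') + 1) * X + C ((q : O''))) := by
  obtain ⟨Λ, iA, iM, iFr, iFi, iNt, ρ, hcont, hrel, hloc⟩ :=
    hL hg lam S O' hlamO' chig hchig iota hlamS hMS
  classical
  let χ : CuspForm.heckeAlgebra M 2 (↑S : Set ℕ) →+* O' := iota.comp chig.rangeRestrict
  -- the Frobenius traces as a function on `ℕ`
  let a : ℕ → O' := fun ℓ =>
    if h : ℓ.Prime ∧ ¬ ℓ ∣ M ∧ ℓ ∉ (↑S : Set ℕ) then
      χ (CuspForm.heckeAlgebra.T h.1 h.2.1 h.2.2) else 0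
  have ha : ∀ (ℓ : ℕ) (hℓ : ℓ.Prime) (hℓM : ¬ ℓ ∣ M) (hℓS : ℓ ∉ (↑S : Set ℕ)),
      a ℓ = χ (CuspForm.heckeAlgebra.T hℓ hℓM hℓS) := by
    intro ℓ hℓ hℓM hℓS
    show (if h : ℓ.Prime ∧ ¬ ℓ ∣ M ∧ ℓ ∉ (↑S : Set ℕ) then
      χ (CuspForm.heckeAlgebra.T h.1 h.2.1 h.2.2) else 0) = _
    rw [dif_pos ⟨hℓ, hℓM, hℓS⟩]
  have hrel' : ∀ ℓ : ℕ, ℓ.Prime → ℓ ∉ S → ∀ A : ValuationSubring (AlgebraicClosure ℚ),
      A.LiesOverPrime ℓ → ∀ σ : AlgebraicClosure ℚ ≃ₐ[ℚ] AlgebraicClosure ℚ,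
        A.IsFrobeniusAt σ ℓ →
          ρ σ * ρ σ - a ℓ • ρ σ + (ℓ : O') • (1 : Module.End O' Λ) = 0 := by
    intro ℓ hℓ hℓS A hA σ hσ
    have hℓM : ¬ ℓ ∣ M := fun h => hℓS (hMS ℓ hℓ h)
    have hℓS' : ℓ ∉ (↑S : Set ℕ) := fun h => hℓS (Finset.mem_coe.mp h)
    rw [ha ℓ hℓ hℓM hℓS']
    exact hrel ℓ hℓ hℓM hℓS' A hA σ hσ
  obtain ⟨ρ', t, ht, hcp, htgood, -⟩ :=
    exists_galoisRepAdic_of_lattice_full lam hlamO' S hlamS a ρ hcont hrel'
  refine ⟨O', inferInstance, inferInstance, inferInstance, inferInstance, inferInstance,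
    inferInstance, Algebra.id O', ?_, ?_, ?_, ρ', ?_, ?_⟩
  · exact Module.Finite.self O'
  · exact ⟨fun x hx => hx⟩
  · exact fun x y h => h
  · intro ℓ hℓ hℓM hℓS A hA σ hσ
    have hℓS' : ℓ ∉ S := fun h => hℓS (Finset.mem_coe.mpr h)
    have hℓp : ℓ ≠ lam := fun h => hℓS' (h ▸ hlamS)
    rw [hcp σ, htgood ℓ hℓ hℓS' A hA σ hσ, ha ℓ hℓ hℓM hℓS,
      localCyclo_frobenius lam O' hlamO' hℓ hℓp hA hσ]
    rfl
  · intro q hq hqlam hqM hq2 A hA σ hσ
    obtain ⟨v, hv, heig⟩ := hloc q hq hqlam hqM hq2 A hA σ hσ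
    have hcyc : ((localCyclo lam O' hlamO' σ : O'ˣ) : O') = (q : O') :=
      localCyclo_frobenius lam O' hlamO' hq hqlam hA hσ
    have hq0 : (q : O') ≠ 0 := Nat.cast_ne_zero.mpr hq.ne_zero
    have hrelσ := ht σ
    rw [hcyc] at hrelσ
    have htr := es_trace_of_eigenvalue (ρ σ) (t σ) (q : O') hq0 hrelσ v hv heig
    rcases htr with h | h
    · left
      rw [hcp σ, hcyc, h]
    · right
      rw [hcp σ, hcyc, h, C_neg, neg_mul, sub_neg_eq_add]

/-- **Eigenvector from ramification.**  If `(φ² - c²)(τ - 1) = 0` and `τ ≠ 1`, then `φ` has a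
nonzero eigenvector with eigenvalue `c` or `-c`. -/
lemma es_eigen_of_ramified {O : Type*} [CommRing O]
    {Λ : Type*} [AddCommGroup Λ] [Module O Λ]
    (φ τ : Module.End O Λ) (c : O)
    (hrel : (φ * φ - (c * c) • (1 : Module.End O Λ)) * (τ - 1) = 0) (hτ : τ ≠ 1) :
    ∃ v : Λ, v ≠ 0 ∧ (φ v = c • v ∨ φ v = -(c • v)) := by
  have hex : ∃ u : Λ, τ u - u ≠ 0 := by
    by_contra hcon
    simp only [not_exists, not_not] at hcon
    apply hτ
    apply LinearMap.ext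
    intro u
    rw [Module.End.one_apply]
    exact sub_eq_zero.mp (hcon u)
  obtain ⟨u, hu⟩ := hex
  set w : Λ := τ u - u with hw
  have h1 : φ (φ w) = (c * c) • w := by
    have := congrArg (fun g : Module.End O Λ => g u) hrel
    simp only [Module.End.mul_apply, LinearMap.sub_apply, LinearMap.smul_apply,
      Module.End.one_apply, LinearMap.zero_apply] at this
    rw [← hw] at this
    exact sub_eq_zero.mp this
  by_cases h2 : φ w + c • w = 0
  · exact ⟨w, hu, Or.inr (eq_neg_of_add_eq_zero_left h2)⟩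
  · refine ⟨φ w + c • w, h2, Or.inl ?_⟩
    rw [map_add, map_smul, h1, smul_add, mul_smul]
    abel

/-- **The geometric input of S35, primitive form**: as `NewformLatticeStatement`, with the
local clause at `q ∥ M` replaced by: the lattice is ramified at `q` and
`(φ² - q²)(τ - 1) = 0` for Frobenius lifts `φ` and inertia elements `τ` at `q`. -/
def NewformRamifiedLatticeStatement : Prop :=
  ∀ {M : ℕ} [NeZero M] {g : CuspForm (CongruenceSubgroup.Gamma0 M) 2} (_hg : g.IsNewform)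
    (lam : ℕ) [Fact lam.Prime] (S : Finset ℕ)
    (O' : Type) [CommRing O'] [IsDomain O'] [IsDiscreteValuationRing O']
    [IsAdicComplete (IsLocalRing.maximalIdeal O') O'] [Finite (IsLocalRing.ResidueField O')]
    [CharZero O'] (_hlamO' : (lam : O') ∈ IsLocalRing.maximalIdeal O')
    (chig : CuspForm.heckeAlgebra M 2 (↑S : Set ℕ) →+* ℂ)
    (_hchig : ∀ (ℓ : ℕ) (hℓ : ℓ.Prime) (hℓM : ¬ ℓ ∣ M) (hℓS : ℓ ∉ (↑S : Set ℕ)),
      chig (CuspForm.heckeAlgebra.T hℓ hℓM hℓS) = ModularFormClass.qCoeff g ℓ)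
    (iota : chig.range →+* O')
    (_hlamS : lam ∈ S) (_hMS : ∀ q : ℕ, q.Prime → q ∣ M → q ∈ S),
    ∃ (Λ : Type) (_ : AddCommGroup Λ) (_ : Module O' Λ) (_ : Module.Free O' Λ)
      (_ : Module.Finite O' Λ) (_ : Nontrivial Λ)
      (ρ : (AlgebraicClosure ℚ ≃ₐ[ℚ] AlgebraicClosure ℚ) →* Module.End O' Λ),
      GaloisActionIsAdicContinuous O' ρ ∧
      (∀ (ℓ : ℕ) (hℓ : ℓ.Prime) (hℓM : ¬ ℓ ∣ M) (hℓS : ℓ ∉ (↑S : Set ℕ)),
        ∀ A : ValuationSubring (AlgebraicClosure ℚ), A.LiesOverPrime ℓ →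
          ∀ σ : AlgebraicClosure ℚ ≃ₐ[ℚ] AlgebraicClosure ℚ, A.IsFrobeniusAt σ ℓ →
            ρ σ * ρ σ - (iota.comp chig.rangeRestrict) (CuspForm.heckeAlgebra.T hℓ hℓM hℓS) • ρ σ
              + (ℓ : O') • (1 : Module.End O' Λ) = 0) ∧
      (∀ q : ℕ, q.Prime → q ≠ lam → q ∣ M → ¬ q ^ 2 ∣ M →
        ∀ A : ValuationSubring (AlgebraicClosure ℚ), A.LiesOverPrime q →
          (∃ τ ∈ A.inertiaSubgroupIn ℚ, ρ τ ≠ 1) ∧
          ∀ φ : AlgebraicClosure ℚ ≃ₐ[ℚ] AlgebraicClosure ℚ, A.IsFrobeniusAt φ q →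
            ∀ τ ∈ A.inertiaSubgroupIn ℚ,
              (ρ φ * ρ φ - ((q : O') * (q : O')) • (1 : Module.End O' Λ)) * (ρ τ - 1) = 0)

/-- The primitive form implies the eigenvalue form. -/
theorem newformLattice_of_ramified (h : NewformRamifiedLatticeStatement) :
    NewformLatticeStatement := by
  intro M _ g hg lam _ S O' _ _ _ _ _ _ hlamO' chig hchig iota hlamS hMS
  obtain ⟨Λ, iA, iM, iFr, iFi, iNt, ρ, hcont, hrel, hloc⟩ :=
    h hg lam S O' hlamO' chig hchig iota hlamS hMS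
  refine ⟨Λ, iA, iM, iFr, iFi, iNt, ρ, hcont, hrel, ?_⟩
  intro q hq hqlam hqM hq2 A hA σ hσ
  obtain ⟨⟨τ, hτ, hτ1⟩, hid⟩ := hloc q hq hqlam hqM hq2 A hA
  obtain ⟨v, hv, hv'⟩ := es_eigen_of_ramified (ρ σ) (ρ τ) (q : O') (hid σ hσ τ hτ) hτ1
  exact ⟨v, hv, Or.inr (Or.inr hv')⟩

end Fermat.Agent.H52
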