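import Mathlib
import Fermat.Prelude.Def_CuspForm_HeckeGaloisRepDatum
import Fermat.Prelude.Def_CuspForm_Newforms
import Fermat.Prelude.Def_GaloisRep_LocalConditions
import Fermat.Prelude.Def_GaloisRep_Residual
import Fermat.Agent.H52.ESS35
import Fermat.Agent.H52.ESKolchin
import Fermat.Agent.H81.ValFrob

/-!
# S36 (Carayol) from a Frobenius-quadratic lattice without inertia invariants (assembly)

* `es_not_isUnipotentOnInertiaAt` (unconditional): if the lattice `Λ` satisfies the quadratic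
  relation `ρ(g)² - t(g) ρ(g) + cyclo(g) = 0` for all `g`, the two-dimensional representation
  `ρ'` has `charpoly (ρ' g) = X² - t(g) X + cyclo(g)`, and some inertia group `I_P` at `q ≠ p`
  has no nonzero fixed vector in `Λ`, then `ρ'` is not unipotent on inertia at `q`
  (Kolchin-type lemma `es_exists_fixed_of_unipotent`).
* `CarayolLatticeStatement`, `s36_of_lattice` : the geometric input of S36 and the assembly
  (exactly the frozen statement of S36).
-/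

set_option autoImplicit false
set_option linter.unusedSectionVars false
set_option linter.unusedVariables false

namespace Fermat.Agent.H52

open Polynomial Module Fermat.Agent.H81.Cyclo

/-- **No inertia invariants on the lattice ⇒ not unipotent on inertia** (unconditional). -/
theorem es_not_isUnipotentOnInertiaAt (p : ℕ) [Fact p.Prime]
    {O : Type} [CommRing O] [IsDomain O] [IsDiscreteValuationRing O]
    [IsAdicComplete (IsLocalRing.maximalIdeal O) O] [CharZero O]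
    (hp : (p : O) ∈ IsLocalRing.maximalIdeal O)
    {Λ : Type} [AddCommGroup Λ] [Module O Λ] [Module.Free O Λ] [Module.Finite O Λ]
    [Nontrivial Λ]
    (ρ : (AlgebraicClosure ℚ ≃ₐ[ℚ] AlgebraicClosure ℚ) →* Module.End O Λ)
    (ρ' : GaloisRepAdic O) (t : (AlgebraicClosure ℚ ≃ₐ[ℚ] AlgebraicClosure ℚ) → O)
    (ht : ∀ g, ρ g * ρ g - t g • ρ g
        + ((localCyclo p O hp g : Oˣ) : O) • (1 : Module.End O Λ) = 0)
    (hcp : ∀ g, LinearMap.charpoly (ρ'.ρ g) =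
        X ^ 2 - C (t g) * X + C ((localCyclo p O hp g : Oˣ) : O))
    {q : ℕ} (hq : q.Prime) (hqp : q ≠ p)
    (P : ValuationSubring (AlgebraicClosure ℚ)) (hP : P.LiesOverPrime q)
    (hfix : ∀ v : Λ, (∀ σ ∈ P.inertiaSubgroupIn ℚ, ρ σ v = v) → v = 0) :
    ¬ ρ'.IsUnipotentOnInertiaAt q := by
  intro hU
  have h2 : ∀ v : Λ, v + v = 0 → v = 0 := by
    intro v hv
    have h : (2 : O) • v = 0 := by rw [two_smul]; exact hv
    exact (smul_eq_zero.mp h).resolve_left two_ne_zero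
  have hu : ∀ σ ∈ P.inertiaSubgroupIn ℚ, (ρ σ - 1) * (ρ σ - 1) = 0 := by
    intro σ hσ
    have hcyc : ((localCyclo p O hp σ : Oˣ) : O) = 1 := by
      rw [localCyclo_inertia p O hp hq hqp hP hσ]
      rfl
    have h1 := hcp σ
    rw [hU P hP σ hσ, hcyc] at h1
    have htσ : t σ = 2 := by
      have e : (X - 1 : O[X]) ^ 2 = X ^ 2 - C (2 : O) * X + C (1 : O) := by
        simp only [map_ofNat, map_one]; ring
      rw [e] at h1
      have h3 : C (t σ) * (X : O[X]) = C (2 : O) * X := by linear_combination h1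
      have := congrArg (fun f : O[X] => f.coeff 1) h3
      simpa only [coeff_C_mul, coeff_X_one, mul_one] using this
    have h5 := ht σ
    rw [htσ, hcyc, one_smul] at h5
    have : (ρ σ - 1) * (ρ σ - 1) = ρ σ * ρ σ - (2 : O) • ρ σ + 1 := by
      rw [two_smul]; noncomm_ring
    rw [this, h5]
  obtain ⟨v, hv, hvfix⟩ := es_exists_fixed_of_unipotent (R := O) h2 ρ (P.inertiaSubgroupIn ℚ) hu
  exact hv (hfix v hvfix)

/-- **The geometric input of S36** (lattice form): for a newform `g` of level `M` and the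
character `χ = iota ∘ chig` of the Hecke algebra, a nonzero finite free `O'`-module with an
adically continuous action of `G_ℚ` such that
(i) every Frobenius lift at a prime `ℓ ∉ S` satisfies `σ² - χ(T_ℓ) σ + ℓ = 0`;
(ii) at every prime `q ≠ lam` with `q² ∥ M`, SOME inertia group `I_P`, `P` over `q`, has no
nonzero fixed vector.
All hypotheses of the frozen statement (including `lam ≠ 2` and the residual hypothesis) are
available.  (Intended instance: the `χ`-eigenlattice of `T_lam J₀(M) ⊗ O'`, which lies in the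
`q`-new part `ker π₁ ∩ ker π₂`.) -/
def CarayolLatticeStatement : Prop :=
  ∀ {M : ℕ} [NeZero M] {g : CuspForm (CongruenceSubgroup.Gamma0 M) 2} (_hg : g.IsNewform)
    (lam : ℕ) [Fact lam.Prime] (S : Finset ℕ)
    (O' : Type) [CommRing O'] [IsDomain O'] [IsDiscreteValuationRing O']
    [IsAdicComplete (IsLocalRing.maximalIdeal O') O'] [Finite (IsLocalRing.ResidueField O')]
    [CharZero O'] (_hlamO' : (lam : O') ∈ IsLocalRing.maximalIdeal O')
    (_hlam2 : lam ≠ 2)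
    (chig : CuspForm.heckeAlgebra M 2 (↑S : Set ℕ) →+* ℂ)
    (_hchig : ∀ (ℓ : ℕ) (hℓ : ℓ.Prime) (hℓM : ¬ ℓ ∣ M) (hℓS : ℓ ∉ (↑S : Set ℕ)),
      chig (CuspForm.heckeAlgebra.T hℓ hℓM hℓS) = ModularFormClass.qCoeff g ℓ)
    (iota : chig.range →+* O')
    (_hlamS : lam ∈ S) (_hMS : ∀ q : ℕ, q.Prime → q ∣ M → q ∈ S)
    (_hres : ∀ (O'' : Type) [CommRing O''] [IsDomain O''] [IsDiscreteValuationRing O'']
      [IsAdicComplete (IsLocalRing.maximalIdeal O'') O'']
      [Finite (IsLocalRing.ResidueField O'')] [CharZero O'']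
      [Algebra O' O''] [Module.Finite O' O''] [IsLocalHom (algebraMap O' O'')],
      Function.Injective (algebraMap O' O'') → ∀ (ρ : GaloisRepAdic O''),
      (∀ (ℓ : ℕ) (hℓ : ℓ.Prime) (hℓlam : ℓ ≠ lam) (hℓM : ¬ ℓ ∣ M) (hℓS : ℓ ∉ (↑S : Set ℕ)),
        ∀ A : ValuationSubring (AlgebraicClosure ℚ), A.LiesOverPrime ℓ →
          ∀ σ : AlgebraicClosure ℚ ≃ₐ[ℚ] AlgebraicClosure ℚ, A.IsFrobeniusAt σ ℓ →
            LinearMap.charpoly (ρ.ρ σ) =
              X ^ 2 - C (algebraMap O' O''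
                ((iota.comp chig.rangeRestrict) (CuspForm.heckeAlgebra.T hℓ hℓM hℓS))) * X
                + C ((ℓ : O'')))
      → ρ.residual.IsAbsolutelyIrreducible ∧ ρ.residual.IsOdd),
    ∃ (Λ : Type) (_ : AddCommGroup Λ) (_ : Module O' Λ) (_ : Module.Free O' Λ)
      (_ : Module.Finite O' Λ) (_ : Nontrivial Λ)
      (ρ : (AlgebraicClosure ℚ ≃ₐ[ℚ] AlgebraicClosure ℚ) →* Module.End O' Λ),
      GaloisActionIsAdicContinuous O' ρ ∧
      (∀ (ℓ : ℕ) (hℓ : ℓ.Prime) (hℓM : ¬ ℓ ∣ M) (hℓS : ℓ ∉ (↑S : Set ℕ)),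
        ∀ A : ValuationSubring (AlgebraicClosure ℚ), A.LiesOverPrime ℓ →
          ∀ σ : AlgebraicClosure ℚ ≃ₐ[ℚ] AlgebraicClosure ℚ, A.IsFrobeniusAt σ ℓ →
            ρ σ * ρ σ - (iota.comp chig.rangeRestrict) (CuspForm.heckeAlgebra.T hℓ hℓM hℓS) • ρ σ
              + (ℓ : O') • (1 : Module.End O' Λ) = 0) ∧
      (∀ q : ℕ, q.Prime → q ≠ lam → M.factorization q = 2 →
        ∃ P : ValuationSubring (AlgebraicClosure ℚ), P.LiesOverPrime q ∧
          ∀ v : Λ, (∀ σ ∈ P.inertiaSubgroupIn ℚ, ρ σ v = v) → v = 0)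

/-- **S36 from the Carayol lattice statement** (exactly the frozen statement of S36; the
coefficient ring is not extended: `O'' = O'`). -/
theorem s36_of_lattice (hL : CarayolLatticeStatement)
    {M : ℕ} [NeZero M] {g : CuspForm (CongruenceSubgroup.Gamma0 M) 2} (hg : g.IsNewform)
    (lam : ℕ) [Fact lam.Prime]
    (S : Finset ℕ)
    (O' : Type) [CommRing O'] [IsDomain O'] [IsDiscreteValuationRing O']
    [IsAdicComplete (IsLocalRing.maximalIdeal O') O'] [Finite (IsLocalRing.ResidueField O')]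
    [CharZero O'] (hlamO' : (lam : O') ∈ IsLocalRing.maximalIdeal O')
    (hlam2 : lam ≠ 2)
    (chig : CuspForm.heckeAlgebra M 2 (↑S : Set ℕ) →+* ℂ)
    (hchig : ∀ (ℓ : ℕ) (hℓ : ℓ.Prime) (hℓM : ¬ ℓ ∣ M) (hℓS : ℓ ∉ (↑S : Set ℕ)),
      chig (CuspForm.heckeAlgebra.T hℓ hℓM hℓS) = ModularFormClass.qCoeff g ℓ)
    (iota : chig.range →+* O')
    (hlamS : lam ∈ S) (hMS : ∀ q : ℕ, q.Prime → q ∣ M → q ∈ S)
    (hres : ∀ (O'' : Type) [CommRing O''] [IsDomain O''] [IsDiscreteValuationRing O'']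
      [IsAdicComplete (IsLocalRing.maximalIdeal O'') O'']
      [Finite (IsLocalRing.ResidueField O'')] [CharZero O'']
      [Algebra O' O''] [Module.Finite O' O''] [IsLocalHom (algebraMap O' O'')],
      Function.Injective (algebraMap O' O'') → ∀ (ρ : GaloisRepAdic O''),
      (∀ (ℓ : ℕ) (hℓ : ℓ.Prime) (hℓlam : ℓ ≠ lam) (hℓM : ¬ ℓ ∣ M) (hℓS : ℓ ∉ (↑S : Set ℕ)),
        ∀ A : ValuationSubring (AlgebraicClosure ℚ), A.LiesOverPrime ℓ →
          ∀ σ : AlgebraicClosure ℚ ≃ₐ[ℚ] AlgebraicClosure ℚ, A.IsFrobeniusAt σ ℓ →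
            LinearMap.charpoly (ρ.ρ σ) =
              X ^ 2 - C (algebraMap O' O''
                ((iota.comp chig.rangeRestrict) (CuspForm.heckeAlgebra.T hℓ hℓM hℓS))) * X
                + C ((ℓ : O'')))
      → ρ.residual.IsAbsolutelyIrreducible ∧ ρ.residual.IsOdd) :
    ∃ (O'' : Type) (_ : CommRing O'') (_ : IsDomain O'') (_ : IsDiscreteValuationRing O'')
      (_ : IsAdicComplete (IsLocalRing.maximalIdeal O'') O'')
      (_ : Finite (IsLocalRing.ResidueField O''))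
      (_ : CharZero O'') (_ : Algebra O' O'') (_ : Module.Finite O' O'')
      (_ : IsLocalHom (algebraMap O' O'')),
      Function.Injective (algebraMap O' O'') ∧
      ∃ ρ : GaloisRepAdic O'',
        (∀ (ℓ : ℕ) (hℓ : ℓ.Prime) (hℓM : ¬ ℓ ∣ M) (hℓS : ℓ ∉ (↑S : Set ℕ)),
          ∀ A : ValuationSubring (AlgebraicClosure ℚ), A.LiesOverPrime ℓ →
            ∀ σ : AlgebraicClosure ℚ ≃ₐ[ℚ] AlgebraicClosure ℚ, A.IsFrobeniusAt σ ℓ →
              LinearMap.charpoly (ρ.ρ σ) =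
                X ^ 2 - C (algebraMap O' O''
                  ((iota.comp chig.rangeRestrict) (CuspForm.heckeAlgebra.T hℓ hℓM hℓS))) * X
                  + C ((ℓ : O''))) ∧
        (∀ q : ℕ, q.Prime → q ≠ lam → M.factorization q = 2 →
          ¬ ρ.IsUnipotentOnInertiaAt q) := by
  obtain ⟨Λ, iA, iM, iFr, iFi, iNt, ρ, hcont, hrel, hloc⟩ :=
    hL hg lam S O' hlamO' hlam2 chig hchig iota hlamS hMS hres
  classical
  let χ : CuspForm.heckeAlgebra M 2 (↑S : Set ℕ) →+* O' := iota.comp chig.rangeRestrict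
  -- the Frobenius traces as a function on `ℕ`
  let a : ℕ → O' := fun ℓ =>
    if h : ℓ.Prime ∧ ¬ ℓ ∣ M ∧ ℓ ∉ (↑S : Set ℕ) then
      χ (CuspForm.heckeAlgebra.T h.1 h.2.1 h.2.2) else 0
  have ha : ∀ (ℓ : ℕ) (hℓ : ℓ.Prime) (hℓM : ¬ ℓ ∣ M) (hℓS : ℓ ∉ (↑S : Set ℕ)),
      a ℓ = χ (CuspForm.heckeAlgebra.T hℓ hℓM hℓS) := by
    intro ℓ hℓ hℓM hℓS
    show (if h : ℓ.Prime ∧ ¬ ℓ ∣ M ∧ ℓ ∉ (↑S : Set ℕ) then
      χ (CuspForm.heckeAlgebra.T h.1 h.2.1 h.2.2) else 0) = _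
    rw [dif_pos ⟨hℓ, hℓM, hℓS⟩]
  have hrel' : ∀ ℓ : ℕ, ℓ.Prime → ℓ ∉ S → ∀ A : ValuationSubring (AlgebraicClosure ℚ),
      A.LiesOverPrime ℓ → ∀ σ : AlgebraicClosure ℚ ≃ₐ[ℚ] AlgebraicClosure ℚ,
        A.IsFrobeniusAt σ ℓ →
          ρ σ * ρ σ - a ℓ • ρ σ + (ℓ : O') • (1 : Module.End O' Λ) = 0 := by
    intro ℓ hℓ hℓS A hA σ hσ
    have hℓM : ¬ ℓ ∣ M := fun h => hℓS (hMS ℓ hℓ h)
    have hℓS' : ℓ ∉ (↑S : Set ℕ) := fun h => hℓS (Finset.mem_coe.mp h)
    rw [ha ℓ hℓ hℓM hℓS']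
    exact hrel ℓ hℓ hℓM hℓS' A hA σ hσ
  obtain ⟨ρ', t, ht, hcp, htgood, -⟩ :=
    exists_galoisRepAdic_of_lattice_full lam hlamO' S hlamS a ρ hcont hrel'
  refine ⟨O', inferInstance, inferInstance, inferInstance, inferInstance, inferInstance,
    inferInstance, Algebra.id O', ?_, ?_, ?_, ρ', ?_, ?_⟩
  · exact Module.Finite.self O'
  · exact ⟨fun x hx => hx⟩
  · exact fun x y h => h
  · intro ℓ hℓ hℓM hℓS A hA σ hσ
    have hℓS' : ℓ ∉ S := fun h => hℓS (Finset.mem_coe.mpr h)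
    have hℓp : ℓ ≠ lam := fun h => hℓS' (h ▸ hlamS)
    rw [hcp σ, htgood ℓ hℓ hℓS' A hA σ hσ, ha ℓ hℓ hℓM hℓS,
      localCyclo_frobenius lam O' hlamO' hℓ hℓp hA hσ]
    rfl
  · intro q hq hqlam hq2
    obtain ⟨P, hP, hfix⟩ := hloc q hq hqlam hq2
    exact es_not_isUnipotentOnInertiaAt lam hlamO' ρ ρ' t ht hcp hq hqlam P hP hfix

/-- **The geometric input of S36, uniform form**: as `CarayolLatticeStatement`, with clause
(ii) for EVERY `P` over `q`. -/
def CarayolLatticeAllStatement : Prop :=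
  ∀ {M : ℕ} [NeZero M] {g : CuspForm (CongruenceSubgroup.Gamma0 M) 2} (_hg : g.IsNewform)
    (lam : ℕ) [Fact lam.Prime] (S : Finset ℕ)
    (O' : Type) [CommRing O'] [IsDomain O'] [IsDiscreteValuationRing O']
    [IsAdicComplete (IsLocalRing.maximalIdeal O') O'] [Finite (IsLocalRing.ResidueField O')]
    [CharZero O'] (_hlamO' : (lam : O') ∈ IsLocalRing.maximalIdeal O')
    (_hlam2 : lam ≠ 2)
    (chig : CuspForm.heckeAlgebra M 2 (↑S : Set ℕ) →+* ℂ)
    (_hchig : ∀ (ℓ : ℕ) (hℓ : ℓ.Prime) (hℓM : ¬ ℓ ∣ M) (hℓS : ℓ ∉ (↑S : Set ℕ)),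
      chig (CuspForm.heckeAlgebra.T hℓ hℓM hℓS) = ModularFormClass.qCoeff g ℓ)
    (iota : chig.range →+* O')
    (_hlamS : lam ∈ S) (_hMS : ∀ q : ℕ, q.Prime → q ∣ M → q ∈ S),
    ∃ (Λ : Type) (_ : AddCommGroup Λ) (_ : Module O' Λ) (_ : Module.Free O' Λ)
      (_ : Module.Finite O' Λ) (_ : Nontrivial Λ)
      (ρ : (AlgebraicClosure ℚ ≃ₐ[ℚ] AlgebraicClosure ℚ) →* Module.End O' Λ),
      GaloisActionIsAdicContinuous O' ρ ∧
      (∀ (ℓ : ℕ) (hℓ : ℓ.Prime) (hℓM : ¬ ℓ ∣ M) (hℓS : ℓ ∉ (↑S : Set ℕ)),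
        ∀ A : ValuationSubring (AlgebraicClosure ℚ), A.LiesOverPrime ℓ →
          ∀ σ : AlgebraicClosure ℚ ≃ₐ[ℚ] AlgebraicClosure ℚ, A.IsFrobeniusAt σ ℓ →
            ρ σ * ρ σ - (iota.comp chig.rangeRestrict) (CuspForm.heckeAlgebra.T hℓ hℓM hℓS) • ρ σ
              + (ℓ : O') • (1 : Module.End O' Λ) = 0) ∧
      (∀ q : ℕ, q.Prime → q ≠ lam → M.factorization q = 2 →
        ∀ P : ValuationSubring (AlgebraicClosure ℚ), P.LiesOverPrime q →
          ∀ v : Λ, (∀ σ ∈ P.inertiaSubgroupIn ℚ, ρ σ v = v) → v = 0)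

/-- The uniform form implies the existential form (every prime has a place above it). -/
theorem carayolLattice_of_all (h : CarayolLatticeAllStatement) : CarayolLatticeStatement := by
  intro M _ g hg lam _ S O' _ _ _ _ _ _ hlamO' hlam2 chig hchig iota hlamS hMS _
  obtain ⟨Λ, iA, iM, iFr, iFi, iNt, ρ, hcont, hrel, hloc⟩ :=
    h hg lam S O' hlamO' hlam2 chig hchig iota hlamS hMS
  refine ⟨Λ, iA, iM, iFr, iFi, iNt, ρ, hcont, hrel, ?_⟩
  intro q hq hqlam hq2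
  obtain ⟨P, hP⟩ := Fermat.Agent.H81.exists_valuationSubring_liesOverPrime
    (K := AlgebraicClosure ℚ) q hq
  exact ⟨P, hP, hloc q hq hqlam hq2 P hP⟩

end Fermat.Agent.H52
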