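import Mathlib
import Fermat.Prelude.Def_GaloisRep_DeformationRingData
import Fermat.Prelude.Def_GaloisRep_DeformationCondition

/-!
# S53 (universal deformation ring): basic definitions

Matrix-valued Galois representations, the dictionary with `GaloisRepAdic`, and the
"frame" data used to rigidify deformations.
-/

set_option autoImplicit false
set_option linter.unusedSectionVars false

namespace Fermat.Agent.H52

open IsLocalRing

/-- The absolute Galois group of `ℚ`. -/
abbrev GQ : Type := AlgebraicClosure ℚ ≃ₐ[ℚ] AlgebraicClosure ℚ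

/-- `2 × 2` matrices. -/
abbrev M2 (A : Type) : Type := Matrix (Fin 2) (Fin 2) A

section MatRep

variable {A : Type} [CommRing A] [IsLocalRing A]

/-- Adic continuity of a matrix-valued representation. -/
def MatCont (r : GQ →* M2 A) : Prop :=
  ∀ n : ℕ, ∃ L : IntermediateField ℚ (AlgebraicClosure ℚ), FiniteDimensional ℚ L ∧
    ∀ σ : GQ, (∀ x ∈ L, σ x = x) → ∀ i j, (r σ - 1) i j ∈ maximalIdeal A ^ n

/-- The representation on `Fin 2 → A` attached to a matrix representation. -/
noncomputable def matHom (r : GQ →* M2 A) : GQ →* Module.End A (Fin 2 → A) :=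
  ((Matrix.toLinAlgEquiv' (R := A) (n := Fin 2)).toAlgHom : M2 A →* Module.End A (Fin 2 → A)).comp r

@[simp] lemma matHom_apply (r : GQ →* M2 A) (σ : GQ) (v : Fin 2 → A) :
    matHom r σ v = (r σ).mulVec v := rfl

lemma mem_smul_top_of_forall_mem (I : Ideal A) (v : Fin 2 → A) (hv : ∀ i, v i ∈ I) :
    v ∈ I • (⊤ : Submodule A (Fin 2 → A)) := by
  have : v = ∑ i, v i • (Pi.single i (1 : A) : Fin 2 → A) := by
    ext j
    simp [Finset.sum_apply, Pi.single_apply]
  rw [this]
  exact Submodule.sum_mem _ fun i _ => Submodule.smul_mem_smul (hv i) Submodule.mem_top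

lemma forall_mem_of_mem_smul_top (I : Ideal A) (v : Fin 2 → A)
    (hv : v ∈ I • (⊤ : Submodule A (Fin 2 → A))) (i : Fin 2) : v i ∈ I := by
  refine Submodule.smul_induction_on hv ?_ ?_
  · intro a ha w _
    simpa using I.mul_mem_right (w i) ha
  · intro x y hx hy
    simpa using I.add_mem hx hy

/-- The `GaloisRepAdic` attached to a continuous matrix representation. -/
@[reducible] noncomputable def ofMat (r : GQ →* M2 A) (h : MatCont r) : GaloisRepAdic A where
  V := Fin 2 → A
  finrank_eq := by simp
  ρ := matHom r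
  isAdicContinuous := by
    intro n
    obtain ⟨L, hL, h1⟩ := h n
    refine ⟨L, hL, fun σ hσ v => ?_⟩
    apply mem_smul_top_of_forall_mem
    intro i
    have : matHom r σ v - v = (r σ - 1).mulVec v := by
      rw [Matrix.sub_mulVec, Matrix.one_mulVec]; rfl
    rw [this]
    show ∑ j, (r σ - 1) i j * v j ∈ _
    exact Ideal.sum_mem _ fun j _ => Ideal.mul_mem_right _ _ (h1 σ hσ i j)

@[simp] lemma ofMat_V (r : GQ →* M2 A) (h : MatCont r) : (ofMat r h).V = (Fin 2 → A) := rfl

lemma ofMat_ρ_apply (r : GQ →* M2 A) (h : MatCont r) (σ : GQ) (v : Fin 2 → A) :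
    (ofMat r h).ρ σ v = (r σ).mulVec v := rfl

end MatRep

end Fermat.Agent.H52
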