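import Mathlib
import Fermat.Agent.H52.Defs

/-!
# S53: dictionary between matrix representations and `GaloisRepAdic`
-/

set_option autoImplicit false
set_option linter.unusedSectionVars false

namespace Fermat.Agent.H52

open IsLocalRing

section Conj

variable {A : Type} [CommRing A] [IsLocalRing A]

/-- The linear equivalence of `Fin 2 → A` attached to an invertible matrix. -/
noncomputable def unitLinearEquiv (u : (M2 A)ˣ) : (Fin 2 → A) ≃ₗ[A] (Fin 2 → A) where
  toFun := fun v => (u : M2 A).mulVec v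
  map_add' := fun v w => Matrix.mulVec_add _ v w
  map_smul' := fun a v => Matrix.mulVec_smul _ a v
  invFun := fun v => ((u⁻¹ : (M2 A)ˣ) : M2 A).mulVec v
  left_inv := fun v => by
    show ((u⁻¹ : (M2 A)ˣ) : M2 A).mulVec ((u : M2 A).mulVec v) = v
    rw [Matrix.mulVec_mulVec, Units.inv_mul, Matrix.one_mulVec]
  right_inv := fun v => by
    show (u : M2 A).mulVec (((u⁻¹ : (M2 A)ˣ) : M2 A).mulVec v) = v
    rw [Matrix.mulVec_mulVec, Units.mul_inv, Matrix.one_mulVec]

@[simp] lemma unitLinearEquiv_apply (u : (M2 A)ˣ) (v : Fin 2 → A) :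
    unitLinearEquiv u v = (u : M2 A).mulVec v := rfl

/-- Conjugate matrix representations give equivalent `GaloisRepAdic`s. -/
lemma isEquiv_ofMat_of_conj (r r' : GQ →* M2 A) (h : MatCont r) (h' : MatCont r')
    (N : M2 A) (hN : IsUnit N) (hconj : ∀ σ, N * r σ = r' σ * N) :
    (ofMat r h).IsEquiv (ofMat r' h') := by
  obtain ⟨u, rfl⟩ := hN
  refine ⟨{ toLinearEquiv := unitLinearEquiv u, map_apply := ?_ }⟩
  intro σ x
  show (u : M2 A).mulVec ((r σ).mulVec (x : Fin 2 → A)) = (r' σ).mulVec ((u : M2 A).mulVec x)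
  rw [Matrix.mulVec_mulVec, Matrix.mulVec_mulVec, hconj]

/-- Equivalent `ofMat`s are conjugate. -/
lemma exists_conj_of_isEquiv (r r' : GQ →* M2 A) (h : MatCont r) (h' : MatCont r')
    (e : (ofMat r h).IsEquiv (ofMat r' h')) :
    ∃ N : M2 A, IsUnit N ∧ ∀ σ, N * r σ = r' σ * N := by
  obtain ⟨e⟩ := e
  let f : (Fin 2 → A) ≃ₗ[A] (Fin 2 → A) := e.toLinearEquiv
  refine ⟨LinearMap.toMatrix' f.toLinearMap, ?_, ?_⟩
  · refine ⟨⟨LinearMap.toMatrix' f.toLinearMap, LinearMap.toMatrix' f.symm.toLinearMap, ?_, ?_⟩, rfl⟩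
    · rw [← LinearMap.toMatrix'_comp]; simp
    · rw [← LinearMap.toMatrix'_comp]; simp
  · intro σ
    have h1 : r σ = LinearMap.toMatrix' (Matrix.toLin' (r σ)) := by simp
    have h2 : r' σ = LinearMap.toMatrix' (Matrix.toLin' (r' σ)) := by simp
    rw [h1, h2, ← LinearMap.toMatrix'_comp, ← LinearMap.toMatrix'_comp]
    congr 1
    refine LinearMap.ext fun x => ?_
    exact e.map_apply σ x

end Conj

open scoped TensorProduct

section BaseChange

variable {A B : Type} [CommRing A] [IsLocalRing A] [CommRing B] [IsLocalRing B]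

/-- Push a matrix representation forward along a ring hom. -/
noncomputable def mapRep (φ : A →+* B) (r : GQ →* M2 A) : GQ →* M2 B :=
  ((RingHom.mapMatrix φ : M2 A →+* M2 B) : M2 A →* M2 B).comp r

@[simp] lemma mapRep_apply (φ : A →+* B) (r : GQ →* M2 A) (σ : GQ) (i j : Fin 2) :
    mapRep φ r σ i j = φ (r σ i j) := rfl

lemma mapRep_apply' (φ : A →+* B) (r : GQ →* M2 A) (σ : GQ) :
    mapRep φ r σ = (r σ).map φ := rfl

lemma map_maximalIdeal_pow_le (φ : A →+* B) (hφ : IsLocalHom φ) (n : ℕ) {a : A}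
    (ha : a ∈ maximalIdeal A ^ n) : φ a ∈ maximalIdeal B ^ n := by
  have hmap : (maximalIdeal A ^ n).map φ ≤ maximalIdeal B ^ n := by
    rw [Ideal.map_pow]
    exact Ideal.pow_right_mono (Ideal.map_le_iff_le_comap.mpr fun a ha =>
      Ideal.mem_comap.mpr (haveI := hφ; map_nonunit φ a ha)) n
  exact hmap (Ideal.mem_map_of_mem φ ha)

lemma MatCont.map (φ : A →+* B) (hφ : IsLocalHom φ) {r : GQ →* M2 A} (h : MatCont r) :
    MatCont (mapRep φ r) := by
  intro n
  obtain ⟨L, hL, h1⟩ := h n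
  refine ⟨L, hL, fun σ hσ i j => ?_⟩
  have : (mapRep φ r σ - 1) i j = φ ((r σ - 1) i j) := by
    simp only [Matrix.sub_apply, mapRep_apply, map_sub, Matrix.one_apply]
    split_ifs <;> simp
  rw [this]
  exact map_maximalIdeal_pow_le φ hφ n (h1 σ hσ i j)

/-- Base change of `ofMat` is `ofMat` of the pushed-forward representation. -/
lemma baseChangeAlong_ofMat (φ : A →+* B) (hφ : IsLocalHom φ) (r : GQ →* M2 A) (h : MatCont r)
    (h' : MatCont (mapRep φ r)) :
    ((ofMat r h).baseChangeAlong φ hφ).IsEquiv (ofMat (mapRep φ r) h') := by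
  let _ : Algebra A B := φ.toAlgebra
  refine ⟨{ toLinearEquiv := TensorProduct.piScalarRight A B B (Fin 2), map_apply := ?_ }⟩
  intro σ x
  show TensorProduct.piScalarRight A B B (Fin 2)
      ((Matrix.toLin' (r σ)).baseChange B x) =
    (mapRep φ r σ).mulVec (TensorProduct.piScalarRight A B B (Fin 2) x)
  induction x using TensorProduct.induction_on with
  | zero => simp
  | tmul b v =>
    rw [LinearMap.baseChange_tmul, TensorProduct.piScalarRight_apply,
      TensorProduct.piScalarRight_apply]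
    ext i
    simp only [TensorProduct.piScalarRightHom_tmul, Matrix.toLin'_apply, Matrix.mulVec,
      dotProduct, mapRep_apply, Algebra.smul_def, RingHom.algebraMap_toAlgebra, map_sum, map_mul,
      Finset.sum_mul]
    refine Finset.sum_congr rfl fun j _ => ?_
    ring
  | add x y hx hy =>
    rw [map_add, map_add, map_add, Matrix.mulVec_add, hx, hy]

end BaseChange

section ToMat

variable {A : Type} [CommRing A] [IsLocalRing A]

/-- The matrix representation of a `GaloisRepAdic` in a basis. -/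
noncomputable def toMatRep (ρ : GaloisRepAdic A) (b : Module.Basis (Fin 2) A ρ.V) : GQ →* M2 A :=
  ((LinearMap.toMatrixAlgEquiv b : Module.End A ρ.V ≃ₐ[A] M2 A) : Module.End A ρ.V →* M2 A).comp ρ.ρ

lemma toMatRep_apply (ρ : GaloisRepAdic A) (b : Module.Basis (Fin 2) A ρ.V) (σ : GQ) :
    toMatRep ρ b σ = LinearMap.toMatrix b b (ρ.ρ σ) := rfl

lemma repr_mem_of_mem_smul_top {V : Type} [AddCommGroup V] [Module A V]
    (b : Module.Basis (Fin 2) A V) (I : Ideal A) (x : V)
    (hx : x ∈ I • (⊤ : Submodule A V)) (i : Fin 2) : b.repr x i ∈ I := by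
  refine Submodule.smul_induction_on hx ?_ ?_
  · intro a ha w _
    simpa using I.mul_mem_right (b.repr w i) ha
  · intro x y hx hy
    simpa using I.add_mem hx hy

lemma toMatRep_cont (ρ : GaloisRepAdic A) (b : Module.Basis (Fin 2) A ρ.V) :
    MatCont (toMatRep ρ b) := by
  intro n
  obtain ⟨L, hL, h1⟩ := ρ.isAdicContinuous n
  refine ⟨L, hL, fun σ hσ i j => ?_⟩
  have : (toMatRep ρ b σ - 1) i j = b.repr (ρ.ρ σ (b j) - b j) i := by
    rw [toMatRep_apply, Matrix.sub_apply, LinearMap.toMatrix_apply, map_sub, Finsupp.sub_apply,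
      Matrix.one_apply, Module.Basis.repr_self, Finsupp.single_apply]
    congr 1
    split_ifs with h1 h2 h2
    · rfl
    · exact absurd h1.symm h2
    · exact absurd h2.symm h1
    · rfl
  rw [this]
  exact repr_mem_of_mem_smul_top b _ _ (h1 σ hσ (b j)) i

lemma isEquiv_toMatRep (ρ : GaloisRepAdic A) (b : Module.Basis (Fin 2) A ρ.V) :
    ρ.IsEquiv (ofMat (toMatRep ρ b) (toMatRep_cont ρ b)) := by
  refine ⟨{ toLinearEquiv := b.equivFun, map_apply := ?_ }⟩
  intro σ x
  show b.equivFun (ρ.ρ σ x) = (LinearMap.toMatrix b b (ρ.ρ σ)).mulVec (b.equivFun x)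
  have := LinearMap.toMatrix_mulVec_repr b b (ρ.ρ σ) x
  ext i
  simpa using congrFun this.symm i

end ToMat

end Fermat.Agent.H52
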