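import Mathlib
import Fermat.Agent.H52.Dict

/-!
# S53: dictionary, residual representations
-/

set_option autoImplicit false
set_option linter.unusedSectionVars false
set_option linter.style.haveILetI false

namespace Fermat.Agent.H52

open IsLocalRing
open scoped TensorProduct

section LinAlg

variable {R : Type} [CommRing R]
variable {M₁ M₂ : Type} [AddCommGroup M₁] [Module R M₁] [AddCommGroup M₂] [Module R M₂]

lemma equivFun_apply_end (b : Module.Basis (Fin 2) R M₁) (f : M₁ →ₗ[R] M₁) (x : M₁) :
    b.equivFun (f x) = (LinearMap.toMatrix b b f).mulVec (b.equivFun x) := by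
  have := LinearMap.toMatrix_mulVec_repr b b f x
  ext i
  simpa using congrFun this.symm i

/-- Endomorphisms with the same matrices are intertwined by the change of basis. -/
lemma intertwine_of_toMatrix_eq (b₁ : Module.Basis (Fin 2) R M₁) (b₂ : Module.Basis (Fin 2) R M₂)
    (T₁ : M₁ →ₗ[R] M₁) (T₂ : M₂ →ₗ[R] M₂)
    (h : LinearMap.toMatrix b₁ b₁ T₁ = LinearMap.toMatrix b₂ b₂ T₂) (x : M₁) :
    (b₁.equivFun.trans b₂.equivFun.symm) (T₁ x) = T₂ ((b₁.equivFun.trans b₂.equivFun.symm) x) := by
  apply b₂.equivFun.injective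
  rw [LinearEquiv.trans_apply, LinearEquiv.trans_apply, LinearEquiv.apply_symm_apply,
    equivFun_apply_end b₁, equivFun_apply_end b₂, LinearEquiv.apply_symm_apply, h]

/-- Intertwined endomorphisms have the same matrices in transported bases. -/
lemma toMatrix_map_symm (f : M₁ ≃ₗ[R] M₂) (T₁ : M₁ →ₗ[R] M₁) (T₂ : M₂ →ₗ[R] M₂)
    (h : ∀ x, f (T₁ x) = T₂ (f x)) (B₂ : Module.Basis (Fin 2) R M₂) :
    LinearMap.toMatrix (B₂.map f.symm) (B₂.map f.symm) T₁ = LinearMap.toMatrix B₂ B₂ T₂ := by
  ext i j
  rw [LinearMap.toMatrix_apply, LinearMap.toMatrix_apply, Module.Basis.map_apply,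
    Module.Basis.map_repr]
  simp only [LinearEquiv.trans_apply, LinearEquiv.symm_symm]
  rw [h, LinearEquiv.apply_symm_apply]

end LinAlg

section ResidualAdic

variable {A : Type} [CommRing A] [IsLocalRing A]
variable {k : Type} [Field k]

lemma toMatRep_ofMat (r : GQ →* M2 A) (h : MatCont r) (σ : GQ) :
    toMatRep (ofMat r h) (Pi.basisFun A (Fin 2)) σ = r σ := by
  rw [toMatRep_apply]
  show LinearMap.toMatrix (Pi.basisFun A (Fin 2)) (Pi.basisFun A (Fin 2)) (Matrix.toLin' (r σ)) = _
  rw [LinearMap.toMatrix_eq_toMatrix', LinearMap.toMatrix'_toLin']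

/-- (D5a) The residual representation of `ofMat r` is a base change of `ρbar` as soon as the
matrices agree. -/
lemma residual_ofMat_isEquiv (ρbar : ResidualGaloisRep k) (bbar : Module.Basis (Fin 2) k ρbar.V)
    (ι : k →+* ResidueField A) (r : GQ →* M2 A) (h : MatCont r)
    (hr : ∀ σ i j, residue A (r σ i j) = ι (LinearMap.toMatrix bbar bbar (ρbar.ρ σ) i j)) :
    (ofMat r h).residual.IsEquiv (ρbar.baseChangeAlong ι) := by
  letI : Algebra k (ResidueField A) := ι.toAlgebra
  let b₁ : Module.Basis (Fin 2) (ResidueField A) (ResidueField A ⊗[A] (Fin 2 → A)) :=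
    Algebra.TensorProduct.basis (ResidueField A) (Pi.basisFun A (Fin 2))
  let b₂ : Module.Basis (Fin 2) (ResidueField A) (ResidueField A ⊗[k] ρbar.V) :=
    Algebra.TensorProduct.basis (ResidueField A) bbar
  refine ⟨{ toLinearEquiv := b₁.equivFun.trans b₂.equivFun.symm, map_apply := ?_ }⟩
  intro σ x
  refine intertwine_of_toMatrix_eq b₁ b₂ ((Matrix.toLin' (r σ)).baseChange (ResidueField A))
    ((ρbar.ρ σ).baseChange (ResidueField A)) ?_ x
  rw [LinearMap.toMatrix_baseChange, LinearMap.toMatrix_baseChange,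
    LinearMap.toMatrix_eq_toMatrix', LinearMap.toMatrix'_toLin']
  ext i j
  exact hr σ i j

/-- (D5b) A representation whose residual representation is a base change of `ρbar` has a
basis in which its matrices lift those of `ρbar`. -/
lemma exists_basis_of_residual_isEquiv (ρ : GaloisRepAdic A) (ρbar : ResidualGaloisRep k)
    (bbar : Module.Basis (Fin 2) k ρbar.V) (ι : k →+* ResidueField A)
    (hres : ρ.residual.IsEquiv (ρbar.baseChangeAlong ι)) :
    ∃ b : Module.Basis (Fin 2) A ρ.V, ∀ σ i j,
      residue A (toMatRep ρ b σ i j) = ι (LinearMap.toMatrix bbar bbar (ρbar.ρ σ) i j) := by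
  letI : Algebra k (ResidueField A) := ι.toAlgebra
  obtain ⟨e⟩ := hres
  let f : (ResidueField A ⊗[A] ρ.V) ≃ₗ[ResidueField A] (ResidueField A ⊗[k] ρbar.V) :=
    e.toLinearEquiv
  have hf : ∀ σ x, f ((ρ.ρ σ).baseChange (ResidueField A) x) =
      (ρbar.ρ σ).baseChange (ResidueField A) (f x) := fun σ x => e.map_apply σ x
  -- the transported basis of `k_A ⊗ ρ.V`
  let B' : Module.Basis (Fin 2) (ResidueField A) (ResidueField A ⊗[A] ρ.V) :=
    (Algebra.TensorProduct.basis (ResidueField A) bbar).map f.symm
  have hsurj : Function.Surjective (TensorProduct.mk A (ResidueField A) ρ.V 1) := by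
    intro x
    induction x using TensorProduct.induction_on with
    | zero => exact ⟨0, by simp⟩
    | tmul c v =>
      obtain ⟨a, rfl⟩ := residue_surjective c
      refine ⟨a • v, ?_⟩
      rw [TensorProduct.mk_apply, TensorProduct.tmul_smul, TensorProduct.smul_tmul',
        Algebra.smul_def, mul_one]
      rfl
    | add x y hx hy =>
      obtain ⟨v, rfl⟩ := hx
      obtain ⟨w, rfl⟩ := hy
      exact ⟨v + w, by simp [TensorProduct.tmul_add]⟩
  choose v hv using fun i => hsurj (B' i)
  have hcomp : (TensorProduct.mk A (ResidueField A) ρ.V 1 ∘ v) = B' := funext hv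
  have hbij : Function.Bijective (Finsupp.linearCombination A v) := by
    apply Module.IsLocalRing.linearCombination_bijective_of_flat
    rw [hcomp]
    exact ⟨B'.linearIndependent, by
      rw [← LinearMap.range_eq_top, Finsupp.range_linearCombination]; exact B'.span_eq⟩
  let b : Module.Basis (Fin 2) A ρ.V :=
    Module.Basis.mk (v := v) hbij.1 (by
      rw [← Finsupp.range_linearCombination, LinearMap.range_eq_top.mpr hbij.2])
  have hb : ∀ i, b i = v i := fun i => by simp [b]
  have hB : Algebra.TensorProduct.basis (ResidueField A) b = B' := by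
    apply Module.Basis.eq_of_apply_eq
    intro i
    rw [Algebra.TensorProduct.basis_apply, hb, ← hv i]
    rfl
  refine ⟨b, fun σ i j => ?_⟩
  have h1 : LinearMap.toMatrix (Algebra.TensorProduct.basis (ResidueField A) b)
      (Algebra.TensorProduct.basis (ResidueField A) b) ((ρ.ρ σ).baseChange (ResidueField A)) =
      (LinearMap.toMatrix b b (ρ.ρ σ)).map (algebraMap A (ResidueField A)) :=
    LinearMap.toMatrix_baseChange _ _ _ _
  have h2 : LinearMap.toMatrix (Algebra.TensorProduct.basis (ResidueField A) bbar)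
      (Algebra.TensorProduct.basis (ResidueField A) bbar)
      ((ρbar.ρ σ).baseChange (ResidueField A)) =
      (LinearMap.toMatrix bbar bbar (ρbar.ρ σ)).map (algebraMap k (ResidueField A)) :=
    LinearMap.toMatrix_baseChange _ _ _ _
  have h3 := toMatrix_map_symm f _ _ (hf σ) (Algebra.TensorProduct.basis (ResidueField A) bbar)
  have h4 : (LinearMap.toMatrix b b (ρ.ρ σ)).map (algebraMap A (ResidueField A)) =
      (LinearMap.toMatrix bbar bbar (ρbar.ρ σ)).map (algebraMap k (ResidueField A)) := by
    rw [← h1, ← h2, ← h3, hB]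
  exact congrFun (congrFun h4 i) j

end ResidualAdic

end Fermat.Agent.H52
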