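import Mathlib
import Fermat.Agent.H52.Dict2

/-!
# S53: frames and canonical forms of lifts
-/

set_option autoImplicit false
set_option linter.unusedSectionVars false
set_option linter.style.haveILetI false

namespace Fermat.Agent.H52

open IsLocalRing

/-- Rigidification data: a set-theoretic lift `c` of the residual matrices and two formal
combinations `x`, `y` of group elements with `rbar(x) = E₁₁`, `rbar(y) = E₂₁`. -/
structure Frame (𝒪 : Type) [CommRing 𝒪] [IsLocalRing 𝒪] where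
  c : GQ → M2 𝒪
  x : GQ →₀ 𝒪
  y : GQ →₀ 𝒪
  hx : ∀ i j, (x.sum fun g a => a • c g) i j - (Matrix.single 0 0 1 : M2 𝒪) i j ∈ maximalIdeal 𝒪
  hy : ∀ i j, (y.sum fun g a => a • c g) i j - (Matrix.single 1 0 1 : M2 𝒪) i j ∈ maximalIdeal 𝒪

section

variable {𝒪 : Type} [CommRing 𝒪] [IsLocalRing 𝒪]
variable {A : Type} [CommRing A] [Algebra 𝒪 A]

/-- Evaluate a formal combination of group elements on a matrix representation. -/
noncomputable def evalG (w : GQ →₀ 𝒪) (r : GQ →* M2 A) : M2 A :=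
  w.sum fun g a => algebraMap 𝒪 A a • r g

lemma evalG_apply (w : GQ →₀ 𝒪) (r : GQ →* M2 A) (i j : Fin 2) :
    evalG w r i j = w.sum fun g a => algebraMap 𝒪 A a * r g i j := by
  unfold evalG Finsupp.sum
  rw [Matrix.sum_apply]
  rfl

lemma mul_evalG (w : GQ →₀ 𝒪) (r : GQ →* M2 A) (N : M2 A) :
    N * evalG w r = w.sum fun g a => algebraMap 𝒪 A a • (N * r g) := by
  unfold evalG Finsupp.sum
  rw [Finset.mul_sum]
  exact Finset.sum_congr rfl fun g _ => by rw [Matrix.mul_smul]

lemma evalG_mul (w : GQ →₀ 𝒪) (r : GQ →* M2 A) (N : M2 A) :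
    evalG w r * N = w.sum fun g a => algebraMap 𝒪 A a • (r g * N) := by
  unfold evalG Finsupp.sum
  rw [Finset.sum_mul]
  exact Finset.sum_congr rfl fun g _ => by rw [Matrix.smul_mul]

lemma evalG_conj (w : GQ →₀ 𝒪) (r r' : GQ →* M2 A) (N : M2 A)
    (h : ∀ σ, N * r σ = r' σ * N) : N * evalG w r = evalG w r' * N := by
  rw [mul_evalG, evalG_mul]
  exact Finsupp.sum_congr fun g _ => by rw [h]

variable {B : Type} [CommRing B] [Algebra 𝒪 B]

lemma evalG_map (w : GQ →₀ 𝒪) (r : GQ →* M2 A) (φ : A →ₐ[𝒪] B) (i j : Fin 2) :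
    evalG w ((((φ : A →+* B).mapMatrix : M2 A →+* M2 B) : M2 A →* M2 B).comp r) i j =
      φ (evalG w r i j) := by
  rw [evalG_apply, evalG_apply]
  unfold Finsupp.sum
  rw [map_sum]
  refine Finset.sum_congr rfl fun g _ => ?_
  rw [map_mul]
  simp

end

section

variable {𝒪 : Type} [CommRing 𝒪] [IsLocalRing 𝒪]
variable {A : Type} [CommRing A] [IsLocalRing A] [Algebra 𝒪 A]

/-- `r` lifts the residual representation of the frame. -/
def Frame.IsLift (F : Frame 𝒪) (r : GQ →* M2 A) : Prop :=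
  ∀ g i j, r g i j - algebraMap 𝒪 A (F.c g i j) ∈ maximalIdeal A

/-- `r` is in canonical form with respect to the frame. -/
def Frame.IsCanon (F : Frame 𝒪) (r : GQ →* M2 A) : Prop :=
  evalG F.x r 1 0 = 0 ∧ evalG F.y r 0 0 = 0 ∧ evalG F.y r 1 0 = 1

lemma algebraMap_mem_maximalIdeal [IsLocalHom (algebraMap 𝒪 A)] {a : 𝒪}
    (ha : a ∈ maximalIdeal 𝒪) : algebraMap 𝒪 A a ∈ maximalIdeal A :=
  map_nonunit (algebraMap 𝒪 A) a ha

lemma evalG_sub_mem [IsLocalHom (algebraMap 𝒪 A)] (F : Frame 𝒪) (w : GQ →₀ 𝒪)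
    (r : GQ →* M2 A) (hr : F.IsLift r) (i j : Fin 2) :
    evalG w r i j - algebraMap 𝒪 A ((w.sum fun g a => a • F.c g) i j) ∈ maximalIdeal A := by
  have h1 : (w.sum fun g a => a • F.c g) i j = w.sum fun g a => a * F.c g i j := by
    unfold Finsupp.sum
    rw [Matrix.sum_apply]
    rfl
  rw [evalG_apply, h1]
  unfold Finsupp.sum
  rw [map_sum, ← Finset.sum_sub_distrib]
  refine Ideal.sum_mem _ fun g _ => ?_
  rw [map_mul, ← mul_sub]
  exact Ideal.mul_mem_left _ _ (hr g i j)

lemma Frame.evalG_x_sub_mem [IsLocalHom (algebraMap 𝒪 A)] (F : Frame 𝒪)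
    (r : GQ →* M2 A) (hr : F.IsLift r) (i j : Fin 2) :
    evalG F.x r i j - (Matrix.single 0 0 1 : M2 A) i j ∈ maximalIdeal A := by
  have h1 := evalG_sub_mem F F.x r hr i j
  have h2 := algebraMap_mem_maximalIdeal (A := A) (F.hx i j)
  have h3 : algebraMap 𝒪 A ((Matrix.single 0 0 1 : M2 𝒪) i j) = (Matrix.single 0 0 1 : M2 A) i j := by
    simp only [Matrix.single_apply]
    split_ifs <;> simp
  rw [map_sub, h3] at h2
  have := Ideal.add_mem _ h1 h2
  simpa using this

lemma Frame.evalG_y_sub_mem [IsLocalHom (algebraMap 𝒪 A)] (F : Frame 𝒪)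
    (r : GQ →* M2 A) (hr : F.IsLift r) (i j : Fin 2) :
    evalG F.y r i j - (Matrix.single 1 0 1 : M2 A) i j ∈ maximalIdeal A := by
  have h1 := evalG_sub_mem F F.y r hr i j
  have h2 := algebraMap_mem_maximalIdeal (A := A) (F.hy i j)
  have h3 : algebraMap 𝒪 A ((Matrix.single 1 0 1 : M2 𝒪) i j) = (Matrix.single 1 0 1 : M2 A) i j := by
    simp only [Matrix.single_apply]
    split_ifs <;> simp
  rw [map_sub, h3] at h2
  have := Ideal.add_mem _ h1 h2
  simpa using this

/-- **Uniqueness of canonical forms**: two conjugate canonical lifts are equal. -/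
theorem Frame.canon_unique [IsLocalHom (algebraMap 𝒪 A)] (F : Frame 𝒪) (r r' : GQ →* M2 A)
    (hr : F.IsLift r) (hr' : F.IsLift r') (hc : F.IsCanon r) (hc' : F.IsCanon r')
    (N : M2 A) (hN : IsUnit N) (hconj : ∀ σ, N * r σ = r' σ * N) : r = r' := by
  have hX := evalG_conj F.x r r' N hconj
  have hY := evalG_conj F.y r r' N hconj
  obtain ⟨hX10, hY00, hY10⟩ := hc
  obtain ⟨hX'10, hY'00, hY'10⟩ := hc'
  set X := evalG F.x r with hXdef
  set X' := evalG F.x r' with hX'def
  set Y := evalG F.y r with hYdef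
  set Y' := evalG F.y r' with hY'def
  -- `X 0 0 - X' 1 1` is a unit
  have hu : IsUnit (X 0 0 - X' 1 1) := by
    have h1 := F.evalG_x_sub_mem r hr 0 0
    have h2 := F.evalG_x_sub_mem r' hr' 1 1
    simp only [Matrix.single_apply] at h1 h2
    have h3 : X 0 0 - X' 1 1 - 1 ∈ maximalIdeal A := by
      have := Ideal.sub_mem _ h1 h2
      simpa [sub_sub, add_comm] using this
    by_contra hnu
    have h4 : X 0 0 - X' 1 1 ∈ maximalIdeal A := hnu
    have := Ideal.sub_mem _ h4 h3
    rw [sub_sub_cancel] at this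
    exact (Ideal.ne_top_iff_one _).mp (maximalIdeal.isMaximal A).ne_top this
  -- `N 1 0 = 0`
  have e10 := congrFun (congrFun hX 1) 0
  simp only [Matrix.mul_apply, Fin.sum_univ_two] at e10
  rw [hX10, hX'10] at e10
  have hN10 : N 1 0 = 0 := by
    have : (X 0 0 - X' 1 1) * N 1 0 = 0 := by linear_combination e10
    exact (hu.mul_right_eq_zero).mp this
  -- second column
  have f00 := congrFun (congrFun hY 0) 0
  have f10 := congrFun (congrFun hY 1) 0
  simp only [Matrix.mul_apply, Fin.sum_univ_two] at f00 f10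
  rw [hY00, hY10, hY'00, hN10] at f00
  rw [hY00, hY10, hY'10, hN10] at f10
  have hN01 : N 0 1 = 0 := by linear_combination f00
  have hN11 : N 1 1 = N 0 0 := by linear_combination f10
  have hNs : N = N 0 0 • (1 : M2 A) := by
    ext i j
    fin_cases i <;> fin_cases j <;> simp [hN10, hN01, hN11]
  have hu0 : IsUnit (N 0 0) := by
    have hdet := (Matrix.isUnit_iff_isUnit_det N).mp hN
    rw [Matrix.det_fin_two, hN10, hN01, hN11] at hdet
    simp only [mul_zero, sub_zero] at hdet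
    exact isUnit_of_mul_isUnit_left hdet
  ext σ i j
  have h := congrFun (congrFun (hconj σ) i) j
  rw [hNs] at h
  simp only [Matrix.smul_mul, Matrix.mul_smul, Matrix.one_mul, Matrix.mul_one,
    Matrix.smul_apply, smul_eq_mul] at h
  exact (hu0.mul_right_inj).mp h

end

end Fermat.Agent.H52
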