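import Mathlib
import Fermat.Agent.H52.Frame

/-!
# S53: existence of canonical forms over Henselian local rings
-/

set_option autoImplicit false
set_option linter.unusedSectionVars false
set_option linter.style.haveILetI false

namespace Fermat.Agent.H52

open IsLocalRing Polynomial

section Quad

variable {A : Type} [CommRing A] [IsLocalRing A]

lemma isUnit_of_sub_one_mem {a : A} (h : a - 1 ∈ maximalIdeal A) : IsUnit a := by
  by_contra hnu
  have h4 : a ∈ maximalIdeal A := hnu
  have := Ideal.sub_mem _ h4 h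
  rw [sub_sub_cancel] at this
  exact (Ideal.ne_top_iff_one _).mp (maximalIdeal.isMaximal A).ne_top this

lemma exists_quad_root [HenselianRing A (maximalIdeal A)] (t d : A)
    (ht : t - 1 ∈ maximalIdeal A) (hd : d ∈ maximalIdeal A) :
    ∃ β ∈ maximalIdeal A, β * β - t * β + d = 0 := by
  let f : A[X] := X ^ 2 + (C (-t) * X + C d)
  have hf : f.Monic := by
    apply monic_X_pow_add
    refine lt_of_le_of_lt (degree_add_le _ _) ?_
    refine max_lt ?_ ?_
    · refine lt_of_le_of_lt (degree_C_mul_X_le _) ?_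
      norm_num
    · refine lt_of_le_of_lt degree_C_le ?_
      norm_num
  have h0 : f.eval 0 = d := by simp [f]
  have h1 : f.derivative.eval 0 = -t := by simp [f]
  have hu : IsUnit (-t) := (isUnit_of_sub_one_mem ht).neg
  obtain ⟨β, hβ, hβ0⟩ := HenselianRing.is_henselian (I := maximalIdeal A) f hf 0
    (by rw [h0]; exact hd) (by rw [h1]; exact hu.map _)
  refine ⟨β, by simpa using hβ0, ?_⟩
  have : f.eval β = 0 := hβ
  simp only [f, eval_add, eval_pow, eval_X, eval_mul, eval_C] at this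
  linear_combination this

end Quad

section ConjRep

variable {A : Type} [CommRing A]

/-- Conjugate a matrix representation by an invertible matrix: `σ ↦ u⁻¹ r(σ) u`. -/
noncomputable def conjRep (u : (M2 A)ˣ) (r : GQ →* M2 A) : GQ →* M2 A where
  toFun σ := ((u⁻¹ : (M2 A)ˣ) : M2 A) * r σ * (u : M2 A)
  map_one' := by simp
  map_mul' a b := by
    rw [map_mul]
    calc ((u⁻¹ : (M2 A)ˣ) : M2 A) * (r a * r b) * (u : M2 A)
        = ((u⁻¹ : (M2 A)ˣ) : M2 A) * r a * ((u : M2 A) * ((u⁻¹ : (M2 A)ˣ) : M2 A)) * r b * u := by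
          rw [Units.mul_inv, mul_one]; simp only [mul_assoc]
      _ = _ := by simp only [mul_assoc]

lemma conjRep_apply (u : (M2 A)ˣ) (r : GQ →* M2 A) (σ : GQ) :
    conjRep u r σ = ((u⁻¹ : (M2 A)ˣ) : M2 A) * r σ * (u : M2 A) := rfl

lemma conjRep_conj (u : (M2 A)ˣ) (r : GQ →* M2 A) (σ : GQ) :
    ((u⁻¹ : (M2 A)ˣ) : M2 A) * r σ = conjRep u r σ * ((u⁻¹ : (M2 A)ˣ) : M2 A) := by
  rw [conjRep_apply, mul_assoc, Units.mul_inv, mul_one]

lemma mul_conjRep (u : (M2 A)ˣ) (r : GQ →* M2 A) (σ : GQ) :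
    (u : M2 A) * conjRep u r σ = r σ * (u : M2 A) := by
  rw [conjRep_apply, ← mul_assoc, ← mul_assoc, Units.mul_inv, one_mul]

end ConjRep

section Exists

variable {𝒪 : Type} [CommRing 𝒪] [IsLocalRing 𝒪]
variable {A : Type} [CommRing A] [IsLocalRing A] [Algebra 𝒪 A]

lemma evalG_conjRep (w : GQ →₀ 𝒪) (u : (M2 A)ˣ) (r : GQ →* M2 A) :
    evalG w (conjRep u r) = ((u⁻¹ : (M2 A)ˣ) : M2 A) * evalG w r * (u : M2 A) := by
  have h := evalG_conj w r (conjRep u r) ((u⁻¹ : (M2 A)ˣ) : M2 A) (conjRep_conj u r)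
  rw [h, mul_assoc, Units.inv_mul, mul_one]

/-- If `u ≡ 1` then conjugation by `u` preserves lifts. -/
lemma Frame.isLift_conjRep (F : Frame 𝒪) (u : (M2 A)ˣ)
    (hu : ∀ i j, ((u : M2 A) - 1) i j ∈ maximalIdeal A) (r : GQ →* M2 A) (hr : F.IsLift r) :
    F.IsLift (conjRep u r) := by
  intro g i j
  -- `u * r' = r * u`, so `r' - r = (1 - u) r' + r (u - 1)`
  have h := mul_conjRep u r g
  have key : conjRep u r g - r g = (1 - (u : M2 A)) * conjRep u r g + r g * ((u : M2 A) - 1) := by
    rw [sub_mul, mul_sub, one_mul, mul_one, h]; abel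
  have hmem : (conjRep u r g - r g) i j ∈ maximalIdeal A := by
    rw [key, Matrix.add_apply, Matrix.mul_apply, Matrix.mul_apply]
    refine Ideal.add_mem _ (Ideal.sum_mem _ fun l _ => ?_) (Ideal.sum_mem _ fun l _ => ?_)
    · refine Ideal.mul_mem_right _ _ ?_
      have := hu i l
      rw [← neg_sub, Matrix.neg_apply]
      exact neg_mem this
    · exact Ideal.mul_mem_left _ _ (hu l j)
  have := Ideal.add_mem _ hmem (hr g i j)
  simpa [Matrix.sub_apply] using this

lemma MatCont.conjRep (u : (M2 A)ˣ) {r : GQ →* M2 A} (h : MatCont r) : MatCont (conjRep u r) := by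
  intro n
  obtain ⟨L, hL, h1⟩ := h n
  refine ⟨L, hL, fun σ hσ i j => ?_⟩
  have key : Fermat.Agent.H52.conjRep u r σ - 1 =
      ((u⁻¹ : (M2 A)ˣ) : M2 A) * (r σ - 1) * (u : M2 A) := by
    rw [conjRep_apply, mul_sub, sub_mul, mul_one, Units.inv_mul]
  rw [key, Matrix.mul_apply]
  refine Ideal.sum_mem _ fun l _ => Ideal.mul_mem_right _ _ ?_
  rw [Matrix.mul_apply]
  exact Ideal.sum_mem _ fun m _ => Ideal.mul_mem_left _ _ (h1 σ hσ m l)

/-- **Existence of canonical forms** over Henselian local rings. -/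
theorem Frame.exists_canon [IsLocalHom (algebraMap 𝒪 A)] [HenselianRing A (maximalIdeal A)]
    (F : Frame 𝒪) (r : GQ →* M2 A) (hr : F.IsLift r) :
    ∃ u : (M2 A)ˣ, (∀ i j, ((u : M2 A) - 1) i j ∈ maximalIdeal A) ∧ F.IsCanon (conjRep u r) := by
  set X := evalG F.x r with hXdef
  set Y := evalG F.y r with hYdef
  have hX00 : X 0 0 - 1 ∈ maximalIdeal A := by simpa using F.evalG_x_sub_mem r hr 0 0
  have hX01 : X 0 1 ∈ maximalIdeal A := by simpa using F.evalG_x_sub_mem r hr 0 1
  have hX10 : X 1 0 ∈ maximalIdeal A := by simpa using F.evalG_x_sub_mem r hr 1 0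
  have hX11 : X 1 1 ∈ maximalIdeal A := by simpa using F.evalG_x_sub_mem r hr 1 1
  have hY00 : Y 0 0 ∈ maximalIdeal A := by simpa using F.evalG_y_sub_mem r hr 0 0
  have hY01 : Y 0 1 ∈ maximalIdeal A := by simpa using F.evalG_y_sub_mem r hr 0 1
  have hY10 : Y 1 0 - 1 ∈ maximalIdeal A := by simpa using F.evalG_y_sub_mem r hr 1 0
  have hY11 : Y 1 1 ∈ maximalIdeal A := by simpa using F.evalG_y_sub_mem r hr 1 1
  obtain ⟨β, hβm, hβ⟩ := exists_quad_root (X 0 0 + X 1 1) (X 0 0 * X 1 1 - X 0 1 * X 1 0)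
    (by
      have := Ideal.add_mem _ hX00 hX11
      convert this using 1; ring)
    (Ideal.sub_mem _ (Ideal.mul_mem_left _ _ hX11) (Ideal.mul_mem_left _ _ hX10))
  -- the eigenvector and its image
  set a := X 0 0 - β with ha
  set b := X 1 0 with hb
  set c := Y 0 0 * a + Y 0 1 * b with hc
  set d := Y 1 0 * a + Y 1 1 * b with hd
  have ham : a - 1 ∈ maximalIdeal A := by
    have := Ideal.sub_mem _ hX00 hβm
    convert this using 1; ring
  have hcm : c ∈ maximalIdeal A :=
    Ideal.add_mem _ (Ideal.mul_mem_right _ _ hY00) (Ideal.mul_mem_right _ _ hY01)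
  have hdm : d - 1 ∈ maximalIdeal A := by
    have h1 : Y 1 0 * (a - 1) ∈ maximalIdeal A := Ideal.mul_mem_left _ _ ham
    have h2 : Y 1 1 * b ∈ maximalIdeal A := Ideal.mul_mem_left _ _ hX10
    have := Ideal.add_mem _ (Ideal.add_mem _ h1 h2) hY10
    convert this using 1; ring
  let P : M2 A := !![a, c; b, d]
  have hdet : IsUnit P.det := by
    apply isUnit_of_sub_one_mem
    rw [Matrix.det_fin_two]
    have h1 : (a - 1) * d ∈ maximalIdeal A := Ideal.mul_mem_right _ _ ham
    have h2 : c * b ∈ maximalIdeal A := Ideal.mul_mem_right _ _ hcm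
    have := Ideal.sub_mem _ (Ideal.add_mem _ h1 hdm) h2
    convert this using 1
    simp [P]; ring
  obtain ⟨u, hu⟩ := (Matrix.isUnit_iff_isUnit_det P).mpr hdet
  refine ⟨u, ?_, ?_⟩
  · intro i j
    rw [hu]
    fin_cases i <;> fin_cases j <;> simp [P] <;> assumption
  · -- canonical form
    have hPX : P * evalG F.x (conjRep u r) = X * P := by
      rw [evalG_conjRep, ← hu, ← mul_assoc, ← mul_assoc, Units.mul_inv, one_mul]
    have hPY : P * evalG F.y (conjRep u r) = Y * P := by
      rw [evalG_conjRep, ← hu, ← mul_assoc, ← mul_assoc, Units.mul_inv, one_mul]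
    set X' := evalG F.x (conjRep u r) with hX'def
    set Y' := evalG F.y (conjRep u r) with hY'def
    have e00 := congrFun (congrFun hPX 0) 0
    have e10 := congrFun (congrFun hPX 1) 0
    have f00 := congrFun (congrFun hPY 0) 0
    have f10 := congrFun (congrFun hPY 1) 0
    simp only [Matrix.mul_apply, Fin.sum_univ_two, P, Matrix.of_apply, Matrix.cons_val_zero,
      Matrix.cons_val_one, Matrix.cons_val', Matrix.cons_val_fin_one] at e00 e10 f00 f10
    rw [Matrix.det_fin_two] at hdet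
    simp only [P, Matrix.of_apply, Matrix.cons_val_zero,
      Matrix.cons_val_one, Matrix.cons_val', Matrix.cons_val_fin_one] at hdet
    refine ⟨?_, ?_, ?_⟩
    · have : (a * d - c * b) * X' 1 0 = 0 := by
        linear_combination a * e10 - b * e00 + b * hβ
      exact (hdet.mul_right_eq_zero).mp this
    · have : (a * d - c * b) * Y' 0 0 = 0 := by
        linear_combination d * f00 - c * f10
      exact (hdet.mul_right_eq_zero).mp this
    · have : (a * d - c * b) * Y' 1 0 = (a * d - c * b) * 1 := by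
        linear_combination a * f10 - b * f00
      exact (hdet.mul_right_inj).mp this

end Exists


end Fermat.Agent.H52
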