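import Mathlib

/-!
# Eigenvectors for characters of faithful commutative algebras (P-ES, S30 block (B1); Mathlib only)

* `es_exists_annihilated` : in an artinian commutative ring every proper ideal `𝔪` annihilates a
  nonzero element.
* `es_exists_eigenvector` : if an artinian commutative ring `A` acts faithfully on `V`, then every
  proper ideal of `A` has a nonzero common kernel vector in `V`.
-/

set_option autoImplicit false

namespace Fermat.Agent.H52

section Artinian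

variable {A : Type*} [CommRing A] [IsArtinianRing A]

/-- In an artinian commutative ring every proper ideal annihilates a nonzero element. -/
lemma es_exists_annihilated (𝔪 : Ideal A) (h𝔪 : 𝔪 ≠ ⊤) :
    ∃ t : A, t ≠ 0 ∧ ∀ a ∈ 𝔪, a * t = 0 := by
  -- the powers of `𝔪` stabilise
  obtain ⟨n, hn⟩ := IsArtinian.monotone_stabilizes (R := A) (M := A)
    ⟨fun k => OrderDual.toDual (𝔪 ^ k), fun i j hij => Ideal.pow_le_pow_right hij⟩
  have hstab : 𝔪 ^ n = 𝔪 ^ (n + 1) := by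
    have := hn (n + 1) (Nat.le_succ n)
    exact this
  -- Nakayama
  have hfg : (𝔪 ^ n : Ideal A).FG := IsNoetherian.noetherian _
  obtain ⟨r, hr1, hr0⟩ := Submodule.exists_sub_one_mem_and_smul_eq_zero_of_fg_of_le_smul 𝔪
    (𝔪 ^ n) hfg (by rw [smul_eq_mul, ← pow_succ', ← hstab])
  have hr : r ≠ 0 := by
    rintro rfl
    apply h𝔪
    rw [Ideal.eq_top_iff_one]
    have := 𝔪.neg_mem hr1
    simpa using this
  -- the least `j` with `r • 𝔪 ^ j = 0`
  classical
  have hex : ∃ j : ℕ, ∀ y ∈ 𝔪 ^ j, r * y = 0 := ⟨n, fun y hy => hr0 y hy⟩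
  have hspec := Nat.find_spec hex
  have hpos : Nat.find hex ≠ 0 := by
    intro h0
    rw [h0] at hspec
    have := hspec 1 (by simp)
    rw [mul_one] at this
    exact hr this
  obtain ⟨j, hj⟩ := Nat.exists_eq_succ_of_ne_zero hpos
  have hnot := Nat.find_min hex (m := j) (by omega)
  simp only [not_forall] at hnot
  obtain ⟨x, hx, hrx⟩ := hnot
  refine ⟨r * x, hrx, fun a ha => ?_⟩
  have : a * x ∈ 𝔪 ^ Nat.find hex := by
    rw [hj, Nat.succ_eq_add_one, pow_succ']
    exact Ideal.mul_mem_mul ha hx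
  have h2 := hspec (a * x) this
  rw [← h2]
  ring

/-- **Eigenvector lemma.**  If an artinian commutative ring acts faithfully on `V`, every proper
ideal has a nonzero common kernel vector. -/
lemma es_exists_eigenvector {K : Type*} [Semiring K] {V : Type*} [AddCommMonoid V] [Module K V]
    (Ψ : A →+* Module.End K V) (hΨ : Function.Injective Ψ) (𝔪 : Ideal A) (h𝔪 : 𝔪 ≠ ⊤) :
    ∃ v : V, v ≠ 0 ∧ ∀ a ∈ 𝔪, Ψ a v = 0 := by
  obtain ⟨t, ht, hmt⟩ := es_exists_annihilated 𝔪 h𝔪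
  have hΨt : Ψ t ≠ 0 := fun h => ht (hΨ (by rw [h, map_zero]))
  have : ∃ v₀ : V, Ψ t v₀ ≠ 0 := by
    by_contra hcon
    simp only [not_exists, not_not] at hcon
    exact hΨt (LinearMap.ext hcon)
  obtain ⟨v₀, hv₀⟩ := this
  refine ⟨Ψ t v₀, hv₀, fun a ha => ?_⟩
  rw [← Module.End.mul_apply, ← map_mul, hmt a ha, map_zero, LinearMap.zero_apply]

end Artinian

section Faithful

open TensorProduct

variable {Λ₀ : Type*} [AddCommGroup Λ₀] [Module.Finite ℤ Λ₀]
  {K : Type*} [Field K] [CharZero K]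

/-- The natural map `K ⊗ End_ℤ Λ₀ → End_K (K ⊗ Λ₀)` is injective (finite free `Λ₀`). -/
lemma es_tensorProductEnd_injective :
    Function.Injective (LinearMap.tensorProductEnd ℤ K Λ₀) := by
  have hfp : Module.FinitePresentation ℤ Λ₀ := Module.finitePresentation_of_finite ℤ Λ₀
  have hbc := Module.FinitePresentation.isBaseChange_map ℤ Λ₀ Λ₀ K
  have heq : ∀ x : K ⊗[ℤ] Module.End ℤ Λ₀,
      LinearMap.tensorProductEnd ℤ K Λ₀ x = hbc.equiv x := by
    intro x
    induction x using TensorProduct.induction_on with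
    | zero => simp
    | tmul c f =>
      rw [IsBaseChange.equiv_tmul]
      rfl
    | add x y hx hy => rw [map_add, map_add, hx, hy]
  intro x y hxy
  rw [heq, heq] at hxy
  exact hbc.equiv.injective hxy

/-- **Eigenvector over a field of characteristic zero** (block (B1)).  `Λ₀` a finitely generated
abelian group with a ring homomorphism `ev : ℤ[X_i] → End Λ₀`; `a i ∈ K` a system of eigenvalues
such that every polynomial relation among the operators holds for the `a i` (faithfulness).  Then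
`K ⊗ Λ₀` contains a nonzero simultaneous eigenvector. -/
theorem es_exists_eigen_of_faithful {ι : Type*}
    (ev : MvPolynomial ι ℤ →+* Module.End ℤ Λ₀) (a : ι → K)
    (hfaith : ∀ P : MvPolynomial ι ℤ, ev P = 0 → MvPolynomial.aeval a P = 0) :
    ∃ v : K ⊗[ℤ] Λ₀, v ≠ 0 ∧
      ∀ i : ι, (ev (MvPolynomial.X i)).baseChange K v = a i • v := by
  -- the Hecke ring `𝕋' = ℤ[X] / ker ev`
  let I : Ideal (MvPolynomial ι ℤ) := RingHom.ker ev
  let j : (MvPolynomial ι ℤ ⧸ I) →+* Module.End ℤ Λ₀ := RingHom.kerLift ev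
  have hj : Function.Injective j := RingHom.kerLift_injective ev
  let jA : (MvPolynomial ι ℤ ⧸ I) →ₐ[ℤ] Module.End ℤ Λ₀ := j.toIntAlgHom
  let χ' : (MvPolynomial ι ℤ ⧸ I) →+* K :=
    Ideal.Quotient.lift I (MvPolynomial.aeval a : MvPolynomial ι ℤ →ₐ[ℤ] K).toRingHom
      (fun P hP => hfaith P (RingHom.mem_ker.mp hP))
  -- finiteness
  have hfinE : Module.Finite ℤ (Module.End ℤ Λ₀) := inferInstance
  have hfinT : Module.Finite ℤ (MvPolynomial ι ℤ ⧸ I) :=
    Module.Finite.of_injective jA.toLinearMap hj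
  have hfinA : Module.Finite K (K ⊗[ℤ] (MvPolynomial ι ℤ ⧸ I)) := inferInstance
  have hart : IsArtinianRing (K ⊗[ℤ] (MvPolynomial ι ℤ ⧸ I)) := IsArtinianRing.of_finite K _
  -- the action
  let Ψ : K ⊗[ℤ] (MvPolynomial ι ℤ ⧸ I) →ₐ[K] Module.End K (K ⊗[ℤ] Λ₀) :=
    (LinearMap.tensorProductEnd ℤ K Λ₀).comp (Algebra.TensorProduct.map (AlgHom.id K K) jA)
  have hΨ : Function.Injective Ψ := by
    have h1 : Function.Injective (Algebra.TensorProduct.map (AlgHom.id K K) jA) := by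
      have h2 : Function.Injective (jA.toLinearMap.lTensor K) :=
        Module.Flat.lTensor_preserves_injective_linearMap jA.toLinearMap hj
      intro x y hxy
      apply h2
      have e : ∀ z : K ⊗[ℤ] (MvPolynomial ι ℤ ⧸ I),
          jA.toLinearMap.lTensor K z = Algebra.TensorProduct.map (AlgHom.id K K) jA z := by
        intro z
        induction z using TensorProduct.induction_on with
        | zero => simp
        | tmul c t => simp
        | add x y hx hy => rw [map_add, map_add, hx, hy]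
      rw [e, e, hxy]
    exact es_tensorProductEnd_injective.comp h1
  -- the character
  let χK : K ⊗[ℤ] (MvPolynomial ι ℤ ⧸ I) →ₐ[K] K :=
    Algebra.TensorProduct.lift (AlgHom.id K K) χ'.toIntAlgHom (fun _ _ => Commute.all _ _)
  let 𝔪 : Ideal (K ⊗[ℤ] (MvPolynomial ι ℤ ⧸ I)) := RingHom.ker (χK : _ →+* K)
  have hmem𝔪 : ∀ x, x ∈ 𝔪 ↔ χK x = 0 := fun x => RingHom.mem_ker
  have hne : 𝔪 ≠ ⊤ := by
    intro h
    have h1 : (1 : K ⊗[ℤ] (MvPolynomial ι ℤ ⧸ I)) ∈ 𝔪 := by
      rw [h]; trivial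
    rw [hmem𝔪, map_one] at h1
    exact one_ne_zero h1
  obtain ⟨v, hv0, hv⟩ := es_exists_eigenvector (A := K ⊗[ℤ] (MvPolynomial ι ℤ ⧸ I))
    (K := K) (V := K ⊗[ℤ] Λ₀) Ψ.toRingHom hΨ 𝔪 hne
  refine ⟨v, hv0, fun i => ?_⟩
  -- the element `1 ⊗ X_i - a_i ⊗ 1`
  have hmem : ((1 : K) ⊗ₜ[ℤ] (Ideal.Quotient.mk I (MvPolynomial.X i)) -
      (a i) ⊗ₜ[ℤ] (1 : MvPolynomial ι ℤ ⧸ I) : K ⊗[ℤ] (MvPolynomial ι ℤ ⧸ I)) ∈ 𝔪 := by
    rw [hmem𝔪, map_sub]
    show Algebra.TensorProduct.lift (AlgHom.id K K) χ'.toIntAlgHom _ _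
      - Algebra.TensorProduct.lift (AlgHom.id K K) χ'.toIntAlgHom _ _ = 0
    rw [Algebra.TensorProduct.lift_tmul, Algebra.TensorProduct.lift_tmul]
    have h1 : χ'.toIntAlgHom (Ideal.Quotient.mk I (MvPolynomial.X i)) = a i := by
      show χ' (Ideal.Quotient.mk I (MvPolynomial.X i)) = a i
      show Ideal.Quotient.lift I _ _ (Ideal.Quotient.mk I (MvPolynomial.X i)) = a i
      rw [Ideal.Quotient.lift_mk]
      exact MvPolynomial.aeval_X a i
    rw [h1, map_one]
    simp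
  have h := hv _ hmem
  have e0 : ∀ (c : K) (f : Module.End ℤ Λ₀),
      LinearMap.tensorProductEnd ℤ K Λ₀ (c ⊗ₜ[ℤ] f) = c • f.baseChange K := fun c f => rfl
  have e1 : Ψ ((1 : K) ⊗ₜ[ℤ] (Ideal.Quotient.mk I (MvPolynomial.X i))) =
      (ev (MvPolynomial.X i)).baseChange K := by
    show LinearMap.tensorProductEnd ℤ K Λ₀
      (Algebra.TensorProduct.map (AlgHom.id K K) jA (1 ⊗ₜ[ℤ] _)) = _
    rw [Algebra.TensorProduct.map_tmul, e0, AlgHom.id_apply, one_smul]
    have : jA (Ideal.Quotient.mk I (MvPolynomial.X i)) = ev (MvPolynomial.X i) :=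
      RingHom.kerLift_mk ev _
    rw [this]
  have e2 : Ψ ((a i) ⊗ₜ[ℤ] (1 : MvPolynomial ι ℤ ⧸ I)) =
      a i • (1 : Module.End K (K ⊗[ℤ] Λ₀)) := by
    have : ((a i) ⊗ₜ[ℤ] (1 : MvPolynomial ι ℤ ⧸ I) : K ⊗[ℤ] (MvPolynomial ι ℤ ⧸ I))
        = a i • (1 : K ⊗[ℤ] (MvPolynomial ι ℤ ⧸ I)) := by
      rw [Algebra.TensorProduct.one_def, TensorProduct.smul_tmul', smul_eq_mul, mul_one]
    rw [this, map_smul, map_one]
  have h' : Ψ ((1 : K) ⊗ₜ[ℤ] (Ideal.Quotient.mk I (MvPolynomial.X i)) -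
      (a i) ⊗ₜ[ℤ] (1 : MvPolynomial ι ℤ ⧸ I)) v = 0 := h
  rw [map_sub, e1, e2, LinearMap.sub_apply, LinearMap.smul_apply, Module.End.one_apply,
    sub_eq_zero] at h'
  exact h'

end Faithful

end Fermat.Agent.H52
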