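import Mathlib
import Fermat.Agent.H52.ESS35

/-!
# S35 from a lattice in the `q`-new part (toric form of the local clause)

`NewformToricLatticeStatement` : as `NewformLatticeStatement`, with the local clause at `q ∥ M`
replaced by the two identities available on the `q`-new part of the Jacobian:

* (a)  `(φ² - q²)(τ - 1) = 0` for Frobenius lifts `φ` and inertia elements `τ` at `q`;
* (a') `φ² = q²` on the inertia invariants.

`newformLattice_of_toric` : it implies `NewformLatticeStatement` (hence the frozen S35 by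
`s35_of_lattice`): if the lattice is ramified at `q` use (a), if not use (a').  No ramification
statement is needed.
-/

set_option autoImplicit false
set_option linter.unusedSectionVars false

namespace Fermat.Agent.H52

open Polynomial Module

/-- **Eigenvector from a square.**  If `φ² = c²` on a nonzero module, then `φ` has a nonzero
eigenvector with eigenvalue `c` or `-c`. -/
lemma es_eigen_of_sq {O : Type*} [CommRing O]
    {Λ : Type*} [AddCommGroup Λ] [Module O Λ] [Nontrivial Λ]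
    (φ : Module.End O Λ) (c : O) (hrel : ∀ v : Λ, φ (φ v) = (c * c) • v) :
    ∃ v : Λ, v ≠ 0 ∧ (φ v = c • v ∨ φ v = -(c • v)) := by
  obtain ⟨w, hw⟩ := exists_ne (0 : Λ)
  by_cases h2 : φ w + c • w = 0
  · exact ⟨w, hw, Or.inr (eq_neg_of_add_eq_zero_left h2)⟩
  · refine ⟨φ w + c • w, h2, Or.inl ?_⟩
    rw [map_add, map_smul, hrel w, smul_add, mul_smul]
    abel

/-- **The geometric input of S35, toric form** (for a lattice inside the `q`-new part). -/
def NewformToricLatticeStatement : Prop :=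
  ∀ {M : ℕ} [NeZero M] {g : CuspForm (CongruenceSubgroup.Gamma0 M) 2} (_hg : g.IsNewform)
    (lam : ℕ) [Fact lam.Prime] (S : Finset ℕ)
    (O' : Type) [CommRing O'] [IsDomain O'] [IsDiscreteValuationRing O']
    [IsAdicComplete (IsLocalRing.maximalIdeal O') O'] [Finite (IsLocalRing.ResidueField O')]
    [CharZero O'] (_hlamO' : (lam : O') ∈ IsLocalRing.maximalIdeal O')
    (chig : CuspForm.heckeAlgebra M 2 (↑S : Set ℕ) →+* ℂ)
    (_hchig : ∀ (ℓ : ℕ) (hℓ : ℓ.Prime) (hℓM : ¬ ℓ ∣ M) (hℓS : ℓ ∉ (↑S : Set ℕ)),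
      chig (CuspForm.heckeAlgebra.T hℓ hℓM hℓS) = ModularFormClass.qCoeff g ℓ)
    (iota : chig.range →+* O')
    (_hlamS : lam ∈ S) (_hMS : ∀ q : ℕ, q.Prime → q ∣ M → q ∈ S),
    ∃ (Λ : Type) (_ : AddCommGroup Λ) (_ : Module O' Λ) (_ : Module.Free O' Λ)
      (_ : Module.Finite O' Λ) (_ : Nontrivial Λ)
      (ρ : (AlgebraicClosure ℚ ≃ₐ[ℚ] AlgebraicClosure ℚ) →* Module.End O' Λ),
      GaloisActionIsAdicContinuous O' ρ ∧
      (∀ (ℓ : ℕ) (hℓ : ℓ.Prime) (hℓM : ¬ ℓ ∣ M) (hℓS : ℓ ∉ (↑S : Set ℕ)),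
        ∀ A : ValuationSubring (AlgebraicClosure ℚ), A.LiesOverPrime ℓ →
          ∀ σ : AlgebraicClosure ℚ ≃ₐ[ℚ] AlgebraicClosure ℚ, A.IsFrobeniusAt σ ℓ →
            ρ σ * ρ σ - (iota.comp chig.rangeRestrict) (CuspForm.heckeAlgebra.T hℓ hℓM hℓS) • ρ σ
              + (ℓ : O') • (1 : Module.End O' Λ) = 0) ∧
      (∀ q : ℕ, q.Prime → q ≠ lam → q ∣ M → ¬ q ^ 2 ∣ M →
        ∀ A : ValuationSubring (AlgebraicClosure ℚ), A.LiesOverPrime q →
          ∀ φ : AlgebraicClosure ℚ ≃ₐ[ℚ] AlgebraicClosure ℚ, A.IsFrobeniusAt φ q →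
            (∀ τ ∈ A.inertiaSubgroupIn ℚ,
              (ρ φ * ρ φ - ((q : O') * (q : O')) • (1 : Module.End O' Λ)) * (ρ τ - 1) = 0) ∧
            (∀ v : Λ, (∀ τ ∈ A.inertiaSubgroupIn ℚ, ρ τ v = v) →
              ρ φ (ρ φ v) = ((q : O') * (q : O')) • v))

/-- The toric form implies the eigenvalue form. -/
theorem newformLattice_of_toric (h : NewformToricLatticeStatement) :
    NewformLatticeStatement := by
  intro M _ g hg lam _ S O' _ _ _ _ _ _ hlamO' chig hchig iota hlamS hMS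
  obtain ⟨Λ, iA, iM, iFr, iFi, iNt, ρ, hcont, hrel, hloc⟩ :=
    h hg lam S O' hlamO' chig hchig iota hlamS hMS
  refine ⟨Λ, iA, iM, iFr, iFi, iNt, ρ, hcont, hrel, ?_⟩
  intro q hq hqlam hqM hq2 A hA σ hσ
  obtain ⟨ha, ha'⟩ := hloc q hq hqlam hqM hq2 A hA σ hσ
  by_cases hram : ∃ τ ∈ A.inertiaSubgroupIn ℚ, ρ τ ≠ 1
  · obtain ⟨τ, hτ, hτ1⟩ := hram
    obtain ⟨v, hv, hv'⟩ := es_eigen_of_ramified (ρ σ) (ρ τ) (q : O') (ha τ hτ) hτ1
    exact ⟨v, hv, Or.inr (Or.inr hv')⟩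
  · have hall : ∀ τ ∈ A.inertiaSubgroupIn ℚ, ρ τ = 1 := by
      intro τ hτ
      by_contra hne
      exact hram ⟨τ, hτ, hne⟩
    have hsq : ∀ v : Λ, ρ σ (ρ σ v) = ((q : O') * (q : O')) • v := by
      intro v
      refine ha' v (fun τ hτ => ?_)
      rw [hall τ hτ, Module.End.one_apply]
    obtain ⟨v, hv, hv'⟩ := es_eigen_of_sq (ρ σ) (q : O') hsq
    exact ⟨v, hv, Or.inr (Or.inr hv')⟩

end Fermat.Agent.H52
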