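import Mathlib
import Fermat.Agent.H52.ESTateTensor

/-!
# Joint kernels and flat base change (Mathlib only)

For a flat `ℤ`-algebra `O`, an abelian group `J` with `J[q]` finite and an arbitrary family of
additive maps `f α : J → J'`:

* `es_tensor_mem_range_joint` : an element of `(O ⊗ J)[q]` killed by all `1 ⊗ f α` comes from
  `O ⊗ K`, `K = {x ∈ J[q] | ∀ α, f α x = 0}`;
* `es_tensor_vanish_joint` : an additive map vanishing on `K` vanishes, after base change, on the
  elements of `(O ⊗ J)[q]` killed by all `1 ⊗ f α`.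
-/

set_option autoImplicit false

namespace Fermat.Agent.H52

open TensorProduct

section Joint

variable {O : Type*} [CommRing O] [Module.Flat ℤ O]
  {J J' J'' : Type*} [AddCommGroup J] [AddCommGroup J'] [AddCommGroup J'']

/-- The joint kernel of a family of additive maps inside the `q`-torsion. -/
def esJointKer (q : ℤ) {A : Type*} (f : A → (J →ₗ[ℤ] J')) : Submodule ℤ J where
  carrier := {x | q • x = 0 ∧ ∀ α, f α x = 0}
  add_mem' := by
    rintro x y ⟨hx, hx'⟩ ⟨hy, hy'⟩
    refine ⟨by rw [smul_add, hx, hy, add_zero], fun α => ?_⟩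
    rw [map_add, hx' α, hy' α, add_zero]
  zero_mem' := ⟨smul_zero _, fun α => map_zero _⟩
  smul_mem' := by
    rintro c x ⟨hx, hx'⟩
    refine ⟨by rw [smul_comm, hx, smul_zero], fun α => ?_⟩
    rw [map_smul, hx' α, smul_zero]

lemma mem_esJointKer {q : ℤ} {A : Type*} {f : A → (J →ₗ[ℤ] J')} {x : J} :
    x ∈ esJointKer q f ↔ q • x = 0 ∧ ∀ α, f α x = 0 := Iff.rfl

/-- **Joint kernels commute with flat base change** (on finite torsion levels). -/
theorem es_tensor_mem_range_joint (q : ℤ) (hfin : Finite {x : J // q • x = 0})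
    {A : Type*} (f : A → (J →ₗ[ℤ] J'))
    (d : O ⊗[ℤ] J) (hd : (q : O) • d = 0) (hf : ∀ α, (f α).baseChange O d = 0) :
    d ∈ LinearMap.range ((esJointKer q f).subtype.lTensor O) := by
  classical
  obtain ⟨d', rfl⟩ := es_tensor_mem_range q d hd
  have hfinX : Finite (esTorsZ J q) := by
    refine Finite.of_injective (fun x : esTorsZ J q =>
      (⟨x.1, mem_esTorsZ.mp x.2⟩ : {x : J // q • x = 0})) ?_
    intro x y h
    have h' : (x : J) = (y : J) := by
      simp only [Subtype.mk.injEq] at h
      exact h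
    exact Subtype.ext h'
  -- a finite index set detecting the joint kernel
  let I₀ : Type _ := {x : esTorsZ J q // ∃ α, f α (x : J) ≠ 0}
  have hfinI : Finite I₀ := inferInstanceAs (Finite {x : esTorsZ J q // ∃ α, f α (x : J) ≠ 0})
  let _iFt : Fintype I₀ := Fintype.ofFinite I₀
  let α₀ : I₀ → A := fun i => i.2.choose
  have hα₀ : ∀ i : I₀, f (α₀ i) ((i.1 : esTorsZ J q) : J) ≠ 0 := fun i => i.2.choose_spec
  let F : esTorsZ J q →ₗ[ℤ] (I₀ → J') :=
    LinearMap.pi fun i => (f (α₀ i)) ∘ₗ (esTorsZ J q).subtype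
  -- `1 ⊗ F` kills `d'`
  have hF : F.lTensor O d' = 0 := by
    apply (TensorProduct.piRight ℤ ℤ O (fun _ : I₀ => J')).injective
    rw [map_zero]
    funext i
    have key : ∀ e : O ⊗[ℤ] esTorsZ J q,
        (TensorProduct.piRight ℤ ℤ O (fun _ : I₀ => J')) (F.lTensor O e) i
          = ((f (α₀ i)) ∘ₗ (esTorsZ J q).subtype).lTensor O e := by
      intro e
      induction e using TensorProduct.induction_on with
      | zero => simp
      | tmul o x =>
        rw [LinearMap.lTensor_tmul, TensorProduct.piRight_apply,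
          TensorProduct.piRightHom_tmul, LinearMap.lTensor_tmul]
        rfl
      | add e₁ e₂ h₁ h₂ =>
        rw [map_add, map_add, Pi.add_apply, h₁, h₂, map_add]
    rw [key d', LinearMap.lTensor_comp]
    exact hf (α₀ i)
  -- exactness
  have hex : Function.Exact (LinearMap.ker F).subtype F := LinearMap.exact_subtype_ker_map F
  have hex' := Module.Flat.lTensor_exact O hex
  obtain ⟨d'', rfl⟩ := (hex' d').mp hF
  -- the kernel of `F` lies in the joint kernel
  have hker : ∀ x : LinearMap.ker F, ((x : esTorsZ J q) : J) ∈ esJointKer q f := by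
    intro x
    refine ⟨mem_esTorsZ.mp (x : esTorsZ J q).2, fun α => ?_⟩
    by_contra hne
    let i : I₀ := ⟨(x : esTorsZ J q), ⟨α, hne⟩⟩
    have h1 : F (x : esTorsZ J q) i = 0 := by
      have := x.2
      rw [LinearMap.mem_ker] at this
      rw [this]
      rfl
    exact hα₀ i h1
  let incl : LinearMap.ker F →ₗ[ℤ] esJointKer q f :=
    { toFun := fun x => ⟨((x : esTorsZ J q) : J), hker x⟩
      map_add' := fun x y => rfl
      map_smul' := fun c x => rfl }
  have hcomp : (esJointKer q f).subtype ∘ₗ incl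
      = (esTorsZ J q).subtype ∘ₗ (LinearMap.ker F).subtype := rfl
  refine ⟨incl.lTensor O d'', ?_⟩
  rw [← LinearMap.comp_apply, ← LinearMap.lTensor_comp, hcomp, LinearMap.lTensor_comp,
    LinearMap.comp_apply]

/-- An additive map vanishing on the joint kernel vanishes, after base change, on the elements of
`(O ⊗ J)[q]` killed by the base changes of the family. -/
theorem es_tensor_vanish_joint (q : ℤ) (hfin : Finite {x : J // q • x = 0})
    {A : Type*} (f : A → (J →ₗ[ℤ] J')) (φ : J →ₗ[ℤ] J'')
    (hφ : ∀ x : J, q • x = 0 → (∀ α, f α x = 0) → φ x = 0)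
    (d : O ⊗[ℤ] J) (hd : (q : O) • d = 0) (hf : ∀ α, (f α).baseChange O d = 0) :
    φ.baseChange O d = 0 := by
  obtain ⟨e, rfl⟩ := es_tensor_mem_range_joint q hfin f d hd hf
  have h1 : φ ∘ₗ (esJointKer q f).subtype = 0 := by
    apply LinearMap.ext
    intro x
    exact hφ x x.2.1 x.2.2
  have h2 : φ.baseChange O ((esJointKer q f).subtype.lTensor O e)
      = (φ ∘ₗ (esJointKer q f).subtype).lTensor O e := by
    rw [LinearMap.lTensor_comp]
    rfl
  rw [h2, h1, LinearMap.lTensor_zero, LinearMap.zero_apply]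

end Joint

end Fermat.Agent.H52
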