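import Mathlib
import Fermat.Agent.H52.ESTateMachine
import Fermat.Agent.H52.ESTateJoint

/-!
# The full Tate machine: master transfer (Mathlib + `H52.tateMachine` ingredients)

`tateMachineFull : TateMachineFullStatement` (unconditional): the lattice of
`Fermat.Agent.H37.TateMachineStatement`, with in addition the **master transfer**

  for every subset `I` of `G`, every `z ∈ ℤ[G]` and every `c ≠ 0`:
  `(∀ x ∈ J[p^∞], (∀ τ ∈ I, τ x = x) → c • z x = 0) → (∀ v ∈ Λ, (∀ τ ∈ I, ρ τ v = v) → z v = 0)`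

and its three most useful instances (no invariants; a product identity; an identity on
invariants).
-/

set_option autoImplicit false

namespace Fermat.Agent.H52

open TensorProduct

section Lift

variable {O : Type*} [CommRing O] {D : Type*} [AddCommGroup D] [Module O D] {ϖ : O}
  {ι : Type*} {f : ι → Module.End O D} {a : ι → O} {G : Type*} [Monoid G]

/-- The action of the group ring on the eigen-lattice is coordinatewise. -/
lemma esTateRep_lift_apply (ρ : G →* Module.End O D)
    (hcomm : ∀ g i, ρ g * f i = f i * ρ g) (z : MonoidAlgebra ℤ G)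
    (x : esTateEigen ϖ f a) (n : ℕ) :
    ((MonoidAlgebra.lift ℤ (Module.End O (esTateEigen ϖ f a)) G
        (esTateRep ϖ f a ρ hcomm) z x : esTateEigen ϖ f a) : ℕ → D) n
      = MonoidAlgebra.lift ℤ (Module.End O D) G ρ z ((x : ℕ → D) n) := by
  induction z using MonoidAlgebra.induction_on with
  | of g =>
    rw [MonoidAlgebra.lift_of, MonoidAlgebra.lift_of]
    rfl
  | add z₁ z₂ h₁ h₂ =>
    rw [map_add, map_add, LinearMap.add_apply, LinearMap.add_apply, Submodule.coe_add,
      Pi.add_apply, h₁, h₂]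
  | smul r z h =>
    rw [map_smul, map_smul, LinearMap.smul_apply, LinearMap.smul_apply]
    have : (((r • (MonoidAlgebra.lift ℤ (Module.End O (esTateEigen ϖ f a)) G
        (esTateRep ϖ f a ρ hcomm) z x) : esTateEigen ϖ f a)) : ℕ → D)
        = r • (((MonoidAlgebra.lift ℤ (Module.End O (esTateEigen ϖ f a)) G
        (esTateRep ϖ f a ρ hcomm) z x) : esTateEigen ϖ f a) : ℕ → D) := by
      exact AddSubgroupClass.coe_zsmul _ _
    rw [this, Pi.smul_apply, h]

/-- **Master transfer, abstract form.** -/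
lemma esTateRep_transfer (ρ : G →* Module.End O D)
    (hcomm : ∀ g i, ρ g * f i = f i * ρ g) (I : Set G) (z : MonoidAlgebra ℤ G) (c : O)
    (hD : ∀ (d : D) (n : ℕ), ϖ ^ n • d = 0 → (∀ τ ∈ I, ρ τ d = d) →
      c • MonoidAlgebra.lift ℤ (Module.End O D) G ρ z d = 0)
    (v : esTateEigen ϖ f a) (hv : ∀ τ ∈ I, esTateRep ϖ f a ρ hcomm τ v = v) :
    c • MonoidAlgebra.lift ℤ (Module.End O (esTateEigen ϖ f a)) G
      (esTateRep ϖ f a ρ hcomm) z v = 0 := by
  apply Subtype.ext
  funext n
  show c • ((MonoidAlgebra.lift ℤ (Module.End O (esTateEigen ϖ f a)) G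
      (esTateRep ϖ f a ρ hcomm) z v : esTateEigen ϖ f a) : ℕ → D) n = 0
  rw [esTateRep_lift_apply]
  refine hD _ n (esTate_pow_smul_self v.2.1 n) (fun τ hτ => ?_)
  have := congrArg (fun y : esTateEigen ϖ f a => (y : ℕ → D) n) (hv τ hτ)
  exact this

end Lift

section BaseChange

variable {G : Type*} [Monoid G] {J : Type*} [AddCommGroup J] [DistribMulAction G J]
  (O : Type*) [CommRing O]

/-- The action of the group ring on `O ⊗ J` is the base change of the action on `J`. -/
lemma esTensorAct_lift (z : MonoidAlgebra ℤ G) :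
    MonoidAlgebra.lift ℤ (Module.End O (O ⊗[ℤ] J)) G (esTensorAct O) z
      = (MonoidAlgebra.lift ℤ (Module.End ℤ J) G (DistribMulAction.toModuleEnd ℤ J) z).baseChange
          O := by
  induction z using MonoidAlgebra.induction_on with
  | of g =>
    rw [MonoidAlgebra.lift_of, MonoidAlgebra.lift_of]
    rfl
  | add z₁ z₂ h₁ h₂ =>
    rw [map_add, map_add, h₁, h₂, LinearMap.baseChange_add]
  | smul r z h =>
    rw [map_smul, map_smul, h, LinearMap.baseChange_smul]

end BaseChange

section PackageFull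

/-- **The Tate lattice with master transfer** (abstract form): as `exists_tate_lattice`, with
the transfer of group-ring identities on invariants. -/
theorem exists_tate_lattice_full {O : Type} [CommRing O] [IsDomain O]
    [IsDiscreteValuationRing O] [IsAdicComplete (IsLocalRing.maximalIdeal O) O]
    {D : Type} [AddCommGroup D] [Module O D] (ϖ : O)
    (hϖ : ϖ ∈ IsLocalRing.maximalIdeal O) (hϖ0 : ϖ ≠ 0)
    (hfin : (Submodule.torsionBy O D ϖ).FG)
    {G : Type} [Monoid G] (ρ : G →* Module.End O D)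
    {ι : Type} (f : ι → Module.End O D) (a : ι → O)
    (hcomm : ∀ g i, ρ g * f i = f i * ρ g)
    (x₀ : ℕ → D) (hx₀ : x₀ ∈ esTateEigen ϖ f a) (hne : x₀ ≠ 0) :
    ∃ (Λ : Type) (_ : AddCommGroup Λ) (_ : Module O Λ) (_ : Module.Free O Λ)
      (_ : Module.Finite O Λ) (_ : Nontrivial Λ) (ρ' : G →* Module.End O Λ),
      (∀ (g : G) (n : ℕ), (∀ d : D, ϖ ^ n • d = 0 → ρ g d = d) →
        ∀ v : Λ, ρ' g v - v ∈ (IsLocalRing.maximalIdeal O ^ n) • (⊤ : Submodule O Λ)) ∧
      (∀ (g : G) (i : ι) (c : O),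
        (∀ (d : D) (n : ℕ), ϖ ^ n • d = 0 → ρ g (ρ g d) - f i (ρ g d) + c • d = 0) →
          ρ' g * ρ' g - a i • ρ' g + c • (1 : Module.End O Λ) = 0) ∧
      (∀ g : G, (∀ (d : D) (n : ℕ), ϖ ^ n • d = 0 → ρ g d = d) → ρ' g = 1) ∧
      (∀ (I : Set G) (z : MonoidAlgebra ℤ G) (c : O), c ≠ 0 →
        (∀ (d : D) (n : ℕ), ϖ ^ n • d = 0 → (∀ τ ∈ I, ρ τ d = d) →
          c • MonoidAlgebra.lift ℤ (Module.End O D) G ρ z d = 0) →
        ∀ v : Λ, (∀ τ ∈ I, ρ' τ v = v) →
          MonoidAlgebra.lift ℤ (Module.End O Λ) G ρ' z v = 0) := by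
  have hfg : (esTateEigen ϖ f a).FG := esTate_sub_fg hϖ hϖ0 hfin _ esTateEigen_le
  have iFin : Module.Finite O (esTateEigen ϖ f a) := Module.Finite.iff_fg.mpr hfg
  have iTF : Module.IsTorsionFree O (esTateEigen ϖ f a) :=
    esTate_isTorsionFree hϖ hϖ0 _ esTateEigen_le
  have iFree : Module.Free O (esTateEigen ϖ f a) := Module.free_of_finite_type_torsion_free'
  have iNt : Nontrivial (esTateEigen ϖ f a) :=
    ⟨⟨⟨x₀, hx₀⟩, 0, fun h => hne (congrArg Subtype.val h)⟩⟩
  refine ⟨esTateEigen ϖ f a, inferInstance, inferInstance, iFree, iFin, iNt,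
    esTateRep ϖ f a ρ hcomm, ?_, ?_, ?_, ?_⟩
  · intro g n hg v
    have h1 := esTateRep_sub_mem (a := a) ρ hcomm g n hg v
    have hle : Ideal.span {ϖ ^ n} ≤ IsLocalRing.maximalIdeal O ^ n := by
      rw [Ideal.span_singleton_le_iff_mem]
      exact Ideal.pow_mem_pow hϖ n
    exact Submodule.smul_mono_left hle h1
  · intro g i c hg
    exact esTateRep_rel ρ hcomm g i c hg
  · intro g hg
    exact esTateRep_eq_one ρ hcomm g hg
  · intro I z c hc hD v hv
    have h := esTateRep_transfer (a := a) ρ hcomm I z c hD v hv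
    exact (smul_eq_zero.mp h).resolve_left hc

end PackageFull

/-- **The full Tate machine**: the statement. -/
def TateMachineFullStatement : Prop :=
  ∀ (p : ℕ) [Fact p.Prime] (G : Type) [Group G] (J : Type) [AddCommGroup J]
    [DistribMulAction G J] (ι : Type) (T : ι → (J →+ J)),
    (∀ (i : ι) (g : G) (x : J), T i (g • x) = g • T i x) →
    (∀ k : ℕ, Finite {x : J // p ^ k • x = 0}) →
    ∀ (𝒪 : Type) [CommRing 𝒪] [IsDomain 𝒪] [IsDiscreteValuationRing 𝒪]
      [IsAdicComplete (IsLocalRing.maximalIdeal 𝒪) 𝒪] [Finite (IsLocalRing.ResidueField 𝒪)]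
      [CharZero 𝒪], (p : 𝒪) ∈ IsLocalRing.maximalIdeal 𝒪 →
    ∀ (a : ι → 𝒪),
      (∀ k : ℕ, ∃ v : 𝒪 ⊗[ℤ] J, (p : 𝒪) ^ (k + 1) • v = 0 ∧ (p : 𝒪) ^ k • v ≠ 0 ∧
        ∀ i : ι, (T i).toIntLinearMap.baseChange 𝒪 v = a i • v) →
      ∃ (Λ : Type) (_ : AddCommGroup Λ) (_ : Module 𝒪 Λ) (_ : Module.Free 𝒪 Λ)
        (_ : Module.Finite 𝒪 Λ) (_ : Nontrivial Λ) (ρ : G →* Module.End 𝒪 Λ),
        -- the three clauses of `H37.TateMachineStatement`
        (∀ (k : ℕ) (g : G), (∀ x : J, p ^ k • x = 0 → g • x = x) →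
          ∀ v : Λ, ρ g v - v ∈ (IsLocalRing.maximalIdeal 𝒪 ^ k) • (⊤ : Submodule 𝒪 Λ)) ∧
        (∀ g : G, (∀ x : J, (∃ k : ℕ, p ^ k • x = 0) → g • x = x) → ρ g = 1) ∧
        (∀ (g : G) (i : ι) (c : ℕ),
          (∀ x : J, (∃ k : ℕ, p ^ k • x = 0) → g • g • x - T i (g • x) + c • x = 0) →
            ρ g * ρ g - a i • ρ g + (c : 𝒪) • (1 : Module.End 𝒪 Λ) = 0) ∧
        -- master transfer
        (∀ (I : Set G) (z : MonoidAlgebra ℤ G) (c : ℕ), c ≠ 0 →
          (∀ x : J, (∃ k : ℕ, p ^ k • x = 0) → (∀ τ ∈ I, τ • x = x) →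
            c • MonoidAlgebra.lift ℤ (Module.End ℤ J) G (DistribMulAction.toModuleEnd ℤ J) z x
              = 0) →
          ∀ v : Λ, (∀ τ ∈ I, ρ τ v = v) →
            MonoidAlgebra.lift ℤ (Module.End 𝒪 Λ) G ρ z v = 0) ∧
        -- no invariants
        (∀ (I : Set G) (c : ℕ), c ≠ 0 →
          (∀ x : J, (∃ k : ℕ, p ^ k • x = 0) → (∀ τ ∈ I, τ • x = x) → c • x = 0) →
          ∀ v : Λ, (∀ τ ∈ I, ρ τ v = v) → v = 0) ∧
        -- a product identity `(φ² - m)(τ - 1) = 0`
        (∀ (φ τ : G) (m c : ℕ), c ≠ 0 →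
          (∀ x : J, (∃ k : ℕ, p ^ k • x = 0) →
            c • (φ • φ • (τ • x - x) - m • (τ • x - x)) = 0) →
          (ρ φ * ρ φ - (m : 𝒪) • (1 : Module.End 𝒪 Λ)) * (ρ τ - 1) = 0) ∧
        -- an identity `φ² = m` on invariants
        (∀ (I : Set G) (φ : G) (m c : ℕ), c ≠ 0 →
          (∀ x : J, (∃ k : ℕ, p ^ k • x = 0) → (∀ τ ∈ I, τ • x = x) →
            c • (φ • φ • x - m • x) = 0) →
          ∀ v : Λ, (∀ τ ∈ I, ρ τ v = v) → ρ φ (ρ φ v) = (m : 𝒪) • v)

/-- **The full Tate machine.** -/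
theorem tateMachineFull : TateMachineFullStatement := by
  intro p _ G _ J _ _ ι T hTcomm hfinJ O _ _ _ _ _ _ hpO a hocc
  let ρJ : G →* Module.End ℤ J := DistribMulAction.toModuleEnd ℤ J
  let ρD : G →* Module.End O (O ⊗[ℤ] J) := esTensorAct O
  let f : ι → Module.End O (O ⊗[ℤ] J) := fun i => (T i).toIntLinearMap.baseChange O
  have hϖ0 : (p : O) ≠ 0 := Nat.cast_ne_zero.mpr (Fact.out : p.Prime).ne_zero
  have hflat : Module.Flat ℤ O := inferInstance
  have hcast : ∀ n : ℕ, (((p ^ n : ℕ) : ℤ) : O) = (p : O) ^ n := fun n => by push_cast; rfl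
  have hfinJ' : ∀ n : ℕ, Finite {x : J // ((p ^ n : ℕ) : ℤ) • x = 0} := by
    intro n
    have h0 := hfinJ n
    refine Finite.of_injective (fun x : {x : J // ((p ^ n : ℕ) : ℤ) • x = 0} =>
      (⟨x.1, by have := x.2; rw [natCast_zsmul] at this; exact this⟩ :
        {x : J // p ^ n • x = 0})) ?_
    intro x y h
    have h' : (x : J) = (y : J) := by
      simp only [Subtype.mk.injEq] at h
      exact h
    exact Subtype.ext h'
  have hfin : (Submodule.torsionBy O (O ⊗[ℤ] J) (p : O)).FG := by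
    have h2 := es_tensor_torsion_fg (O := O) (J := J) ((p ^ 1 : ℕ) : ℤ) (hfinJ' 1)
    rw [hcast 1, pow_one] at h2
    exact h2
  have hcomm : ∀ g i, ρD g * f i = f i * ρD g := by
    intro g i
    show (ρJ g).baseChange O * (T i).toIntLinearMap.baseChange O
      = (T i).toIntLinearMap.baseChange O * (ρJ g).baseChange O
    rw [← LinearMap.baseChange_mul, ← LinearMap.baseChange_mul]
    congr 1
    apply LinearMap.ext
    intro x
    exact (hTcomm i g x).symm
  -- finiteness of the torsion levels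
  have hfinite : ∀ k : ℕ, Finite {w : O ⊗[ℤ] J // (p : O) ^ (k + 1) • w = 0} := by
    intro k
    have hq0 : (((p ^ (k + 1) : ℕ) : ℤ) : O) ≠ 0 := by
      rw [hcast]; exact pow_ne_zero _ hϖ0
    have hfq := es_dvr_finite_quotient hq0
    have := es_tensor_torsion_finite (O := O) (J := J) ((p ^ (k + 1) : ℕ) : ℤ) (hfinJ' (k + 1))
    rw [hcast] at this
    exact this
  -- a compatible system of eigenvectors
  obtain ⟨x₀, hx0, hxs, hxne, hxeig⟩ :=
    es_exists_compatible (p : O) (fun w => ∀ i, f i w = a i • w)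
      (fun i => by simp)
      (fun w hw i => by rw [map_smul, hw i, smul_comm])
      hfinite hocc
  have hx₀ : x₀ ∈ esTateEigen (p : O) f a := ⟨⟨hx0, hxs⟩, fun i n => hxeig n i⟩
  obtain ⟨Λ, iA, iM, iFr, iFi, iNt, ρ', hcont, hrel, hone, hmaster⟩ :=
    exists_tate_lattice_full (p : O) hpO hϖ0 hfin ρD f a hcomm x₀ hx₀ hxne
  -- key transfer
  have key : ∀ (φ : Module.End ℤ J) (n : ℕ),
      (∀ x : J, p ^ n • x = 0 → φ x = 0) →
        ∀ d : O ⊗[ℤ] J, (p : O) ^ n • d = 0 → φ.baseChange O d = 0 := by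
    intro φ n hφ d hd
    refine es_tensor_vanish ((p ^ n : ℕ) : ℤ) φ (fun x hx => hφ x ?_) d ?_
    · rwa [natCast_zsmul] at hx
    · rw [hcast]
      exact hd
  have hfix : ∀ (g : G) (n : ℕ), (∀ x : J, p ^ n • x = 0 → g • x = x) →
      ∀ d : O ⊗[ℤ] J, (p : O) ^ n • d = 0 → ρD g d = d := by
    intro g n hg d hd
    have h1 : ∀ x : J, p ^ n • x = 0 → (ρJ g - 1) x = 0 := by
      intro x hx
      show g • x - x = 0
      rw [sub_eq_zero]
      exact hg x hx
    have h2 := key (ρJ g - 1) n h1 d hd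
    rw [LinearMap.baseChange_sub, LinearMap.baseChange_one, LinearMap.sub_apply,
      sub_eq_zero] at h2
    exact h2
  -- the master transfer on `Λ`
  have hM : ∀ (I : Set G) (z : MonoidAlgebra ℤ G) (c : ℕ), c ≠ 0 →
      (∀ x : J, (∃ k : ℕ, p ^ k • x = 0) → (∀ τ ∈ I, τ • x = x) →
        c • MonoidAlgebra.lift ℤ (Module.End ℤ J) G ρJ z x = 0) →
      ∀ v : Λ, (∀ τ ∈ I, ρ' τ v = v) →
        MonoidAlgebra.lift ℤ (Module.End O Λ) G ρ' z v = 0 := by
    intro I z c hc hJ v hv
    refine hmaster I z (c : O) (Nat.cast_ne_zero.mpr hc) ?_ v hv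
    intro d n hd hdI
    rw [esTensorAct_lift]
    set Z : Module.End ℤ J := MonoidAlgebra.lift ℤ (Module.End ℤ J) G ρJ z with hZ
    have h1 : ((c : ℤ) • Z).baseChange O d = 0 := by
      refine es_tensor_vanish_joint ((p ^ n : ℕ) : ℤ) (hfinJ' n)
        (fun τ : I => ρJ (τ : G) - 1) ((c : ℤ) • Z) ?_ d ?_ ?_
      · intro x hx hxI
        rw [natCast_zsmul] at hx
        have h3 := hJ x ⟨n, hx⟩ (fun τ hτ => by
          have := hxI ⟨τ, hτ⟩
          rw [LinearMap.sub_apply, sub_eq_zero] at this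
          exact this)
        rw [LinearMap.smul_apply, natCast_zsmul]
        exact h3
      · rw [hcast]
        exact hd
      · intro τ
        rw [LinearMap.baseChange_sub, LinearMap.baseChange_one, LinearMap.sub_apply,
          sub_eq_zero]
        exact hdI τ τ.2
    rw [LinearMap.baseChange_smul, LinearMap.smul_apply, natCast_zsmul,
      ← Nat.cast_smul_eq_nsmul O] at h1
    exact h1
  refine ⟨Λ, iA, iM, iFr, iFi, iNt, ρ', ?_, ?_, ?_, hM, ?_, ?_, ?_⟩
  · intro k g hg v
    exact hcont g k (hfix g k hg) v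
  · intro g hg
    apply hone
    intro d n hd
    exact hfix g n (fun x hx => hg x ⟨n, hx⟩) d hd
  · intro g i c hg
    refine hrel g i (c : O) ?_
    intro d n hd
    have h1 : ∀ x : J, p ^ n • x = 0 →
        (ρJ g * ρJ g - (T i).toIntLinearMap * ρJ g + (c : ℤ) • (1 : Module.End ℤ J)) x = 0 := by
      intro x hx
      show g • g • x - T i (g • x) + (c : ℤ) • x = 0
      rw [natCast_zsmul]
      exact hg x ⟨n, hx⟩
    have h2 := key _ n h1 d hd
    rw [LinearMap.baseChange_add, LinearMap.baseChange_sub, LinearMap.baseChange_mul,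
      LinearMap.baseChange_mul, LinearMap.baseChange_smul, LinearMap.baseChange_one] at h2
    have h3 : ((c : ℤ) • (1 : Module.End O (O ⊗[ℤ] J))) d = (c : O) • d := by
      rw [LinearMap.smul_apply, Module.End.one_apply, natCast_zsmul, Nat.cast_smul_eq_nsmul]
    rw [LinearMap.add_apply, LinearMap.sub_apply, h3] at h2
    exact h2
  · -- no invariants
    intro I c hc hJ v hv
    have := hM I 1 c hc (fun x hx hxI => by
      rw [map_one, Module.End.one_apply]
      exact hJ x hx hxI) v hv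
    rw [map_one, Module.End.one_apply] at this
    exact this
  · -- product identity
    intro φ τ m c hc hJ
    apply LinearMap.ext
    intro v
    have := hM ∅
      ((MonoidAlgebra.of ℤ G φ * MonoidAlgebra.of ℤ G φ - (m : MonoidAlgebra ℤ G))
        * (MonoidAlgebra.of ℤ G τ - 1)) c hc (fun x hx _ => by
      rw [map_mul, map_sub, map_sub, map_mul, MonoidAlgebra.lift_of, MonoidAlgebra.lift_of,
        map_one, map_natCast]
      have := hJ x hx
      have e : ((ρJ φ * ρJ φ - (m : Module.End ℤ J)) * (ρJ τ - 1)) x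
          = φ • φ • (τ • x - x) - m • (τ • x - x) := by
        rw [Module.End.mul_apply, LinearMap.sub_apply, Module.End.mul_apply]
        have e1 : (ρJ τ - 1) x = τ • x - x := rfl
        have e2 : ∀ y : J, (m : Module.End ℤ J) y = m • y := by
          intro y
          rw [← nsmul_one, LinearMap.smul_apply, Module.End.one_apply]
        rw [e1, e2]
        rfl
      rw [e]
      exact this) v (fun τ' hτ' => absurd hτ' (Set.notMem_empty τ'))
    rw [map_mul, map_sub, map_sub, map_mul, MonoidAlgebra.lift_of, MonoidAlgebra.lift_of,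
      map_one, map_natCast] at this
    have e3 : ((m : Module.End O Λ)) = (m : O) • (1 : Module.End O Λ) := by
      rw [Nat.cast_smul_eq_nsmul, nsmul_one]
    rw [e3] at this
    rw [LinearMap.zero_apply]
    exact this
  · -- identity on invariants
    intro I φ m c hc hJ v hv
    have := hM I
      (MonoidAlgebra.of ℤ G φ * MonoidAlgebra.of ℤ G φ - (m : MonoidAlgebra ℤ G)) c hc
      (fun x hx hxI => by
        rw [map_sub, map_mul, MonoidAlgebra.lift_of, map_natCast]
        have := hJ x hx hxI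
        have e : ((ρJ φ * ρJ φ - (m : Module.End ℤ J))) x = φ • φ • x - m • x := by
          rw [LinearMap.sub_apply, Module.End.mul_apply]
          have e2 : ∀ y : J, (m : Module.End ℤ J) y = m • y := by
            intro y
            rw [← nsmul_one, LinearMap.smul_apply, Module.End.one_apply]
          rw [e2]
          rfl
        rw [e]
        exact this) v hv
    rw [map_sub, map_mul, MonoidAlgebra.lift_of, map_natCast, LinearMap.sub_apply,
      Module.End.mul_apply, sub_eq_zero] at this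
    rw [this, ← nsmul_one, LinearMap.smul_apply, Module.End.one_apply, Nat.cast_smul_eq_nsmul]

end Fermat.Agent.H52
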