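import Mathlib
import Fermat.Prelude.Def_ModularCurve_ArithmeticGalois
import Fermat.Prelude.Def_CuspForm_HeckeGaloisRepDatum
import Fermat.Agent.H52.ESTateTensor
import Fermat.Agent.H52.ESS30

/-!
# The Tate-module package for S30 (P-ES, row S30-PADIC)

* `EichlerShimuraTowerStatement` : the `J`-side input ("tower package"): for every level `N` and
  prime `p`, the `p`-power torsion of `J₀(N)(ℚ̄)` is finite at each level, of finite Galois level,
  unramified outside `N p`, carries additive operators `T ℓ` commuting with `G_ℚ` and satisfying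
  the Eichler–Shimura relation at Frobenius elements; and every character `χ` of the Hecke
  algebra occurs in the Tate module of `𝒪' ⊗ J₀(N)`.
* `lattice_of_tower` : `EichlerShimuraTowerStatement → EichlerShimuraLatticeStatement`
  (pure algebra: Tate module of `𝒪' ⊗_ℤ J`, topological Nakayama, eigen-lattice).
* `s30_of_tower` : the frozen statement of S30 from `EichlerShimuraTowerStatement`.
-/

set_option autoImplicit false

namespace Fermat.Agent.H52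

open TensorProduct ModularCurve

/-- **The tower package** (the `J`-side input of S30). -/
def EichlerShimuraTowerStatement : Prop :=
  ∀ (p : ℕ) [Fact p.Prime] (N : ℕ) [NeZero N],
    -- (a) finiteness
    (∀ k : ℕ, Finite {x : JZero N // p ^ k • x = 0}) ∧
    -- (b) finite level
    (∀ (k : ℕ) (x : JZero N), p ^ k • x = 0 →
      ∃ L : IntermediateField ℚ (AlgebraicClosure ℚ), FiniteDimensional ℚ L ∧
        ∀ σ : AlgebraicClosure ℚ ≃ₐ[ℚ] AlgebraicClosure ℚ, (∀ z ∈ L, σ z = z) → σ • x = x) ∧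
    -- (c) unramified outside `N p`
    (∀ q : ℕ, q.Prime → ¬ q ∣ N → q ≠ p →
      ∀ P : ValuationSubring (AlgebraicClosure ℚ), P.LiesOverPrime q →
        ∀ σ ∈ P.inertiaSubgroupIn ℚ, ∀ (k : ℕ) (x : JZero N), p ^ k • x = 0 → σ • x = x) ∧
    -- (d) Hecke operators and the Eichler–Shimura relation, (e) occurrence of characters
    ∃ T : ℕ → Module.End ℤ (JZero N),
      (∀ (ℓ : ℕ) (σ : AlgebraicClosure ℚ ≃ₐ[ℚ] AlgebraicClosure ℚ) (x : JZero N),
        T ℓ (σ • x) = σ • T ℓ x) ∧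
      (∀ ℓ : ℕ, ℓ.Prime → ¬ ℓ ∣ N → ℓ ≠ p →
        ∀ A : ValuationSubring (AlgebraicClosure ℚ), A.LiesOverPrime ℓ →
          ∀ σ : AlgebraicClosure ℚ ≃ₐ[ℚ] AlgebraicClosure ℚ, A.IsFrobeniusAt σ ℓ →
            ∀ (k : ℕ) (x : JZero N), p ^ k • x = 0 →
              σ • σ • x - T ℓ (σ • x) + ℓ • x = 0) ∧
      (∀ (S : Finset ℕ) (_hpS : p ∈ S) (_hNS : ∀ q : ℕ, q.Prime → q ∣ N → q ∈ S)
        (𝒪' : Type) [CommRing 𝒪'] [IsDomain 𝒪'] [IsDiscreteValuationRing 𝒪']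
        [IsAdicComplete (IsLocalRing.maximalIdeal 𝒪') 𝒪']
        [Finite (IsLocalRing.ResidueField 𝒪')]
        [CharZero 𝒪'] (_hp𝒪' : (p : 𝒪') ∈ IsLocalRing.maximalIdeal 𝒪')
        (χ : CuspForm.heckeAlgebra N 2 (↑S : Set ℕ) →+* 𝒪'),
        ∃ x₀ : ℕ → 𝒪' ⊗[ℤ] JZero N,
          x₀ 0 = 0 ∧ (∀ n, (p : 𝒪') • x₀ (n + 1) = x₀ n) ∧ x₀ ≠ 0 ∧
          ∀ (ℓ : ℕ) (hℓ : ℓ.Prime) (hℓN : ¬ ℓ ∣ N) (hℓS : ℓ ∉ (↑S : Set ℕ)) (n : ℕ),
            (T ℓ).baseChange 𝒪' (x₀ n) = χ (CuspForm.heckeAlgebra.T hℓ hℓN hℓS) • x₀ n)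

section Aux

variable {G : Type*} [Group G] {J : Type*} [AddCommGroup J] [DistribMulAction G J]
  (O : Type*) [CommRing O]

/-- The action of `G` on `O ⊗_ℤ J`. -/
noncomputable def esTensorRep : G →* Module.End O (O ⊗[ℤ] J) where
  toFun g := (DistribMulAction.toModuleEnd ℤ J g).baseChange O
  map_one' := by rw [map_one, LinearMap.baseChange_one]
  map_mul' g h := by rw [map_mul, LinearMap.baseChange_mul]

lemma esTensorRep_apply (g : G) :
    esTensorRep (J := J) O g = (DistribMulAction.toModuleEnd ℤ J g).baseChange O := rfl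

end Aux

/-- **From the tower package to the lattice statement** (pure algebra). -/
theorem lattice_of_tower (hT : EichlerShimuraTowerStatement) :
    EichlerShimuraLatticeStatement := by
  intro p _ N _ S hpS hNS 𝒪' _ _ _ _ _ _ hp𝒪' χ
  obtain ⟨hfinJ, hlevel, hunr, T, hTcomm, hES, hocc⟩ := hT p N
  obtain ⟨x₀, hx0, hxs, hxne, hxeig⟩ := hocc S hpS hNS 𝒪' hp𝒪' χ
  -- notation
  let ρJ : (AlgebraicClosure ℚ ≃ₐ[ℚ] AlgebraicClosure ℚ) →* Module.End ℤ (JZero N) :=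
    DistribMulAction.toModuleEnd ℤ (JZero N)
  let ρD : (AlgebraicClosure ℚ ≃ₐ[ℚ] AlgebraicClosure ℚ) →*
      Module.End 𝒪' (𝒪' ⊗[ℤ] JZero N) := esTensorRep 𝒪'
  have hρD : ∀ g, ρD g = (ρJ g).baseChange 𝒪' := fun g => rfl
  let f : {ℓ : ℕ // ℓ.Prime ∧ ¬ ℓ ∣ N ∧ ℓ ∉ (↑S : Set ℕ)} →
      Module.End 𝒪' (𝒪' ⊗[ℤ] JZero N) := fun ℓ => (T ℓ.1).baseChange 𝒪'
  let a : {ℓ : ℕ // ℓ.Prime ∧ ¬ ℓ ∣ N ∧ ℓ ∉ (↑S : Set ℕ)} → 𝒪' :=
    fun ℓ => χ (CuspForm.heckeAlgebra.T ℓ.2.1 ℓ.2.2.1 ℓ.2.2.2)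
  have hϖ0 : (p : 𝒪') ≠ 0 := Nat.cast_ne_zero.mpr (Fact.out : p.Prime).ne_zero
  have hflat : Module.Flat ℤ 𝒪' := inferInstance
  have hfin : (Submodule.torsionBy 𝒪' (𝒪' ⊗[ℤ] JZero N) (p : 𝒪')).FG := by
    have h1 : Finite {x : JZero N // (p : ℤ) • x = 0} := by
      have h0 := hfinJ 1
      refine Finite.of_injective (fun x : {x : JZero N // (p : ℤ) • x = 0} =>
        (⟨x.1, by have := x.2; rw [natCast_zsmul] at this; rw [pow_one]; exact this⟩ :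
          {x : JZero N // p ^ 1 • x = 0})) ?_
      intro x y h
      have h' : (x : JZero N) = (y : JZero N) := by
        simp only [Subtype.mk.injEq] at h
        exact h
      exact Subtype.ext h'
    have h2 := es_tensor_torsion_fg (O := 𝒪') (J := JZero N) (p : ℤ) h1
    simpa using h2
  have hcomm : ∀ g i, ρD g * f i = f i * ρD g := by
    intro g i
    show (ρJ g).baseChange 𝒪' * (T i.1).baseChange 𝒪'
      = (T i.1).baseChange 𝒪' * (ρJ g).baseChange 𝒪'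
    rw [← LinearMap.baseChange_mul, ← LinearMap.baseChange_mul]
    congr 1
    apply LinearMap.ext
    intro x
    exact (hTcomm i.1 g x).symm
  have hx₀ : x₀ ∈ esTateEigen (p : 𝒪') f a :=
    ⟨⟨hx0, hxs⟩, fun i n => hxeig i.1 i.2.1 i.2.2.1 i.2.2.2 n⟩
  obtain ⟨Λ, iA, iM, iFr, iFi, iNt, ρ', hcont, hrel, hone⟩ :=
    exists_tate_lattice (p : 𝒪') hp𝒪' hϖ0 hfin ρD f a hcomm x₀ hx₀ hxne
  -- key transfer: additive maps vanishing on `p ^ n`-torsion
  have key : ∀ (φ : Module.End ℤ (JZero N)) (n : ℕ),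
      (∀ x : JZero N, p ^ n • x = 0 → φ x = 0) →
        ∀ d : 𝒪' ⊗[ℤ] JZero N, (p : 𝒪') ^ n • d = 0 → φ.baseChange 𝒪' d = 0 := by
    intro φ n hφ d hd
    refine es_tensor_vanish ((p ^ n : ℕ) : ℤ) φ (fun x hx => hφ x ?_) d ?_
    · rwa [natCast_zsmul] at hx
    · push_cast
      exact hd
  have hfix : ∀ (σ : AlgebraicClosure ℚ ≃ₐ[ℚ] AlgebraicClosure ℚ) (n : ℕ),
      (∀ x : JZero N, p ^ n • x = 0 → σ • x = x) →
        ∀ d : 𝒪' ⊗[ℤ] JZero N, (p : 𝒪') ^ n • d = 0 → ρD σ d = d := by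
    intro σ n hσ d hd
    have h1 : ∀ x : JZero N, p ^ n • x = 0 → (ρJ σ - 1) x = 0 := by
      intro x hx
      show σ • x - x = 0
      rw [sub_eq_zero]
      exact hσ x hx
    have h2 := key (ρJ σ - 1) n h1 d hd
    rw [LinearMap.baseChange_sub, LinearMap.baseChange_one, LinearMap.sub_apply,
      sub_eq_zero] at h2
    exact h2
  refine ⟨Λ, iA, iM, iFr, iFi, iNt, ρ', ?_, ?_, ?_⟩
  · -- continuity
    intro n
    have hL : ∀ x : {x : JZero N // p ^ n • x = 0},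
        ∃ L : IntermediateField ℚ (AlgebraicClosure ℚ), FiniteDimensional ℚ L ∧
          ∀ σ : AlgebraicClosure ℚ ≃ₐ[ℚ] AlgebraicClosure ℚ,
            (∀ z ∈ L, σ z = z) → σ • x.1 = x.1 := fun x => hlevel n x.1 x.2
    choose L hLfd hLfix using hL
    have hfinn := hfinJ n
    have hLfd' : ∀ x, FiniteDimensional ℚ (L x) := hLfd
    refine ⟨⨆ x, L x, IntermediateField.finiteDimensional_iSup_of_finite, fun σ hσ v => ?_⟩
    apply hcont σ n
    exact hfix σ n fun x hx =>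
      hLfix ⟨x, hx⟩ σ (fun z hz => hσ z (le_iSup L ⟨x, hx⟩ hz))
  · -- the Eichler–Shimura relation
    intro ℓ hℓ hℓN hℓS A hA σ hσ
    have hℓp : ℓ ≠ p := fun h => hℓS (h ▸ Finset.mem_coe.mpr hpS)
    refine hrel σ ⟨ℓ, hℓ, hℓN, hℓS⟩ (ℓ : 𝒪') ?_
    intro d n hd
    have h1 : ∀ x : JZero N, p ^ n • x = 0 →
        (ρJ σ * ρJ σ - T ℓ * ρJ σ + (ℓ : ℤ) • (1 : Module.End ℤ (JZero N))) x = 0 := by
      intro x hx
      show σ • σ • x - T ℓ (σ • x) + (ℓ : ℤ) • x = 0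
      rw [natCast_zsmul]
      exact hES ℓ hℓ hℓN hℓp A hA σ hσ n x hx
    have h2 := key _ n h1 d hd
    rw [LinearMap.baseChange_add, LinearMap.baseChange_sub, LinearMap.baseChange_mul,
      LinearMap.baseChange_mul, LinearMap.baseChange_smul, LinearMap.baseChange_one] at h2
    have h3 : ((ℓ : ℤ) • (1 : Module.End 𝒪' (𝒪' ⊗[ℤ] JZero N))) d = (ℓ : 𝒪') • d := by
      rw [LinearMap.smul_apply, Module.End.one_apply, natCast_zsmul, Nat.cast_smul_eq_nsmul]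
    rw [LinearMap.add_apply, LinearMap.sub_apply, h3] at h2
    exact h2
  · -- inertia
    intro q hq hqN hqp P hP σ hσ
    apply hone
    intro d n hd
    exact hfix σ n (fun x hx => hunr q hq hqN hqp P hP σ hσ n x hx) d hd

/-- **S30 from the tower package.** -/
theorem s30_of_tower (hT : EichlerShimuraTowerStatement) :
    ∀ (p : ℕ) [Fact p.Prime] (N : ℕ) [NeZero N] (S : Finset ℕ)
      (_hpS : p ∈ S) (_hNS : ∀ q : ℕ, q.Prime → q ∣ N → q ∈ S)
      (𝒪' : Type) [CommRing 𝒪'] [IsDomain 𝒪'] [IsDiscreteValuationRing 𝒪']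
      [IsAdicComplete (IsLocalRing.maximalIdeal 𝒪') 𝒪'] [Finite (IsLocalRing.ResidueField 𝒪')]
      [CharZero 𝒪'] (_hp𝒪' : (p : 𝒪') ∈ IsLocalRing.maximalIdeal 𝒪')
      (χ : CuspForm.heckeAlgebra N 2 (↑S : Set ℕ) →+* 𝒪'),
      ∃ (𝒪'' : Type) (_ : CommRing 𝒪'') (_ : IsDomain 𝒪'') (_ : IsDiscreteValuationRing 𝒪'')
        (_ : IsAdicComplete (IsLocalRing.maximalIdeal 𝒪'') 𝒪'')
        (_ : Finite (IsLocalRing.ResidueField 𝒪'')) (_ : CharZero 𝒪'')
        (_ : Algebra 𝒪' 𝒪'') (_ : Module.Finite 𝒪' 𝒪'') (_ : IsLocalHom (algebraMap 𝒪' 𝒪'')),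
      Function.Injective (algebraMap 𝒪' 𝒪'') ∧
      ∃ ρ : GaloisRepAdic 𝒪'',
        (∀ (ℓ : ℕ) (hℓ : ℓ.Prime) (hℓN : ¬ ℓ ∣ N) (hℓS : ℓ ∉ (↑S : Set ℕ)),
          ∀ A : ValuationSubring (AlgebraicClosure ℚ), A.LiesOverPrime ℓ →
            ∀ σ : AlgebraicClosure ℚ ≃ₐ[ℚ] AlgebraicClosure ℚ, A.IsFrobeniusAt σ ℓ →
              LinearMap.charpoly (ρ.ρ σ) =
                Polynomial.X ^ 2
                  - Polynomial.C (algebraMap 𝒪' 𝒪'' (χ (CuspForm.heckeAlgebra.T hℓ hℓN hℓS)))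
                    * Polynomial.X
                  + Polynomial.C ((ℓ : 𝒪''))) ∧
        (∀ q : ℕ, q.Prime → ¬ q ∣ N → q ≠ p → ρ.IsUnramifiedAt q) :=
  s30_of_lattice (lattice_of_tower hT)

end Fermat.Agent.H52
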